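import Fermat.Agent.S21.Defs

/-!
# S21 — piece `Cusp`

A holomorphic function on the upper half plane which is weight-2 invariant under `Γ₀(N)` and has
bounded energy in the cusp strips (for every `SL(2,ℤ)`-translate) is a cusp form.

Main steps (all in namespace `Fermat.Agent.S21.Cusp825`):
* `setIntegral_ball_eq_smul`: area mean value property of holomorphic functions (polar
  coordinates + circle mean value property);
* `norm_sq_mul_le_setIntegral_ball`: area mean value inequality `‖g c‖² π r² ≤ ∫_{B(c,r)} ‖g‖²`;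
* `exists_tail_le`: tails of a bounded increasing family of strip integrals are small;
* `exists_bound_of_energy`: uniform decay on the central strip `|Re z| ≤ 1/2`;
* `isZeroAtImInfty_slash`: every slash translate is zero at `i∞` (periodicity under `T ^ N`);
* `exists_cuspForm_of_zero`: packaging as a `CuspForm`.
-/

set_option autoImplicit false

open ModularCurve UpperHalfPlane CongruenceSubgroup Filter Topology
open MeasureTheory Metric Set Real
open scoped MatrixGroups ComplexConjugate ContDiff ModularForm Manifold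

namespace Fermat.Agent.S21

namespace Cusp825

/-- Integral of a function over `Ioo (-π) π` against the circle map, for a holomorphic function. -/
theorem integral_Ioo_circleMap {G : ℂ → ℂ} {c : ℂ} {ρ : ℝ}
    (hG : DiffContOnCl ℂ G (ball c |ρ|)) :
    ∫ θ in Ioo (-π) π, G (circleMap c ρ θ) = (2 * π) • G c := by
  have h1 := hG.circleAverage
  rw [circleAverage_eq_integral_add (-π)] at h1
  have h2 : ∫ θ in (0:ℝ)..2 * π, G (circleMap c ρ (θ + -π))
      = ∫ θ in (-π)..π, G (circleMap c ρ θ) := by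
    rw [intervalIntegral.integral_comp_add_right (fun θ => G (circleMap c ρ θ)) (-π)]
    congr 1 <;> ring
  rw [h2, intervalIntegral.integral_of_le (by linarith [pi_pos]), integral_Ioc_eq_integral_Ioo]
    at h1
  rw [← h1, smul_smul, mul_inv_cancel₀ (by positivity), one_smul]

theorem polarCoord_symm_eq_circleMap (p : ℝ × ℝ) :
    Complex.polarCoord.symm p = circleMap 0 p.1 p.2 := by
  rw [Complex.polarCoord_symm_apply, circleMap, zero_add, Complex.exp_mul_I]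
  push_cast
  ring

/-- Polar coordinates for the integral over a ball. -/
theorem setIntegral_ball_eq_polar (G : ℂ → ℂ) (c : ℂ) (r : ℝ) :
    ∫ z in ball c r, G z
      = ∫ p in Ioo (0:ℝ) r ×ˢ Ioo (-π) π, p.1 • G (circleMap c p.1 p.2) := by
  have h1 : ∫ z in ball c r, G z
      = ∫ w, (ball (0:ℂ) r).indicator (fun w => G (c + w)) w := by
    rw [← integral_indicator measurableSet_ball,
      ← integral_add_left_eq_self (fun z => (ball c r).indicator G z) c]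
    congr 1
    ext w
    by_cases hw : w ∈ ball (0:ℂ) r
    · have : c + w ∈ ball c r := by
        simpa [mem_ball, dist_eq_norm] using hw
      rw [indicator_of_mem hw, indicator_of_mem this]
    · have : c + w ∉ ball c r := by
        simpa [mem_ball, dist_eq_norm] using hw
      rw [indicator_of_notMem hw, indicator_of_notMem this]
  rw [h1, ← Complex.integral_comp_polarCoord_symm, polarCoord_target]
  have h2 : ∀ p ∈ Ioi (0:ℝ) ×ˢ Ioo (-π) π,
      p.1 • (ball (0:ℂ) r).indicator (fun w => G (c + w)) (Complex.polarCoord.symm p)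
        = (Iio r ×ˢ (univ : Set ℝ)).indicator
            (fun p : ℝ × ℝ => p.1 • G (circleMap c p.1 p.2)) p := by
    rintro ⟨ρ, θ⟩ ⟨hρ, -⟩
    have hρ' : (0:ℝ) < ρ := hρ
    have hnorm : ‖Complex.polarCoord.symm (ρ, θ)‖ = ρ := by
      rw [Complex.norm_polarCoord_symm]; exact abs_of_pos hρ'
    by_cases hlt : ρ < r
    · have hm : Complex.polarCoord.symm (ρ, θ) ∈ ball (0:ℂ) r := by
        rw [mem_ball_zero_iff, hnorm]; exact hlt
      have hm' : (ρ, θ) ∈ Iio r ×ˢ (univ : Set ℝ) := ⟨hlt, mem_univ _⟩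
      rw [indicator_of_mem hm, indicator_of_mem hm', polarCoord_symm_eq_circleMap]
      simp [circleMap]
    · have hm : Complex.polarCoord.symm (ρ, θ) ∉ ball (0:ℂ) r := by
        rw [mem_ball_zero_iff, hnorm]; exact hlt
      have hm' : (ρ, θ) ∉ Iio r ×ˢ (univ : Set ℝ) := fun h => hlt h.1
      rw [indicator_of_notMem hm, indicator_of_notMem hm', smul_zero]
  rw [setIntegral_congr_fun (measurableSet_Ioi.prod measurableSet_Ioo) h2,
    setIntegral_indicator (measurableSet_Iio.prod MeasurableSet.univ)]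
  congr 2
  ext ⟨ρ, θ⟩
  simp only [mem_inter_iff, mem_prod, mem_Ioi, mem_Ioo, mem_Iio, mem_univ, and_true]
  tauto

/-- **Area mean value property** for holomorphic functions. -/
theorem setIntegral_ball_eq_smul {G : ℂ → ℂ} {c : ℂ} {r : ℝ} (hr : 0 < r)
    (hG : DiffContOnCl ℂ G (ball c r)) :
    ∫ z in ball c r, G z = (π * r ^ 2) • G c := by
  rw [setIntegral_ball_eq_polar]
  have hcont : ContinuousOn (fun p : ℝ × ℝ => p.1 • G (circleMap c p.1 p.2))
      (Icc (0:ℝ) r ×ˢ Icc (-π) π) := by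
    have hGc : ContinuousOn G (closedBall c r) := by
      have := hG.continuousOn
      rwa [closure_ball c hr.ne'] at this
    have hmap : MapsTo (fun p : ℝ × ℝ => circleMap c p.1 p.2)
        (Icc (0:ℝ) r ×ˢ Icc (-π) π) (closedBall c r) := by
      rintro ⟨ρ, θ⟩ ⟨⟨hρ0, hρr⟩, -⟩
      simp only [mem_closedBall, dist_eq_norm, circleMap, add_sub_cancel_left, norm_mul,
        Complex.norm_real, Real.norm_eq_abs, Complex.norm_exp_ofReal_mul_I, mul_one]
      rw [abs_of_nonneg hρ0]; exact hρr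
    have hcm : Continuous (fun p : ℝ × ℝ => circleMap c p.1 p.2) := by
      unfold circleMap
      fun_prop
    exact ContinuousOn.smul continuous_fst.continuousOn (hGc.comp hcm.continuousOn hmap)
  have hint : IntegrableOn (fun p : ℝ × ℝ => p.1 • G (circleMap c p.1 p.2))
      (Ioo (0:ℝ) r ×ˢ Ioo (-π) π) (volume.prod volume) := by
    have : IntegrableOn (fun p : ℝ × ℝ => p.1 • G (circleMap c p.1 p.2))
        (Icc (0:ℝ) r ×ˢ Icc (-π) π) (volume.prod volume) :=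
      hcont.integrableOn_compact (isCompact_Icc.prod isCompact_Icc)
    exact this.mono_set (prod_mono Ioo_subset_Icc_self Ioo_subset_Icc_self)
  rw [Measure.volume_eq_prod, setIntegral_prod _ hint]
  have hinner : ∀ ρ ∈ Ioo (0:ℝ) r,
      ∫ θ in Ioo (-π) π, ρ • G (circleMap c ρ θ) = ρ • ((2 * π) • G c) := by
    intro ρ hρ
    rw [integral_smul]
    congr 1
    apply integral_Ioo_circleMap
    rw [abs_of_pos hρ.1]
    exact hG.mono (ball_subset_ball hρ.2.le)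
  rw [setIntegral_congr_fun measurableSet_Ioo hinner, integral_smul_const]
  have hρint : ∫ ρ in Ioo (0:ℝ) r, ρ = r ^ 2 / 2 := by
    rw [← integral_Ioc_eq_integral_Ioo, ← intervalIntegral.integral_of_le hr.le, integral_id]
    ring
  rw [hρint, smul_smul]
  congr 1
  ring

/-- **Area mean value inequality**. -/
theorem norm_sq_mul_le_setIntegral_ball {g : ℂ → ℂ} {c : ℂ} {r : ℝ} (hr : 0 < r)
    (hg : DiffContOnCl ℂ g (ball c r)) :
    ‖g c‖ ^ 2 * (π * r ^ 2) ≤ ∫ z in ball c r, ‖g z‖ ^ 2 := by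
  have hg2 : DiffContOnCl ℂ (fun z => (g z) ^ 2) (ball c r) :=
    ⟨hg.differentiableOn.pow 2, hg.continuousOn.pow 2⟩
  have h1 := setIntegral_ball_eq_smul hr hg2
  have h2 : ‖∫ z in ball c r, (g z) ^ 2‖ ≤ ∫ z in ball c r, ‖(g z) ^ 2‖ :=
    norm_integral_le_integral_norm _
  have h3 : ‖(π * r ^ 2) • (g c) ^ 2‖ = ‖g c‖ ^ 2 * (π * r ^ 2) := by
    rw [norm_smul, norm_pow, Real.norm_eq_abs, abs_of_nonneg (by positivity)]
    ring
  have h1' : ∫ z in ball c r, (g z) ^ 2 = (π * r ^ 2) • (g c) ^ 2 := h1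
  rw [h1', h3] at h2
  simpa [norm_pow] using h2

theorem strip_eq (Y : ℝ) : strip Y = Icc (-1 : ℝ) 1 ×ℂ Icc (2 : ℝ) Y := by
  ext z
  simp only [strip, mem_ofPred_eq, Complex.mem_reProdIm, mem_Icc, abs_le]

theorem isCompact_strip (Y : ℝ) : IsCompact (strip Y) := by
  rw [strip_eq]
  exact isCompact_Icc.reProdIm isCompact_Icc

theorem measurableSet_strip (Y : ℝ) : MeasurableSet (strip Y) :=
  (isCompact_strip Y).isClosed.measurableSet

theorem strip_subset_Uhp (Y : ℝ) : strip Y ⊆ Uhp := by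
  intro z hz
  have : (2:ℝ) ≤ z.im := hz.2.1
  exact lt_of_lt_of_le two_pos this

theorem strip_mono {Y₁ Y₂ : ℝ} (h : Y₁ ≤ Y₂) : strip Y₁ ⊆ strip Y₂ :=
  fun _ hz => ⟨hz.1, hz.2.1, hz.2.2.trans h⟩

/-- Tail estimate for a nonnegative function with bounded integrals over the strips. -/
theorem exists_tail_le (u : ℂ → ℝ) (hu : ContinuousOn u Uhp)     (hE : ∃ C : ℝ, ∀ Y : ℝ, ∫ z in strip Y, u z ≤ C) {ε : ℝ} (hε : 0 < ε) :
    ∃ Y₀ : ℝ, ∀ Y : ℝ, ∫ z in strip Y \ strip Y₀, u z ≤ ε := by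
  obtain ⟨C, hC⟩ := hE
  have hint : ∀ Y, IntegrableOn u (strip Y) := fun Y =>
    (hu.mono (strip_subset_Uhp Y)).integrableOn_compact (isCompact_strip Y)
  set E : ℝ → ℝ := fun Y => ∫ z in strip Y, u z with hEdef
  have hbdd : BddAbove (range E) := ⟨C, by rintro _ ⟨Y, rfl⟩; exact hC Y⟩
  have hlt : sSup (range E) - ε < sSup (range E) := by linarith
  obtain ⟨_, ⟨Y₀, rfl⟩, hY₀⟩ := exists_lt_of_lt_csSup (range_nonempty E) hlt
  refine ⟨Y₀, fun Y => ?_⟩
  rcases le_total Y Y₀ with h | h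
  · have : strip Y \ strip Y₀ = ∅ := sdiff_eq_empty.mpr (strip_mono h)
    rw [this]
    simpa using hε.le
  · rw [setIntegral_sdiff (measurableSet_strip Y₀) (hint Y) (strip_mono h)]
    have h1 : E Y ≤ sSup (range E) := le_csSup hbdd ⟨Y, rfl⟩
    have h1' : ∫ z in strip Y, u z ≤ sSup (range E) := h1
    have h2 : sSup (range E) - ε < ∫ z in strip Y₀, u z := hY₀
    linarith

/-- Decay on the central strip for a holomorphic function with bounded energy on strips. -/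
theorem exists_bound_of_energy (H : ℂ → ℂ) (hH : DifferentiableOn ℂ H Uhp)
    (hE : ∃ C : ℝ, ∀ Y : ℝ, ∫ z in strip Y, ‖H z‖ ^ 2 ≤ C) {ε : ℝ} (hε : 0 < ε) :
    ∃ A : ℝ, ∀ z : ℂ, |z.re| ≤ 1 / 2 → A ≤ z.im → ‖H z‖ ≤ ε := by
  have hcont : ContinuousOn (fun z => ‖H z‖ ^ 2) Uhp := (hH.continuousOn.norm).pow 2
  have hε' : 0 < ε ^ 2 * (π * (1 / 2) ^ 2) := by positivity
  obtain ⟨Y₀, hY₀⟩ := exists_tail_le (fun z => ‖H z‖ ^ 2) hcont hE hε'
  refine ⟨max Y₀ 2 + 1, fun z hzre hzim => ?_⟩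
  have hY₀z : Y₀ + 1 ≤ z.im := le_trans (by gcongr; exact le_max_left _ _) hzim
  have h1z : 3 ≤ z.im := le_trans (by linarith [le_max_right Y₀ 2]) hzim
  -- the ball is inside the region
  have hsub : ball z (1 / 2) ⊆ strip (z.im + 1) \ strip Y₀ := by
    intro w hw
    rw [mem_ball, dist_eq_norm] at hw
    have hre : |w.re - z.re| ≤ ‖w - z‖ := by
      simpa using Complex.abs_re_le_norm (w - z)
    have him : |w.im - z.im| ≤ ‖w - z‖ := by
      simpa using Complex.abs_im_le_norm (w - z)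
    have hre' := abs_le.mp (hre.trans hw.le)
    have him' := abs_le.mp (him.trans hw.le)
    have hzre' := abs_le.mp hzre
    refine ⟨⟨abs_le.mpr ⟨by linarith, by linarith⟩, by linarith, by linarith⟩, ?_⟩
    intro hw0
    have : w.im ≤ Y₀ := hw0.2.2
    linarith
  have hcl : closedBall z (1 / 2) ⊆ Uhp := by
    intro w hw
    rw [mem_closedBall, dist_eq_norm] at hw
    have him : |w.im - z.im| ≤ ‖w - z‖ := by
      simpa using Complex.abs_im_le_norm (w - z)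
    have him' := abs_le.mp (him.trans hw)
    show 0 < w.im
    linarith
  have hD : DiffContOnCl ℂ H (ball z (1 / 2)) := hH.diffContOnCl_ball hcl
  have hmv := norm_sq_mul_le_setIntegral_ball (by norm_num : (0:ℝ) < 1 / 2) hD
  have hint : IntegrableOn (fun z => ‖H z‖ ^ 2) (strip (z.im + 1) \ strip Y₀) :=
    ((hcont.mono (strip_subset_Uhp _)).integrableOn_compact (isCompact_strip _)).mono_set
      sdiff_subset
  have hmono : ∫ w in ball z (1 / 2), ‖H w‖ ^ 2 ≤ ∫ w in strip (z.im + 1) \ strip Y₀, ‖H w‖ ^ 2 :=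
    setIntegral_mono_set hint (Eventually.of_forall fun w => by positivity)
      (Eventually.of_forall hsub)
  have hfin : ‖H z‖ ^ 2 * (π * (1 / 2) ^ 2) ≤ ε ^ 2 * (π * (1 / 2) ^ 2) :=
    hmv.trans (hmono.trans (hY₀ _))
  have hsq : ‖H z‖ ^ 2 ≤ ε ^ 2 := le_of_mul_le_mul_right hfin (by positivity)
  exact (pow_le_pow_iff_left₀ (norm_nonneg _) hε.le (by norm_num)).mp hsq

/-- The function on `ℍ` attached to `f`. -/
noncomputable def toH (f : ℂ → ℂ) : ℍ → ℂ := fun z => f (z : ℂ)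

theorem toH_mdiff (f : ℂ → ℂ) (hf : DifferentiableOn ℂ f Uhp) : MDiff (toH f) := by
  rw [UpperHalfPlane.mdifferentiable_iff]
  refine hf.congr ?_
  intro z hz
  simp [toH, Function.comp, ofComplex_apply_of_im_pos hz]

theorem cd_eq_denom (g : SL(2, ℤ)) (z : ℍ) : cd g z = denom g z := by
  simp [cd, denom]

theorem toH_slash_of_mem (N : ℕ) (f : ℂ → ℂ)
    (hinv : ∀ (γ : Gamma0 N) (z : ℍ),
      f ↑((γ : SL(2, ℤ)) • z) = (cd (γ : SL(2, ℤ)) z) ^ 2 * f ↑z)
    (γ : SL(2, ℤ)) (hγ : γ ∈ Gamma0 N) : (toH f) ∣[(2:ℤ)] γ = toH f := by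
  ext z
  rw [ModularForm.SL_slash_apply]
  have h := hinv ⟨γ, hγ⟩ z
  simp only [toH] at h ⊢
  rw [h, cd_eq_denom]
  have hne : denom γ z ≠ 0 := denom_ne_zero _ z
  field_simp

/-- The slashed function as a function on `ℂ`. -/
noncomputable def Hc (f : ℂ → ℂ) (γ : SL(2, ℤ)) : ℂ → ℂ :=
  fun z => ((toH f) ∣[(2:ℤ)] γ) (ofComplex z)

theorem Hc_differentiableOn (f : ℂ → ℂ) (hf : DifferentiableOn ℂ f Uhp) (γ : SL(2, ℤ)) :
    DifferentiableOn ℂ (Hc f γ) Uhp := by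
  have h := (toH_mdiff f hf).slash 2 (γ : GL (Fin 2) ℝ)
  rw [UpperHalfPlane.mdifferentiable_iff] at h
  exact h

theorem norm_Hc_sq (f : ℂ → ℂ) (γ : SL(2, ℤ)) (z : ℂ) (hz : z ∈ Uhp) :
    ‖Hc f γ z‖ ^ 2 = ‖f (mob γ z)‖ ^ 2 / ‖cd γ z‖ ^ 4 := by
  have hz' : 0 < z.im := hz
  have hd : denom γ (ofComplex z) = cd γ z := by
    simp [cd, denom, ofComplex_apply_of_im_pos hz']
  simp only [Hc, mob]
  rw [ModularForm.SL_slash_apply, hd, norm_mul, mul_pow, norm_zpow, div_eq_mul_inv]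
  congr 1
  rw [← zpow_natCast, ← zpow_mul, ← zpow_natCast, ← zpow_neg]
  norm_num

theorem energy_Hc (f : ℂ → ℂ)
    (hE : ∀ δ : SL(2, ℤ), ∃ C : ℝ, ∀ Y : ℝ,
      ∫ z in strip Y, ‖f (mob δ z)‖ ^ 2 / ‖cd δ z‖ ^ 4 ≤ C) (γ : SL(2, ℤ)) :
    ∃ C : ℝ, ∀ Y : ℝ, ∫ z in strip Y, ‖Hc f γ z‖ ^ 2 ≤ C := by
  obtain ⟨C, hC⟩ := hE γ
  refine ⟨C, fun Y => ?_⟩
  rw [setIntegral_congr_fun (measurableSet_strip Y)
    (fun z hz => norm_Hc_sq f γ z (strip_subset_Uhp Y hz))]
  exact hC Y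

theorem slash_apply_eq_Hc (f : ℂ → ℂ) (δ : SL(2, ℤ)) (n : ℤ) (z : ℍ) :
    ((toH f) ∣[(2:ℤ)] δ) z = Hc f (δ * ModularGroup.T ^ n) ((z : ℂ) - n) := by
  have him : 0 < ((z : ℂ) - n).im := by simpa using z.im_pos
  set w : ℍ := ofComplex ((z : ℂ) - n) with hw
  have hwc : (w : ℂ) = (z : ℂ) - n := by
    rw [hw, ofComplex_apply_of_im_pos him]
  have hTw : ModularGroup.T ^ n • w = z := by
    ext1
    rw [ModularGroup.coe_T_zpow_smul_eq, hwc]
    ring
  have hden : denom (ModularGroup.T ^ n : SL(2, ℤ)) w = 1 := by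
    rw [← cd_eq_denom]
    simp [cd, ModularGroup.coe_T_zpow]
  have key : ((toH f) ∣[(2:ℤ)] (δ * ModularGroup.T ^ n)) w = ((toH f) ∣[(2:ℤ)] δ) z := by
    rw [SlashAction.slash_mul, ModularForm.SL_slash_apply, hTw, hden]
    simp
  exact key.symm

theorem conj_T_zpow_mem_Gamma0 (N : ℕ) (δ : SL(2, ℤ)) (k : ℤ) :
    δ * ModularGroup.T ^ ((N : ℤ) * k) * δ⁻¹ ∈ Gamma0 N := by
  have h1 : ModularGroup.T ^ ((N : ℤ) * k) ∈ CongruenceSubgroup.Gamma N := by
    simpa using ModularGroup_T_pow_mem_Gamma (N : ℤ) ((N : ℤ) * k) (dvd_mul_right _ _)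
  have h2 : δ * ModularGroup.T ^ ((N : ℤ) * k) * δ⁻¹ ∈ CongruenceSubgroup.Gamma N :=
    (Gamma_normal N).conj_mem _ h1 δ
  rw [Gamma_mem] at h2
  rw [Gamma0_mem]
  exact h2.2.2.1

theorem slash_mul_T_zpow (N : ℕ) (f : ℂ → ℂ)
    (hinv : ∀ (γ : Gamma0 N) (z : ℍ),
      f ↑((γ : SL(2, ℤ)) • z) = (cd (γ : SL(2, ℤ)) z) ^ 2 * f ↑z)
    (δ : SL(2, ℤ)) (k m : ℤ) :
    (toH f) ∣[(2:ℤ)] (δ * ModularGroup.T ^ ((N : ℤ) * k + m))
      = (toH f) ∣[(2:ℤ)] (δ * ModularGroup.T ^ m) := by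
  have h : δ * ModularGroup.T ^ ((N : ℤ) * k + m)
      = (δ * ModularGroup.T ^ ((N : ℤ) * k) * δ⁻¹) * (δ * ModularGroup.T ^ m) := by
    rw [zpow_add]
    group
  rw [h, SlashAction.slash_mul, toH_slash_of_mem N f hinv _ (conj_T_zpow_mem_Gamma0 N δ k)]

theorem isZeroAtImInfty_slash (N : ℕ) [NeZero N] (f : ℂ → ℂ)
    (hf : DifferentiableOn ℂ f Uhp)
    (hinv : ∀ (γ : Gamma0 N) (z : ℍ),
      f ↑((γ : SL(2, ℤ)) • z) = (cd (γ : SL(2, ℤ)) z) ^ 2 * f ↑z)
    (hE : ∀ δ : SL(2, ℤ), ∃ C : ℝ, ∀ Y : ℝ,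
      ∫ z in strip Y, ‖f (mob δ z)‖ ^ 2 / ‖cd δ z‖ ^ 4 ≤ C)
    (δ : SL(2, ℤ)) : IsZeroAtImInfty ((toH f) ∣[(2:ℤ)] δ) := by
  rw [isZeroAtImInfty_iff]
  intro ε hε
  have hb : ∀ m : ℕ, ∃ A : ℝ, ∀ z : ℂ, |z.re| ≤ 1 / 2 → A ≤ z.im →
      ‖Hc f (δ * ModularGroup.T ^ (m : ℤ)) z‖ ≤ ε := fun m =>
    exists_bound_of_energy _ (Hc_differentiableOn f hf _) (energy_Hc f hE _) hε
  choose A hA using hb
  obtain ⟨B, hB⟩ : ∃ B : ℝ, ∀ m ∈ Finset.range N, A m ≤ B := by
    obtain ⟨B, hB⟩ := ((Finset.range N).image A).bddAbove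
    exact ⟨B, fun m hm => hB (Finset.mem_image_of_mem A hm)⟩
  refine ⟨B, fun z hz => ?_⟩
  set n : ℤ := round z.re with hn
  have hNpos : (0 : ℤ) < (N : ℤ) := by exact_mod_cast Nat.pos_of_ne_zero (NeZero.ne N)
  have hmod0 : 0 ≤ n % (N : ℤ) := Int.emod_nonneg _ hNpos.ne'
  have hmodlt : n % (N : ℤ) < N := Int.emod_lt_of_pos _ hNpos
  set m : ℕ := (n % (N : ℤ)).toNat with hm
  have hmcast : (m : ℤ) = n % (N : ℤ) := Int.toNat_of_nonneg hmod0
  have hmN : m ∈ Finset.range N := by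
    rw [Finset.mem_range]
    have : (m : ℤ) < N := by rw [hmcast]; exact hmodlt
    exact_mod_cast this
  have hdecomp : n = (N : ℤ) * (n / (N : ℤ)) + (m : ℤ) := by
    rw [hmcast]; exact (Int.mul_ediv_add_emod n N).symm
  rw [slash_apply_eq_Hc f δ n z]
  have hslash := slash_mul_T_zpow N f hinv δ (n / (N : ℤ)) (m : ℤ)
  rw [← hdecomp] at hslash
  have hHc : Hc f (δ * ModularGroup.T ^ n) = Hc f (δ * ModularGroup.T ^ (m : ℤ)) := by
    funext w
    simp only [Hc, hslash]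
  rw [hHc]
  apply hA m
  · have : ((z : ℂ) - (n : ℂ)).re = z.re - n := by simp
    rw [this, hn]
    exact (abs_sub_round z.re)
  · have : ((z : ℂ) - (n : ℂ)).im = z.im := by simp
    rw [this]
    exact (hB m hmN).trans hz

theorem exists_cuspForm_of_zero (N : ℕ) [NeZero N] (f : ℂ → ℂ)
    (hf : DifferentiableOn ℂ f Uhp)
    (hinv : ∀ (γ : Gamma0 N) (z : ℍ),
      f ↑((γ : SL(2, ℤ)) • z) = (cd (γ : SL(2, ℤ)) z) ^ 2 * f ↑z)
    (hzero : ∀ δ : SL(2, ℤ), IsZeroAtImInfty ((toH f) ∣[(2:ℤ)] δ)) :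
    ∃ F : CuspForm (Gamma0 N) 2, ∀ z : ℍ, F z = f ↑z := by
  refine ⟨{ toFun := toH f
            slash_action_eq' := ?_
            holo' := toH_mdiff f hf
            zero_at_cusps' := ?_ }, fun z => rfl⟩
  · intro γ hγ
    obtain ⟨γ₀, hγ₀, rfl⟩ := Subgroup.mem_map.mp hγ
    exact toH_slash_of_mem N f hinv γ₀ hγ₀
  · intro c hc
    have hc' : IsCusp c 𝒮ℒ :=
      (Subgroup.IsArithmetic.isCusp_iff_isCusp_SL2Z _).mp hc
    rw [OnePoint.isZeroAt_iff_forall_SL2Z hc']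
    intro γ _
    exact hzero γ

end Cusp825

/-- **Cusp**: a holomorphic weight-2 invariant function with bounded energy in the cusp strips
is a cusp form. -/
theorem exists_cuspForm_of_energy (N : ℕ) [NeZero N] (f : ℂ → ℂ)
    (hf : DifferentiableOn ℂ f Uhp)
    (hinv : ∀ (γ : Gamma0 N) (z : ℍ),
      f ↑((γ : SL(2, ℤ)) • z) = (cd (γ : SL(2, ℤ)) z) ^ 2 * f ↑z)
    (hE : ∀ δ : SL(2, ℤ), ∃ C : ℝ, ∀ Y : ℝ,
      ∫ z in strip Y, ‖f (mob δ z)‖ ^ 2 / ‖cd δ z‖ ^ 4 ≤ C) :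
    ∃ F : CuspForm (Gamma0 N) 2, ∀ z : ℍ, F z = f ↑z :=
  Cusp825.exists_cuspForm_of_zero N f hf hinv
    (Cusp825.isZeroAtImInfty_slash N f hf hinv hE)

end Fermat.Agent.S21
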