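import Fermat.Agent.S21.Defs

/-!
# S21 — piece `Per` of the Hodge route

If the gradients of `v n` tend to `0` in `L²_loc` and all `v n` have the same period `d` along
`γ`, then `d = 0`.

The proof is a Poincaré-type estimate on a closed rectangle `Q` of the upper half plane
containing a unit square `B` and its image `γ B`: everything is done with lower Lebesgue
integrals (`∫⁻`), so that no integrability bookkeeping is needed.
-/

set_option autoImplicit false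

open MeasureTheory Set Filter Topology UpperHalfPlane
open scoped ENNReal MatrixGroups ContDiff Interval

namespace Fermat.Agent.S21

/-! ### One-dimensional estimates -/

/-- Cauchy–Schwarz on an interval. -/
theorem per_sq_integral_le {f : ℝ → ℝ} {a b : ℝ} (hab : a ≤ b) (hf : ContinuousOn f (Icc a b)) :
    (∫ x in a..b, f x) ^ 2 ≤ (b - a) * ∫ x in a..b, (f x) ^ 2 := by
  have hfi : IntervalIntegrable f volume a b := by
    apply ContinuousOn.intervalIntegrable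
    rwa [uIcc_of_le hab]
  have hf2 : IntervalIntegrable (fun x => f x ^ 2) volume a b := by
    apply ContinuousOn.intervalIntegrable
    rw [uIcc_of_le hab]
    exact hf.pow 2
  have h : ∀ t : ℝ, 0 ≤ (b - a) * (t * t) + (2 * ∫ x in a..b, f x) * t
      + ∫ x in a..b, (f x) ^ 2 := by
    intro t
    have h0 := intervalIntegral.integral_nonneg (μ := volume) hab
      (fun x _ => sq_nonneg (t + f x))
    have e : ∫ x in a..b, (t + f x) ^ 2 = (b - a) * (t * t) + (2 * ∫ x in a..b, f x) * t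
        + ∫ x in a..b, (f x) ^ 2 := by
      have e1 : (fun x => (t + f x) ^ 2) = fun x => (t * t + (2 * t) * f x) + f x ^ 2 := by
        ext x; ring
      rw [e1, intervalIntegral.integral_add ((intervalIntegrable_const).add (hfi.const_mul _)) hf2,
        intervalIntegral.integral_add intervalIntegrable_const (hfi.const_mul _),
        intervalIntegral.integral_const, intervalIntegral.integral_const_mul]
      simp only [smul_eq_mul]
      ring
    linarith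
  have := discrim_le_zero h
  unfold discrim at this
  nlinarith

/-- One-dimensional estimate: FTC + Cauchy–Schwarz, in `ℝ≥0∞` form. -/
theorem per_sq_sub_le {g f : ℝ → ℝ} {a b : ℝ}
    (hderiv : ∀ s ∈ Icc a b, HasDerivAt g (f s) s) (hcont : ContinuousOn f (Icc a b))
    {x x' : ℝ} (hx : x ∈ Icc a b) (hx' : x' ∈ Icc a b) :
    ENNReal.ofReal ((g x - g x') ^ 2) ≤
      ENNReal.ofReal (b - a) * ∫⁻ s in Icc a b, ENNReal.ofReal ((f s) ^ 2) := by
  wlog hxx : x' ≤ x generalizing x x'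
  · have := this hx' hx (le_of_not_ge hxx)
    rwa [sub_sq_comm] at this
  have hsub : Icc x' x ⊆ Icc a b := Icc_subset_Icc hx'.1 hx.2
  have hsub' : Ioc x' x ⊆ Icc a b := Ioc_subset_Icc_self.trans hsub
  have hc : ContinuousOn f (Icc x' x) := hcont.mono hsub
  have hint : IntervalIntegrable f volume x' x := by
    apply ContinuousOn.intervalIntegrable
    rwa [uIcc_of_le hxx]
  have hftc : ∫ s in x'..x, f s = g x - g x' := by
    apply intervalIntegral.integral_eq_sub_of_hasDerivAt _ hint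
    intro s hs
    rw [uIcc_of_le hxx] at hs
    exact hderiv s (hsub hs)
  have hcs := per_sq_integral_le hxx hc
  rw [hftc] at hcs
  have hnn : 0 ≤ ∫ s in x'..x, (f s) ^ 2 :=
    intervalIntegral.integral_nonneg hxx (fun s _ => sq_nonneg _)
  have hle : (g x - g x') ^ 2 ≤ (b - a) * ∫ s in x'..x, (f s) ^ 2 := by
    refine hcs.trans (mul_le_mul_of_nonneg_right ?_ hnn)
    linarith [hx.2, hx'.1]
  have hba : 0 ≤ b - a := by linarith [hx.1, hx.2]
  calc ENNReal.ofReal ((g x - g x') ^ 2)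
      ≤ ENNReal.ofReal ((b - a) * ∫ s in x'..x, (f s) ^ 2) := ENNReal.ofReal_le_ofReal hle
    _ = ENNReal.ofReal (b - a) * ENNReal.ofReal (∫ s in x'..x, (f s) ^ 2) :=
        ENNReal.ofReal_mul hba
    _ = ENNReal.ofReal (b - a) * ∫⁻ s in Ioc x' x, ENNReal.ofReal ((f s) ^ 2) := by
        congr 1
        rw [intervalIntegral.integral_of_le hxx]
        apply ofReal_integral_eq_lintegral_ofReal
        · have : IntervalIntegrable (fun s => f s ^ 2) volume x' x := by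
            apply ContinuousOn.intervalIntegrable
            rw [uIcc_of_le hxx]
            exact hc.pow 2
          exact (intervalIntegrable_iff_integrableOn_Ioc_of_le hxx).mp this
        · exact Eventually.of_forall (fun s => sq_nonneg _)
    _ ≤ ENNReal.ofReal (b - a) * ∫⁻ s in Icc a b, ENNReal.ofReal ((f s) ^ 2) := by
        gcongr

/-! ### Points, lines and rectangles in `ℂ` -/

/-- The point `x + y i`. -/
def per_pt (x y : ℝ) : ℂ := ⟨x, y⟩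

@[simp] theorem per_pt_re (x y : ℝ) : (per_pt x y).re = x := rfl

@[simp] theorem per_pt_im (x y : ℝ) : (per_pt x y).im = y := rfl

theorem per_pt_mem_Uhp {x y : ℝ} (hy : 0 < y) : per_pt x y ∈ Uhp := hy

theorem per_pt_eta (z : ℂ) : per_pt z.re z.im = z := rfl

theorem per_continuous_pt_left (y : ℝ) : Continuous (fun s : ℝ => per_pt s y) := by
  have : (fun s : ℝ => per_pt s y) = fun s : ℝ => (s : ℂ) + per_pt 0 y := by
    funext s; apply Complex.ext <;> simp [per_pt]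
  rw [this]
  exact Complex.continuous_ofReal.add continuous_const

theorem per_continuous_pt_right (x : ℝ) : Continuous (fun t : ℝ => per_pt x t) := by
  have : (fun t : ℝ => per_pt x t) = fun t : ℝ => (t : ℂ) * Complex.I + per_pt x 0 := by
    funext t; apply Complex.ext <;> simp [per_pt]
  rw [this]
  exact (Complex.continuous_ofReal.mul continuous_const).add continuous_const

/-- Tonelli on a rectangle of `ℂ`. -/
theorem per_lintegral_rect (F : ℂ → ℝ≥0∞) (hF : Measurable F) (s t : Set ℝ) :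
    ∫⁻ z in s ×ℂ t, F z = ∫⁻ x in s, ∫⁻ y in t, F (per_pt x y) := by
  have e := Complex.volume_preserving_equiv_real_prod.symm
  rw [← e.setLIntegral_comp_preimage_emb
    (Complex.measurableEquivRealProd.symm.measurableEmbedding) F (s ×ℂ t)]
  have hpre : Complex.measurableEquivRealProd.symm ⁻¹' (s ×ℂ t) = s ×ˢ t := by
    ext p
    simp [Complex.mem_reProdIm, Complex.measurableEquivRealProd_symm_apply]
  rw [hpre, Measure.volume_eq_prod, ← Measure.prod_restrict, lintegral_prod]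
  · rfl
  · exact (hF.comp Complex.measurableEquivRealProd.symm.measurable).aemeasurable

/-- Tonelli on a rectangle of `ℂ`, other order. -/
theorem per_lintegral_rect_symm (F : ℂ → ℝ≥0∞) (hF : Measurable F) (s t : Set ℝ) :
    ∫⁻ z in s ×ℂ t, F z = ∫⁻ y in t, ∫⁻ x in s, F (per_pt x y) := by
  have e := Complex.volume_preserving_equiv_real_prod.symm
  rw [← e.setLIntegral_comp_preimage_emb
    (Complex.measurableEquivRealProd.symm.measurableEmbedding) F (s ×ℂ t)]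
  have hpre : Complex.measurableEquivRealProd.symm ⁻¹' (s ×ℂ t) = s ×ˢ t := by
    ext p
    simp [Complex.mem_reProdIm, Complex.measurableEquivRealProd_symm_apply]
  rw [hpre, Measure.volume_eq_prod, ← Measure.prod_restrict, lintegral_prod_symm]
  · rfl
  · exact (hF.comp Complex.measurableEquivRealProd.symm.measurable).aemeasurable

theorem per_measurable_comp_pt {F : ℂ → ℝ≥0∞} (hF : Measurable F) :
    Measurable (fun p : ℝ × ℝ => F (per_pt p.1 p.2)) := by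
  have : (fun p : ℝ × ℝ => F (per_pt p.1 p.2)) = F ∘ Complex.measurableEquivRealProd.symm := by
    funext p
    simp only [Function.comp_apply, Complex.measurableEquivRealProd_symm_apply]
    rfl
  rw [this]
  exact hF.comp Complex.measurableEquivRealProd.symm.measurable

theorem per_rect_subset_Uhp {a₁ b₁ a₂ b₂ : ℝ} (ha₂ : 0 < a₂) :
    Icc a₁ b₁ ×ℂ Icc a₂ b₂ ⊆ Uhp := fun _ hz => lt_of_lt_of_le ha₂ hz.2.1

/-! ### Calculus along horizontal and vertical lines -/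

theorem per_differentiableAt {u : ℂ → ℝ} (hu : ContDiffOn ℝ 1 u Uhp) {z : ℂ} (hz : z ∈ Uhp) :
    DifferentiableAt ℝ u z :=
  (hu.differentiableOn (by norm_num)).differentiableAt (isOpen_Uhp.mem_nhds hz)

theorem per_continuousOn_fderiv {u : ℂ → ℝ} (hu : ContDiffOn ℝ 1 u Uhp) (w : ℂ) :
    ContinuousOn (fun z => fderiv ℝ u z w) Uhp :=
  (hu.continuousOn_fderiv_of_isOpen isOpen_Uhp le_rfl).clm_apply continuousOn_const

theorem per_hasDerivAt_horiz {u : ℂ → ℝ} (hu : ContDiffOn ℝ 1 u Uhp) {y : ℝ} (hy : 0 < y)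
    (s : ℝ) :
    HasDerivAt (fun s : ℝ => u (per_pt s y)) (fderiv ℝ u (per_pt s y) 1) s := by
  have h1 : HasDerivAt (fun s : ℝ => per_pt s y) 1 s := by
    have : (fun s : ℝ => per_pt s y) = fun s : ℝ => (s : ℂ) + per_pt 0 y := by
      funext s; apply Complex.ext <;> simp [per_pt]
    rw [this]
    exact (Complex.ofRealCLM.hasDerivAt (x := s)).add_const _
  exact (per_differentiableAt hu (per_pt_mem_Uhp hy)).hasFDerivAt.comp_hasDerivAt s h1

theorem per_hasDerivAt_vert {u : ℂ → ℝ} (hu : ContDiffOn ℝ 1 u Uhp) (x : ℝ) {t : ℝ}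
    (ht : 0 < t) :
    HasDerivAt (fun t : ℝ => u (per_pt x t)) (fderiv ℝ u (per_pt x t) Complex.I) t := by
  have h1 : HasDerivAt (fun t : ℝ => per_pt x t) Complex.I t := by
    have : (fun t : ℝ => per_pt x t) = fun t : ℝ => (t : ℂ) * Complex.I + per_pt x 0 := by
      funext t; apply Complex.ext <;> simp [per_pt]
    rw [this]
    have := ((Complex.ofRealCLM.hasDerivAt (x := t)).mul_const Complex.I).add_const (per_pt x 0)
    simpa using this
  exact (per_differentiableAt hu (per_pt_mem_Uhp ht)).hasFDerivAt.comp_hasDerivAt t h1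

/-- The two nonnegative integrands. -/
noncomputable def per_fx (u : ℂ → ℝ) (z : ℂ) : ℝ≥0∞ := ENNReal.ofReal ((fderiv ℝ u z 1) ^ 2)

/-- The two nonnegative integrands. -/
noncomputable def per_fy (u : ℂ → ℝ) (z : ℂ) : ℝ≥0∞ :=
  ENNReal.ofReal ((fderiv ℝ u z Complex.I) ^ 2)

theorem per_measurable_fx (u : ℂ → ℝ) : Measurable (per_fx u) :=
  ENNReal.measurable_ofReal.comp ((measurable_fderiv_apply_const ℝ u 1).pow_const 2)

theorem per_measurable_fy (u : ℂ → ℝ) : Measurable (per_fy u) :=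
  ENNReal.measurable_ofReal.comp ((measurable_fderiv_apply_const ℝ u Complex.I).pow_const 2)

/-- Horizontal energy on the line of height `y`. -/
noncomputable def per_g (u : ℂ → ℝ) (a₁ b₁ : ℝ) (y : ℝ) : ℝ≥0∞ :=
  ∫⁻ s in Icc a₁ b₁, per_fx u (per_pt s y)

/-- Vertical energy on the line of abscissa `x`. -/
noncomputable def per_h (u : ℂ → ℝ) (a₂ b₂ : ℝ) (x : ℝ) : ℝ≥0∞ :=
  ∫⁻ t in Icc a₂ b₂, per_fy u (per_pt x t)

theorem per_measurable_g (u : ℂ → ℝ) (a₁ b₁ : ℝ) : Measurable (per_g u a₁ b₁) :=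
  (per_measurable_comp_pt (per_measurable_fx u)).lintegral_prod_left'

theorem per_measurable_h (u : ℂ → ℝ) (a₂ b₂ : ℝ) : Measurable (per_h u a₂ b₂) :=
  (per_measurable_comp_pt (per_measurable_fy u)).lintegral_prod_right'

/-- **Claim A**: pointwise Poincaré-type estimate on a rectangle. -/
theorem per_claimA {u : ℂ → ℝ} (hu : ContDiffOn ℝ 1 u Uhp) {a₁ b₁ a₂ b₂ : ℝ} (ha₂ : 0 < a₂)
    {z z' : ℂ} (hz : z ∈ Icc a₁ b₁ ×ℂ Icc a₂ b₂) (hz' : z' ∈ Icc a₁ b₁ ×ℂ Icc a₂ b₂) :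
    ENNReal.ofReal ((u z - u z') ^ 2) ≤
      2 * (ENNReal.ofReal (b₁ - a₁) * per_g u a₁ b₁ z.im)
        + 2 * (ENNReal.ofReal (b₂ - a₂) * per_h u a₂ b₂ z'.re) := by
  have hy : 0 < z.im := lt_of_lt_of_le ha₂ hz.2.1
  -- horizontal part
  have hp : ENNReal.ofReal ((u (per_pt z.re z.im) - u (per_pt z'.re z.im)) ^ 2) ≤
      ENNReal.ofReal (b₁ - a₁) * per_g u a₁ b₁ z.im := by
    refine per_sq_sub_le (g := fun s => u (per_pt s z.im))
      (f := fun s => fderiv ℝ u (per_pt s z.im) 1)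
      (fun s _ => per_hasDerivAt_horiz hu hy s) ?_ hz.1 hz'.1
    refine Continuous.continuousOn ?_
    refine (per_continuousOn_fderiv hu 1).comp_continuous (per_continuous_pt_left z.im) ?_
    intro s
    exact per_pt_mem_Uhp hy
  -- vertical part
  have hq : ENNReal.ofReal ((u (per_pt z'.re z.im) - u (per_pt z'.re z'.im)) ^ 2) ≤
      ENNReal.ofReal (b₂ - a₂) * per_h u a₂ b₂ z'.re := by
    refine per_sq_sub_le (g := fun t => u (per_pt z'.re t))
      (f := fun t => fderiv ℝ u (per_pt z'.re t) Complex.I)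
      (fun t ht => per_hasDerivAt_vert hu z'.re (lt_of_lt_of_le ha₂ ht.1)) ?_ hz.2 hz'.2
    refine (per_continuousOn_fderiv hu Complex.I).comp
      (per_continuous_pt_right z'.re).continuousOn ?_
    intro t ht
    exact per_pt_mem_Uhp (lt_of_lt_of_le ha₂ ht.1)
  set p := u (per_pt z.re z.im) - u (per_pt z'.re z.im) with hpdef
  set q := u (per_pt z'.re z.im) - u (per_pt z'.re z'.im) with hqdef
  have hsum : u z - u z' = p + q := by
    rw [hpdef, hqdef, per_pt_eta, per_pt_eta]; ring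
  have hineq : (u z - u z') ^ 2 ≤ 2 * p ^ 2 + 2 * q ^ 2 := by
    rw [hsum]; nlinarith [sq_nonneg (p - q)]
  calc ENNReal.ofReal ((u z - u z') ^ 2)
      ≤ ENNReal.ofReal (2 * p ^ 2 + 2 * q ^ 2) := ENNReal.ofReal_le_ofReal hineq
    _ = 2 * ENNReal.ofReal (p ^ 2) + 2 * ENNReal.ofReal (q ^ 2) := by
        rw [ENNReal.ofReal_add (by positivity) (by positivity),
          ENNReal.ofReal_mul (by norm_num), ENNReal.ofReal_mul (by norm_num),
          ENNReal.ofReal_ofNat]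
    _ ≤ _ := by gcongr

theorem per_mob_eq {γ : SL(2, ℤ)} {z : ℂ} (hz : z ∈ Uhp) :
    mob γ z = ((γ • (⟨z, hz⟩ : ℍ) : ℍ) : ℂ) := by
  unfold mob
  rw [ofComplex_apply_of_im_pos hz]

theorem per_mob_mem_Uhp (γ : SL(2, ℤ)) (z : ℂ) : mob γ z ∈ Uhp := coe_mem_Uhp _

/-- **Claim B**. -/
theorem per_claimB {u : ℂ → ℝ} (hu : ContDiffOn ℝ 1 u Uhp) (γ : SL(2, ℤ)) (d : ℝ)
    (hd : ∀ z : ℍ, u ↑(γ • z) = u ↑z + d)
    {a₁ b₁ a₂ b₂ : ℝ} (ha₂ : 0 < a₂)
    {z : ℂ} (hz : z ∈ Icc a₁ b₁ ×ℂ Icc a₂ b₂) (hγz : mob γ z ∈ Icc a₁ b₁ ×ℂ Icc a₂ b₂)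
    {x' : ℝ} (hx' : x' ∈ Icc a₁ b₁) :
    ENNReal.ofReal (d ^ 2) ≤
      4 * ENNReal.ofReal (b₁ - a₁) * (per_g u a₁ b₁ (mob γ z).im + per_g u a₁ b₁ z.im)
        + 8 * (ENNReal.ofReal (b₂ - a₂) * per_h u a₂ b₂ x') := by
  have hzU : z ∈ Uhp := per_rect_subset_Uhp ha₂ hz
  have hz' : per_pt x' a₂ ∈ Icc a₁ b₁ ×ℂ Icc a₂ b₂ :=
    ⟨hx', ⟨le_rfl, hz.2.1.trans hz.2.2⟩⟩
  have hper : u (mob γ z) = u z + d := by
    rw [per_mob_eq hzU]
    exact hd ⟨z, hzU⟩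
  have A1 := per_claimA hu ha₂ hγz hz'
  have A2 := per_claimA hu ha₂ hz hz'
  rw [per_pt_re] at A1 A2
  set P := u (mob γ z) - u (per_pt x' a₂) with hP
  set R := u z - u (per_pt x' a₂) with hR
  have hdPR : d = P - R := by rw [hP, hR, hper]; ring
  have hineq : d ^ 2 ≤ 2 * P ^ 2 + 2 * R ^ 2 := by
    rw [hdPR]; nlinarith [sq_nonneg (P + R)]
  calc ENNReal.ofReal (d ^ 2)
      ≤ ENNReal.ofReal (2 * P ^ 2 + 2 * R ^ 2) := ENNReal.ofReal_le_ofReal hineq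
    _ = 2 * ENNReal.ofReal (P ^ 2) + 2 * ENNReal.ofReal (R ^ 2) := by
        rw [ENNReal.ofReal_add (by positivity) (by positivity),
          ENNReal.ofReal_mul (by norm_num), ENNReal.ofReal_mul (by norm_num),
          ENNReal.ofReal_ofNat]
    _ ≤ 2 * (2 * (ENNReal.ofReal (b₁ - a₁) * per_g u a₁ b₁ (mob γ z).im)
          + 2 * (ENNReal.ofReal (b₂ - a₂) * per_h u a₂ b₂ x'))
        + 2 * (2 * (ENNReal.ofReal (b₁ - a₁) * per_g u a₁ b₁ z.im)
          + 2 * (ENNReal.ofReal (b₂ - a₂) * per_h u a₂ b₂ x')) := by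
        gcongr
    _ = _ := by ring

/-- The vertical energy integrates to the `y`-part of the Dirichlet energy. -/
theorem per_lintegral_h (u : ℂ → ℝ) (a₁ b₁ a₂ b₂ : ℝ) :
    ∫⁻ x in Icc a₁ b₁, per_h u a₂ b₂ x = ∫⁻ z in Icc a₁ b₁ ×ℂ Icc a₂ b₂, per_fy u z := by
  rw [per_lintegral_rect (per_fy u) (per_measurable_fy u)]
  rfl

/-- The horizontal energy integrates to the `x`-part of the Dirichlet energy. -/
theorem per_lintegral_g (u : ℂ → ℝ) (a₁ b₁ a₂ b₂ : ℝ) :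
    ∫⁻ y in Icc a₂ b₂, per_g u a₁ b₁ y = ∫⁻ z in Icc a₁ b₁ ×ℂ Icc a₂ b₂, per_fx u z := by
  rw [per_lintegral_rect_symm (per_fx u) (per_measurable_fx u)]
  rfl

theorem per_measurable_G (u : ℂ → ℝ) (a₁ b₁ : ℝ) :
    Measurable (fun z : ℂ => per_g u a₁ b₁ z.im) :=
  (per_measurable_g u a₁ b₁).comp Complex.measurable_im

/-- **Claim E1**. -/
theorem per_lintegral_G (u : ℂ → ℝ) (a₁ b₁ a₂ b₂ : ℝ) :
    ∫⁻ z in Icc a₁ b₁ ×ℂ Icc a₂ b₂, per_g u a₁ b₁ z.im =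
      ENNReal.ofReal (b₁ - a₁) * ∫⁻ z in Icc a₁ b₁ ×ℂ Icc a₂ b₂, per_fx u z := by
  rw [per_lintegral_rect _ (per_measurable_G u a₁ b₁)]
  simp only [per_pt_im]
  rw [setLIntegral_const, Real.volume_Icc, per_lintegral_g, mul_comm]

/-- **Claim C**. -/
theorem per_claimC {u : ℂ → ℝ} (hu : ContDiffOn ℝ 1 u Uhp) (γ : SL(2, ℤ)) (d : ℝ)
    (hd : ∀ z : ℍ, u ↑(γ • z) = u ↑z + d)
    {a₁ b₁ a₂ b₂ : ℝ} (ha₂ : 0 < a₂)
    {z : ℂ} (hz : z ∈ Icc a₁ b₁ ×ℂ Icc a₂ b₂) (hγz : mob γ z ∈ Icc a₁ b₁ ×ℂ Icc a₂ b₂) :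
    ENNReal.ofReal (d ^ 2) * ENNReal.ofReal (b₁ - a₁) ≤
      4 * ENNReal.ofReal (b₁ - a₁) * (per_g u a₁ b₁ (mob γ z).im + per_g u a₁ b₁ z.im)
          * ENNReal.ofReal (b₁ - a₁)
        + 8 * (ENNReal.ofReal (b₂ - a₂) * ∫⁻ z in Icc a₁ b₁ ×ℂ Icc a₂ b₂, per_fy u z) := by
  calc ENNReal.ofReal (d ^ 2) * ENNReal.ofReal (b₁ - a₁)
      = ∫⁻ _ in Icc a₁ b₁, ENNReal.ofReal (d ^ 2) := by
        rw [setLIntegral_const, Real.volume_Icc]
    _ ≤ ∫⁻ x' in Icc a₁ b₁,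
          (4 * ENNReal.ofReal (b₁ - a₁) * (per_g u a₁ b₁ (mob γ z).im + per_g u a₁ b₁ z.im)
            + 8 * (ENNReal.ofReal (b₂ - a₂) * per_h u a₂ b₂ x')) :=
        setLIntegral_mono' measurableSet_Icc
          (fun x' hx' => per_claimB hu γ d hd ha₂ hz hγz hx')
    _ = _ := by
        rw [lintegral_add_left measurable_const, setLIntegral_const, Real.volume_Icc,
          lintegral_const_mul _ ((per_measurable_h u a₂ b₂).const_mul _),
          lintegral_const_mul _ (per_measurable_h u a₂ b₂), per_lintegral_h]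

/-- **Claim D**. -/
theorem per_claimD {u : ℂ → ℝ} (hu : ContDiffOn ℝ 1 u Uhp) (γ : SL(2, ℤ)) (d : ℝ)
    (hd : ∀ z : ℍ, u ↑(γ • z) = u ↑z + d)
    {a₁ b₁ a₂ b₂ : ℝ} (ha₂ : 0 < a₂)
    {B : Set ℂ} (hB : MeasurableSet B) (hBQ : B ⊆ Icc a₁ b₁ ×ℂ Icc a₂ b₂)
    (hγB : mob γ '' B ⊆ Icc a₁ b₁ ×ℂ Icc a₂ b₂) :
    ENNReal.ofReal (d ^ 2) * ENNReal.ofReal (b₁ - a₁) * volume B ≤
      4 * ENNReal.ofReal (b₁ - a₁) ^ 2 *
          ((∫⁻ z in B, per_g u a₁ b₁ (mob γ z).im) + ∫⁻ z in B, per_g u a₁ b₁ z.im)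
        + 8 * (ENNReal.ofReal (b₂ - a₂) * ∫⁻ z in Icc a₁ b₁ ×ℂ Icc a₂ b₂, per_fy u z)
          * volume B := by
  have hL : ENNReal.ofReal (b₁ - a₁) ≠ ⊤ := ENNReal.ofReal_ne_top
  calc ENNReal.ofReal (d ^ 2) * ENNReal.ofReal (b₁ - a₁) * volume B
      = ∫⁻ _ in B, ENNReal.ofReal (d ^ 2) * ENNReal.ofReal (b₁ - a₁) := by
        rw [setLIntegral_const]
    _ ≤ ∫⁻ z in B,
          (4 * ENNReal.ofReal (b₁ - a₁) * (per_g u a₁ b₁ (mob γ z).im + per_g u a₁ b₁ z.im)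
              * ENNReal.ofReal (b₁ - a₁)
            + 8 * (ENNReal.ofReal (b₂ - a₂) *
                ∫⁻ z in Icc a₁ b₁ ×ℂ Icc a₂ b₂, per_fy u z)) :=
        setLIntegral_mono' hB
          (fun z hz => per_claimC hu γ d hd ha₂ (hBQ hz) (hγB ⟨z, hz, rfl⟩))
    _ = _ := by
        rw [lintegral_add_right _ measurable_const, setLIntegral_const,
          lintegral_mul_const' _ _ hL,
          lintegral_const_mul' _ _ (ENNReal.mul_ne_top (by simp) hL),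
          lintegral_add_right _ (per_measurable_G u a₁ b₁)]
        ring

/-! ### Change of variables under a Möbius transformation (`∫⁻` form) -/

theorem per_mob_injOn (γ : SL(2, ℤ)) : InjOn (mob γ) Uhp := by
  intro z₁ h₁ z₂ h₂ h
  rw [per_mob_eq h₁, per_mob_eq h₂] at h
  have h' := MulAction.injective γ (UpperHalfPlane.ext h)
  exact congrArg UpperHalfPlane.coe h'

theorem per_cd_eq_denom (γ : SL(2, ℤ)) {z : ℂ} (hz : z ∈ Uhp) :
    cd γ z = denom (γ : GL (Fin 2) ℝ) z := by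
  have := ModularGroup.denom_apply γ ⟨z, hz⟩
  simpa [cd] using this.symm

theorem per_cd_ne_zero (γ : SL(2, ℤ)) {z : ℂ} (hz : z ∈ Uhp) : cd γ z ≠ 0 := by
  rw [per_cd_eq_denom γ hz]
  exact denom_ne_zero _ ⟨z, hz⟩

theorem per_hasFDerivAt_mob (γ : SL(2, ℤ)) {z : ℂ} (hz : z ∈ Uhp) :
    HasFDerivAt (mob γ) (smulFDeriv (γ : GL (Fin 2) ℝ) z) z :=
  (hasStrictFDerivAt_smul (γ : GL (Fin 2) ℝ) ⟨z, hz⟩).hasFDerivAt

theorem per_continuousOn_mob (γ : SL(2, ℤ)) : ContinuousOn (mob γ) Uhp :=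
  fun _ hz => (per_hasFDerivAt_mob γ hz).continuousAt.continuousWithinAt

theorem per_abs_det (γ : SL(2, ℤ)) {z : ℂ} (hz : z ∈ Uhp) :
    |(smulFDeriv (γ : GL (Fin 2) ℝ) z).det| = 1 / ‖cd γ z‖ ^ 4 := by
  rw [det_smulFDeriv, per_cd_eq_denom γ hz]
  have hdet : ((γ : GL (Fin 2) ℝ)).det = 1 := by simp
  rw [hdet]
  simp

/-- **CV** in `∫⁻` form: change of variables under a Möbius transformation. -/
theorem per_lintegral_mob (γ : SL(2, ℤ)) {B : Set ℂ} (hB : MeasurableSet B) (hBU : B ⊆ Uhp)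
    (G : ℂ → ℝ≥0∞) :
    ∫⁻ w in mob γ '' B, G w = ∫⁻ z in B, ENNReal.ofReal (1 / ‖cd γ z‖ ^ 4) * G (mob γ z) := by
  rw [lintegral_image_eq_lintegral_abs_det_fderiv_mul volume hB
    (fun z hz => (per_hasFDerivAt_mob γ (hBU hz)).hasFDerivWithinAt)
    ((per_mob_injOn γ).mono hBU) G]
  refine setLIntegral_congr_fun hB (fun z hz => ?_)
  rw [per_abs_det γ (hBU hz)]

/-- **Claim E3**. -/
theorem per_lintegral_comp_mob_le (γ : SL(2, ℤ)) {B Q : Set ℂ} (hB : MeasurableSet B)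
    (hBU : B ⊆ Uhp) (hγB : mob γ '' B ⊆ Q) {m : ℝ} (hm : ∀ z ∈ B, ‖cd γ z‖ ≤ m)
    (G : ℂ → ℝ≥0∞) :
    ∫⁻ z in B, G (mob γ z) ≤ ENNReal.ofReal (m ^ 4) * ∫⁻ w in Q, G w := by
  calc ∫⁻ z in B, G (mob γ z)
      ≤ ∫⁻ z in B, ENNReal.ofReal (m ^ 4) *
          (ENNReal.ofReal (1 / ‖cd γ z‖ ^ 4) * G (mob γ z)) := by
        refine setLIntegral_mono' hB (fun z hz => ?_)
        have hpos : 0 < ‖cd γ z‖ := norm_pos_iff.mpr (per_cd_ne_zero γ (hBU hz))
        have h4 : ‖cd γ z‖ ^ 4 ≤ m ^ 4 := pow_le_pow_left₀ hpos.le (hm z hz) 4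
        have h1 : (1 : ℝ) ≤ m ^ 4 * (1 / ‖cd γ z‖ ^ 4) := by
          rw [mul_one_div, le_div_iff₀ (by positivity)]
          linarith
        rw [← mul_assoc, ← ENNReal.ofReal_mul (by positivity)]
        calc G (mob γ z) = 1 * G (mob γ z) := (one_mul _).symm
          _ ≤ ENNReal.ofReal (m ^ 4 * (1 / ‖cd γ z‖ ^ 4)) * G (mob γ z) := by
              gcongr
              rw [← ENNReal.ofReal_one]
              exact ENNReal.ofReal_le_ofReal h1
    _ = ENNReal.ofReal (m ^ 4) * ∫⁻ w in mob γ '' B, G w := by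
        rw [lintegral_const_mul' _ _ ENNReal.ofReal_ne_top, per_lintegral_mob γ hB hBU]
    _ ≤ ENNReal.ofReal (m ^ 4) * ∫⁻ w in Q, G w := by
        gcongr

/-! ### The Dirichlet energy -/

theorem per_continuousOn_dz {u : ℂ → ℝ} (hu : ContDiffOn ℝ 1 u Uhp) :
    ContinuousOn (dz u) Uhp := by
  unfold dz
  exact (Complex.continuous_ofReal.comp_continuousOn (per_continuousOn_fderiv hu 1)).sub
    (continuousOn_const.mul
      (Complex.continuous_ofReal.comp_continuousOn (per_continuousOn_fderiv hu Complex.I)))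

theorem per_norm_dz_sq (u : ℂ → ℝ) (z : ℂ) :
    ‖dz u z‖ ^ 2 = (fderiv ℝ u z 1) ^ 2 + (fderiv ℝ u z Complex.I) ^ 2 := by
  rw [Complex.sq_norm, Complex.normSq_apply]
  simp [dz]
  ring

/-- **Claim F**. -/
theorem per_energy {u : ℂ → ℝ} (hu : ContDiffOn ℝ 1 u Uhp) {a₁ b₁ a₂ b₂ : ℝ} (ha₂ : 0 < a₂) :
    (∫⁻ z in Icc a₁ b₁ ×ℂ Icc a₂ b₂, per_fx u z) + ∫⁻ z in Icc a₁ b₁ ×ℂ Icc a₂ b₂, per_fy u z
      = ENNReal.ofReal (∫ z in Icc a₁ b₁ ×ℂ Icc a₂ b₂, ‖dz u z‖ ^ 2) := by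
  have hQc : IsCompact (Icc a₁ b₁ ×ℂ Icc a₂ b₂) := isCompact_Icc.reProdIm isCompact_Icc
  have hint : IntegrableOn (fun z => ‖dz u z‖ ^ 2) (Icc a₁ b₁ ×ℂ Icc a₂ b₂) volume := by
    apply ContinuousOn.integrableOn_compact hQc
    exact (((per_continuousOn_dz hu).mono (per_rect_subset_Uhp ha₂)).norm).pow 2
  rw [ofReal_integral_eq_lintegral_ofReal hint (Eventually.of_forall (fun z => sq_nonneg _)),
    ← lintegral_add_left (per_measurable_fx u)]
  refine lintegral_congr (fun z => ?_)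
  rw [per_norm_dz_sq, ENNReal.ofReal_add (sq_nonneg _) (sq_nonneg _)]
  rfl

/-- **Key estimate**: the period is controlled by the Dirichlet energy on a rectangle. -/
theorem per_key {u : ℂ → ℝ} (hu : ContDiffOn ℝ 1 u Uhp) (γ : SL(2, ℤ)) (d : ℝ)
    (hd : ∀ z : ℍ, u ↑(γ • z) = u ↑z + d)
    {a₁ b₁ a₂ b₂ : ℝ} (ha₂ : 0 < a₂)
    {B : Set ℂ} (hB : MeasurableSet B) (hBQ : B ⊆ Icc a₁ b₁ ×ℂ Icc a₂ b₂)
    (hγB : mob γ '' B ⊆ Icc a₁ b₁ ×ℂ Icc a₂ b₂) {m : ℝ} (hm : ∀ z ∈ B, ‖cd γ z‖ ≤ m) :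
    ENNReal.ofReal (d ^ 2) * ENNReal.ofReal (b₁ - a₁) * volume B ≤
      (4 * ENNReal.ofReal (b₁ - a₁) ^ 3 * (ENNReal.ofReal (m ^ 4) + 1)
        + 8 * ENNReal.ofReal (b₂ - a₂) * volume B) *
      ENNReal.ofReal (∫ z in Icc a₁ b₁ ×ℂ Icc a₂ b₂, ‖dz u z‖ ^ 2) := by
  have hBU : B ⊆ Uhp := hBQ.trans (per_rect_subset_Uhp ha₂)
  have hD := per_claimD hu γ d hd ha₂ hB hBQ hγB
  have hE3 := per_lintegral_comp_mob_le γ hB hBU hγB hm (fun z => per_g u a₁ b₁ z.im)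
  have hE4 : ∫⁻ z in B, per_g u a₁ b₁ z.im ≤
      ∫⁻ z in Icc a₁ b₁ ×ℂ Icc a₂ b₂, per_g u a₁ b₁ z.im := lintegral_mono_set hBQ
  rw [per_lintegral_G] at hE3 hE4
  rw [← per_energy hu ha₂]
  set Ex := ∫⁻ z in Icc a₁ b₁ ×ℂ Icc a₂ b₂, per_fx u z
  set Ey := ∫⁻ z in Icc a₁ b₁ ×ℂ Icc a₂ b₂, per_fy u z
  set L₁ := ENNReal.ofReal (b₁ - a₁)
  set L₂ := ENNReal.ofReal (b₂ - a₂)
  set M := ENNReal.ofReal (m ^ 4)
  calc ENNReal.ofReal (d ^ 2) * L₁ * volume B
      ≤ 4 * L₁ ^ 2 * ((∫⁻ z in B, per_g u a₁ b₁ (mob γ z).im)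
          + ∫⁻ z in B, per_g u a₁ b₁ z.im) + 8 * (L₂ * Ey) * volume B := hD
    _ ≤ 4 * L₁ ^ 2 * (M * (L₁ * Ex) + L₁ * Ex) + 8 * (L₂ * Ey) * volume B := by
        gcongr
    _ = 4 * L₁ ^ 3 * (M + 1) * Ex + 8 * L₂ * volume B * Ey := by ring
    _ ≤ 4 * L₁ ^ 3 * (M + 1) * (Ex + Ey) + 8 * L₂ * volume B * (Ex + Ey) := by
        gcongr
        · exact le_self_add
        · exact le_add_self
    _ = _ := by ring

/-! ### The theorem -/

theorem per_volume_unit_square : volume (Icc (0 : ℝ) 1 ×ℂ Icc (1 : ℝ) 2) = 1 := by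
  rw [← setLIntegral_one, per_lintegral_rect _ measurable_const]
  simp only [setLIntegral_const, Real.volume_Icc, one_mul]
  norm_num

/-- **Per**: if the gradients tend to `0` in `L²_loc` then the common period is `0`. -/
theorem period_eq_zero_of_tendsto (v : ℕ → ℂ → ℝ) (hv : ∀ n, ContDiffOn ℝ 1 (v n) Uhp)
    (hconv : ∀ K : Set ℂ, IsCompact K → K ⊆ Uhp →
      Tendsto (fun n => ∫ z in K, ‖dz (v n) z‖ ^ 2) atTop (𝓝 0))
    (γ : SL(2, ℤ)) (d : ℝ) (hd : ∀ n (z : ℍ), v n ↑(γ • z) = v n ↑z + d) : d = 0 := by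
  -- the unit square `B` and its image
  have hBc : IsCompact (Icc (0 : ℝ) 1 ×ℂ Icc (1 : ℝ) 2) := isCompact_Icc.reProdIm isCompact_Icc
  have hBU : Icc (0 : ℝ) 1 ×ℂ Icc (1 : ℝ) 2 ⊆ Uhp := per_rect_subset_Uhp one_pos
  have hBm : MeasurableSet (Icc (0 : ℝ) 1 ×ℂ Icc (1 : ℝ) 2) := hBc.measurableSet
  have hγBc : IsCompact (mob γ '' (Icc (0 : ℝ) 1 ×ℂ Icc (1 : ℝ) 2)) :=
    hBc.image_of_continuousOn ((per_continuousOn_mob γ).mono hBU)
  have hKc := hBc.union hγBc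
  have hKU : (Icc (0 : ℝ) 1 ×ℂ Icc (1 : ℝ) 2) ∪ mob γ '' (Icc (0 : ℝ) 1 ×ℂ Icc (1 : ℝ) 2) ⊆ Uhp :=
    union_subset hBU (by rintro _ ⟨z, -, rfl⟩; exact per_mob_mem_Uhp γ z)
  have hi : per_pt 0 1 ∈ Icc (0 : ℝ) 1 ×ℂ Icc (1 : ℝ) 2 :=
    ⟨⟨le_rfl, zero_le_one⟩, ⟨le_rfl, one_le_two⟩⟩
  -- a rectangle `Q` containing both
  obtain ⟨R, hR⟩ := hKc.isBounded.exists_norm_le
  obtain ⟨z₀, hz₀, hmin⟩ := hKc.exists_isMinOn ⟨per_pt 0 1, Or.inl hi⟩
    Complex.continuous_im.continuousOn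
  have hε : 0 < z₀.im := hKU hz₀
  have hKQ : (Icc (0 : ℝ) 1 ×ℂ Icc (1 : ℝ) 2) ∪ mob γ '' (Icc (0 : ℝ) 1 ×ℂ Icc (1 : ℝ) 2) ⊆
      Icc (-R) R ×ℂ Icc z₀.im R := by
    intro z hz
    have h1 := hR z hz
    have h2 : |z.re| ≤ ‖z‖ := Complex.abs_re_le_norm z
    have h3 : |z.im| ≤ ‖z‖ := Complex.abs_im_le_norm z
    refine ⟨⟨?_, ?_⟩, ⟨hmin hz, ?_⟩⟩
    · linarith [neg_abs_le z.re]
    · linarith [le_abs_self z.re]
    · linarith [le_abs_self z.im]
  have hRpos : 0 < R := by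
    have h1 := hR _ (Or.inl hi)
    have h3 : |(per_pt 0 1).im| ≤ ‖per_pt 0 1‖ := Complex.abs_im_le_norm _
    rw [per_pt_im, abs_one] at h3
    linarith
  have hQc : IsCompact (Icc (-R) R ×ℂ Icc z₀.im R) := isCompact_Icc.reProdIm isCompact_Icc
  have hQU : Icc (-R) R ×ℂ Icc z₀.im R ⊆ Uhp := per_rect_subset_Uhp hε
  -- bound for the automorphy factor on `B`
  have hm : ∀ z ∈ Icc (0 : ℝ) 1 ×ℂ Icc (1 : ℝ) 2,
      ‖cd γ z‖ ≤ ‖((γ 1 0 : ℤ) : ℂ)‖ * R + ‖((γ 1 1 : ℤ) : ℂ)‖ := by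
    intro z hz
    unfold cd
    refine (norm_add_le _ _).trans ?_
    rw [norm_mul]
    gcongr
    exact hR z (Or.inl hz)
  -- the key estimate for every `n`
  have key := fun n => per_key (hv n) γ d (hd n) hε hBm (subset_union_left.trans hKQ)
    (subset_union_right.trans hKQ) hm
  rw [per_volume_unit_square] at key
  set C : ℝ≥0∞ := 4 * ENNReal.ofReal (R - -R) ^ 3 *
      (ENNReal.ofReal ((‖((γ 1 0 : ℤ) : ℂ)‖ * R + ‖((γ 1 1 : ℤ) : ℂ)‖) ^ 4) + 1)
      + 8 * ENNReal.ofReal (R - z₀.im) * 1 with hCdef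
  have hC : C ≠ ⊤ := by
    rw [hCdef]
    refine ENNReal.add_ne_top.mpr ⟨?_, ?_⟩
    · refine ENNReal.mul_ne_top (ENNReal.mul_ne_top (by simp) (by simp)) ?_
      exact ENNReal.add_ne_top.mpr ⟨ENNReal.ofReal_ne_top, ENNReal.one_ne_top⟩
    · exact ENNReal.mul_ne_top (ENNReal.mul_ne_top (by simp) ENNReal.ofReal_ne_top)
        ENNReal.one_ne_top
  have hlim : Tendsto (fun n => C * ENNReal.ofReal
      (∫ z in Icc (-R) R ×ℂ Icc z₀.im R, ‖dz (v n) z‖ ^ 2)) atTop (𝓝 (C * ENNReal.ofReal 0)) :=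
    ENNReal.Tendsto.const_mul (ENNReal.tendsto_ofReal (hconv _ hQc hQU)) (Or.inr hC)
  have hA := ge_of_tendsto' hlim key
  rw [ENNReal.ofReal_zero, mul_zero, nonpos_iff_eq_zero, mul_one, mul_eq_zero] at hA
  rcases hA with hA | hA
  · have hd2 : d ^ 2 ≤ 0 := ENNReal.ofReal_eq_zero.mp hA
    exact pow_eq_zero_iff (two_ne_zero) |>.mp (le_antisymm hd2 (sq_nonneg d))
  · exfalso
    have : R - -R ≤ 0 := ENNReal.ofReal_eq_zero.mp hA
    linarith

end Fermat.Agent.S21
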