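import Fermat.Agent.S21.Defs

/-!
# S21 — small analytic lemmas for the Hodge part D'

* `integral_curl_eq_zero` (**Curl**): gradients are weakly curl-free;
* `setIntegral_mob` (**CV**): change of variables under a Möbius transformation;
* `dz_comp_mob` (**DzMob**): chain rule for `dz` under a Möbius transformation.
-/

set_option autoImplicit false

open UpperHalfPlane MeasureTheory
open scoped MatrixGroups ContDiff Topology

namespace Fermat.Agent.S21

namespace SmallAux

/-- `cd g z` is Mathlib's `denom`. -/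
theorem cd_eq_denom (g : SL(2, ℤ)) (z : ℂ) : cd g z = denom (g : GL (Fin 2) ℝ) z := by
  simp [cd, denom]

theorem cd_ne_zero (g : SL(2, ℤ)) {z : ℂ} (hz : z ∈ Uhp) : cd g z ≠ 0 := by
  rw [cd_eq_denom]
  exact denom_ne_zero (g : GL (Fin 2) ℝ) ⟨z, hz⟩

/-- The complex derivative of a Möbius transformation. -/
theorem hasStrictDerivAt_mob (g : SL(2, ℤ)) {z : ℂ} (hz : z ∈ Uhp) :
    HasStrictDerivAt (mob g) (1 / (cd g z) ^ 2) z := by
  have hdet : ((g : GL (Fin 2) ℝ) : Matrix (Fin 2) (Fin 2) ℝ).det = 1 :=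
    (Matrix.SpecialLinearGroup.map (Int.castRingHom ℝ) g).det_coe
  have h := UpperHalfPlane.hasStrictDerivAt_smul (g := (g : GL (Fin 2) ℝ))
    (by rw [hdet]; exact one_pos) ⟨z, hz⟩
  rw [hdet, Complex.ofReal_one] at h
  rw [cd_eq_denom]
  exact h

/-- A real-linear functional on `ℂ` in terms of its values at `1` and `I`. -/
theorem clm_apply_eq (L : ℂ →L[ℝ] ℝ) (c : ℂ) : L c = c.re * L 1 + c.im * L Complex.I := by
  have hc : c = c.re • (1 : ℂ) + c.im • Complex.I := by
    apply Complex.ext <;> simp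
  conv_lhs => rw [hc]
  simp only [map_add, map_smul, smul_eq_mul]

/-- A function continuous on the upper half plane times a continuous function with compact
support inside the upper half plane is integrable. -/
theorem integrable_mul_of_continuousOn {f g : ℂ → ℝ} (hf : ContinuousOn f Uhp)
    (hg : Continuous g) (hc : HasCompactSupport g) (hs : tsupport g ⊆ Uhp) :
    Integrable (fun z => f z * g z) := by
  have hcont : Continuous (fun z => f z * g z) := by
    rw [continuous_iff_continuousAt]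
    intro z
    by_cases hz : z ∈ tsupport g
    · exact (hf.continuousAt (isOpen_Uhp.mem_nhds (hs hz))).mul hg.continuousAt
    · have h0 : g =ᶠ[𝓝 z] 0 := notMem_tsupport_iff_eventuallyEq.mp hz
      have h1 : (fun z => f z * g z) =ᶠ[𝓝 z] fun _ => 0 := by
        filter_upwards [h0] with w hw
        simp [hw]
      exact continuousAt_const.congr h1.symm
  exact hcont.integrable_of_hasCompactSupport hc.mul_left

end SmallAux

open SmallAux

/-- **Curl**: gradients are weakly curl-free. -/
theorem integral_curl_eq_zero (u : ℂ → ℝ) (hu : ContDiffOn ℝ 2 u Uhp) (η : ℂ → ℝ)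
    (hη : ContDiff ℝ ∞ η) (hc : HasCompactSupport η) (hs : tsupport η ⊆ Uhp) :
    ∫ z, (fderiv ℝ u z 1 * fderiv ℝ η z Complex.I
        - fderiv ℝ u z Complex.I * fderiv ℝ η z 1) = 0 := by
  have hcd : ∀ z ∈ Uhp, ContDiffAt ℝ 2 u z :=
    fun z hz => hu.contDiffAt (isOpen_Uhp.mem_nhds hz)
  have hfd : ∀ z ∈ Uhp, ContDiffAt ℝ 1 (fderiv ℝ u) z :=
    fun z hz => (hcd z hz).fderiv_right (by norm_num)
  have hfdiff : ∀ z ∈ Uhp, DifferentiableAt ℝ (fderiv ℝ u) z :=
    fun z hz => (hfd z hz).differentiableAt (by norm_num)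
  have hv_diff : ∀ (v : ℂ), ∀ z ∈ Uhp, DifferentiableAt ℝ (fun w => fderiv ℝ u w v) z :=
    fun v z hz => (hfdiff z hz).clm_apply (differentiableAt_const v)
  have hv_fderiv : ∀ (v w : ℂ), ∀ z ∈ Uhp,
      fderiv ℝ (fun x => fderiv ℝ u x v) z w = fderiv ℝ (fderiv ℝ u) z w v := by
    intro v w z hz
    rw [fderiv_clm_apply (hfdiff z hz) (differentiableAt_const v)]
    simp
  have hv_cont : ∀ v : ℂ, ContinuousOn (fun w => fderiv ℝ u w v) Uhp :=
    fun v => (hu.continuousOn_fderiv_of_isOpen isOpen_Uhp (by norm_num)).clm_apply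
      continuousOn_const
  have hvw_cont : ∀ v w : ℂ,
      ContinuousOn (fun z => fderiv ℝ (fun x => fderiv ℝ u x v) z w) Uhp := by
    intro v w
    have h2 : ContDiffOn ℝ 1 (fderiv ℝ u) Uhp := fun z hz => (hfd z hz).contDiffWithinAt
    have h3 := h2.continuousOn_fderiv_of_isOpen isOpen_Uhp le_rfl
    have h4 : ContinuousOn (fun z => fderiv ℝ (fderiv ℝ u) z w v) Uhp :=
      (h3.clm_apply continuousOn_const).clm_apply continuousOn_const
    exact h4.congr (fun z hz => hv_fderiv v w z hz)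
  have hη_cont : ∀ w : ℂ, Continuous (fun z => fderiv ℝ η z w) :=
    fun w => (hη.continuous_fderiv (by simp)).clm_apply continuous_const
  have hint : ∀ v w : ℂ, Integrable (fun z => fderiv ℝ u z v * fderiv ℝ η z w) :=
    fun v w => integrable_mul_of_continuousOn (hv_cont v) (hη_cont w) (hc.fderiv_apply ℝ w)
      ((tsupport_fderiv_apply_subset ℝ w).trans hs)
  have ibp : ∀ v w : ℂ, ∫ z, fderiv ℝ u z v * fderiv ℝ η z w
      = - ∫ z, fderiv ℝ (fun x => fderiv ℝ u x v) z w * η z := by
    intro v w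
    refine integral_mul_fderiv_eq_neg_fderiv_mul_of_integrable
      (f := fun z => fderiv ℝ u z v) (g := η) ?_ (hint v w) ?_ ?_ ?_
    · exact integrable_mul_of_continuousOn (hvw_cont v w) hη.continuous hc hs
    · exact integrable_mul_of_continuousOn (hv_cont v) hη.continuous hc hs
    · intro x hx
      exact hv_diff v x (hs hx)
    · intro x _
      exact (hη.differentiable (by simp)).differentiableAt
  have hsymm : ∀ z, fderiv ℝ (fun x => fderiv ℝ u x 1) z Complex.I * η z
      = fderiv ℝ (fun x => fderiv ℝ u x Complex.I) z 1 * η z := by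
    intro z
    by_cases hz : z ∈ tsupport η
    · have hzU := hs hz
      rw [hv_fderiv 1 Complex.I z hzU, hv_fderiv Complex.I 1 z hzU]
      have hsym : IsSymmSndFDerivAt ℝ u z := (hcd z hzU).isSymmSndFDerivAt (by simp)
      rw [hsym.eq]
    · simp [image_eq_zero_of_notMem_tsupport hz]
  rw [integral_sub (hint 1 Complex.I) (hint Complex.I 1), ibp 1 Complex.I, ibp Complex.I 1]
  simp only [hsymm]
  ring

/-- **DzMob**: chain rule for `dz` under a Möbius transformation. -/
theorem dz_comp_mob (u : ℂ → ℝ) (g : SL(2, ℤ)) (z : ℂ) (hz : z ∈ Uhp)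
    (hu : DifferentiableAt ℝ u (mob g z)) :
    dz (fun w => u (mob g w)) z = dz u (mob g z) / (cd g z) ^ 2 := by
  have hφ := ((hasStrictDerivAt_mob g hz).hasDerivAt.hasFDerivAt).restrictScalars ℝ
  have hcomp := (hu.hasFDerivAt.comp z hφ).fderiv
  have hcomp' : fderiv ℝ (fun w => u (mob g w)) z = _ := hcomp
  unfold dz
  rw [hcomp']
  set L := fderiv ℝ u (mob g z) with hL
  set c : ℂ := 1 / (cd g z) ^ 2 with hc
  have h1 : (L.comp ((ContinuousLinearMap.toSpanSingleton ℂ c).restrictScalars ℝ)) 1 = L c := by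
    simp
  have hI : (L.comp ((ContinuousLinearMap.toSpanSingleton ℂ c).restrictScalars ℝ)) Complex.I
      = L (Complex.I * c) := by
    simp
  rw [h1, hI, clm_apply_eq L c, clm_apply_eq L (Complex.I * c), div_eq_mul_one_div, ← hc]
  apply Complex.ext <;> simp <;> ring

/-- **CV**: change of variables under a Möbius transformation. -/
theorem setIntegral_mob (δ : SL(2, ℤ)) (K : Set ℂ) (hK : MeasurableSet K) (hKU : K ⊆ Uhp)
    (h : ℂ → ℝ) :
    ∫ z in K, h (mob δ z) / ‖cd δ z‖ ^ 4 = ∫ w in mob δ '' K, h w := by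
  have hinj : Set.InjOn (mob δ) K := by
    intro z hz w hw hzw
    have hz' : 0 < z.im := hKU hz
    have hw' : 0 < w.im := hKU hw
    have h1 : (δ • ofComplex z : ℍ) = δ • ofComplex w := UpperHalfPlane.ext hzw
    have h2 : ofComplex z = ofComplex w := MulAction.injective δ h1
    have h3 := congrArg UpperHalfPlane.coe h2
    rwa [ofComplex_apply_of_im_pos hz', ofComplex_apply_of_im_pos hw'] at h3
  have hd : ∀ z ∈ K, HasFDerivWithinAt (mob δ) (smulFDeriv (δ : GL (Fin 2) ℝ) z) K z :=
    fun z hz =>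
      (hasStrictFDerivAt_smul (δ : GL (Fin 2) ℝ) ⟨z, hKU hz⟩).hasFDerivAt.hasFDerivWithinAt
  rw [integral_image_eq_integral_abs_det_fderiv_smul volume hK hd hinj]
  refine setIntegral_congr_fun hK fun z hz => ?_
  simp only [det_smulFDeriv, smul_eq_mul, cd_eq_denom]
  have hpos : (0 : ℝ) < ‖denom (δ : GL (Fin 2) ℝ) z‖ ^ 4 :=
    pow_pos (norm_pos_iff.mpr (denom_ne_zero (δ : GL (Fin 2) ℝ) ⟨z, hKU hz⟩)) 4
  simp [abs_of_pos hpos, div_eq_inv_mul]

end Fermat.Agent.S21
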