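import Fermat.Agent.S21.Defs
import Fermat.Agent.S21.Small
import Fermat.Agent.S21.Cusp
import Fermat.Agent.S21.Per
import Fermat.Agent.S21.H561.WeylL2

/-!
# S21 — interface statements for the Hodge part D'

`W` Weyl lemma (helper561, `H561/WeylL2.lean`), `Cusp` packaging (helper825, `Cusp.lean`:
`exists_cuspForm_of_energy`), `Per` periods (helper972, `Per.lean`:
`period_eq_zero_of_tendsto`).
-/

set_option autoImplicit false

open ModularCurve ModularCurve.Period UpperHalfPlane CongruenceSubgroup Filter Topology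
open MeasureTheory
open scoped MatrixGroups ComplexConjugate ContDiff

namespace Fermat.Agent.S21

/-- **W** (Weyl lemma for `∂̄`). -/
theorem weyl_lemma (g : ℕ → ℂ → ℂ) (hg : ∀ n, ContinuousOn (g n) Uhp)
    (hcauchy : ∀ K : Set ℂ, IsCompact K → K ⊆ Uhp → ∀ ε > 0, ∃ M, ∀ m ≥ M, ∀ n ≥ M,
        ∫ z in K, ‖g n z - g m z‖ ^ 2 < ε)
    (hweak : ∀ η : ℂ → ℝ, ContDiff ℝ ∞ η → HasCompactSupport η → tsupport η ⊆ Uhp →
        Tendsto (fun n => ∫ z, g n z *
          (((fderiv ℝ η z 1 : ℝ) : ℂ) + Complex.I * ((fderiv ℝ η z Complex.I : ℝ) : ℂ)))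
          atTop (𝓝 0)) :
    ∃ f : ℂ → ℂ, DifferentiableOn ℂ f Uhp ∧
      ∀ K : Set ℂ, IsCompact K → K ⊆ Uhp →
        Tendsto (fun n => ∫ z in K, ‖g n z - f z‖ ^ 2) atTop (𝓝 0) :=
  H561.weyl_lemma_open isOpen_Uhp g hg hcauchy hweak

end Fermat.Agent.S21
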