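import Fermat.Statements.S21
import Fermat.Agent.S21.H381.Parabolic
import Fermat.Agent.S21.H81.CPrime
import Fermat.Agent.S21.ConjPartner

/-!
# S21 (Eichler–Shimura, weight 2, Γ₀(N)) — interface statements

The analytic inputs `A1 A2 B C'` (proved by helper381 / helper81; `E1` is in `ConjPartner.lean`
by helper759, `D'` is in `HodgeAssembly.lean`).  Everything else is glue (`Glue.lean`).
-/

set_option autoImplicit false

open ModularCurve ModularCurve.Period UpperHalfPlane CongruenceSubgroup
open scoped MatrixGroups ComplexConjugate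

namespace Fermat.Agent.S21

/-- **A1**: every weight-2 cusp form on `Γ₀(N)` has an equivariant primitive. -/
theorem exists_primitive (N : ℕ) [NeZero N] (f : CuspForm (Gamma0 N) 2) :
    ∃ F : ℍ → ℂ, HasEquivariantPrimitive N f F :=
  H381.exists_hasEquivariantPrimitive f

/-- **A2**: the equivariant primitive is unique (only the derivative and the limit at `i∞` are
used). -/
theorem primitive_unique (N : ℕ) (f : CuspForm (Gamma0 N) 2) {F₁ F₂ : ℍ → ℂ}
    (h₁ : HasEquivariantPrimitive N f F₁) (h₂ : HasEquivariantPrimitive N f F₂) : F₁ = F₂ :=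
  H381.hasEquivariantPrimitive_unique h₁ h₂

/-- **B**: periods of cusp forms vanish on parabolic elements. -/
theorem periodMap_mem_parabolicHoms' (N : ℕ) [NeZero N] (f : CuspForm (Gamma0 N) 2) :
    periodMap N f ∈ parabolicHoms ℂ (Gamma0 N) ℂ :=
  H381.periodMap_mem_parabolicHoms f

/-- **C'**: a cusp form all of whose periods are purely imaginary is zero. -/
theorem eq_zero_of_re_period_eq_zero (N : ℕ) [NeZero N] (f : CuspForm (Gamma0 N) 2) {F : ℍ → ℂ}
    (hF : HasEquivariantPrimitive N f F)
    (h : ∀ γ : Gamma0 N, (F ((γ : SL(2, ℤ)) • UpperHalfPlane.I) - F UpperHalfPlane.I).re = 0) :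
    f = 0 :=
  H81.eq_zero_of_re_period_eq_zero N f hF h

end Fermat.Agent.S21
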