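import Mathlib.Analysis.InnerProductSpace.Basic
import Mathlib.Analysis.SpecificLimits.Basic

/-!
# Abstract Dirichlet principle (S21, piece MS-E)

For a vector `a` and a subspace `V` of a real inner product space `H` (no completeness
assumed), a minimizing sequence `v n ∈ V` for `‖a + v‖ ^ 2` is Cauchy and `a + v n` is
asymptotically orthogonal to `V`.
-/

namespace Fermat.Agent.S21

theorem abstract_dirichlet {H : Type*} [NormedAddCommGroup H] [InnerProductSpace ℝ H]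
    (a : H) (V : Submodule ℝ H) :
    ∃ v : ℕ → H, (∀ n, v n ∈ V) ∧
      (∀ ε > 0, ∃ M, ∀ m ≥ M, ∀ n ≥ M, ‖v n - v m‖ ^ 2 < ε) ∧
      (∀ w ∈ V, Filter.Tendsto (fun n => inner ℝ (a + v n) w) Filter.atTop (nhds 0)) ∧
      (∀ n, ‖a + v n‖ ^ 2 ≤ ‖a‖ ^ 2 + 1) := by
  classical
  set S : Set ℝ := {r | ∃ v ∈ V, r = ‖a + v‖ ^ 2} with hS
  have hSne : S.Nonempty := ⟨‖a + 0‖ ^ 2, 0, V.zero_mem, rfl⟩
  have hSbdd : BddBelow S := ⟨0, by
    rintro r ⟨v, -, rfl⟩
    positivity⟩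
  set m : ℝ := sInf S with hm
  have hm_le : ∀ v ∈ V, m ≤ ‖a + v‖ ^ 2 := fun v hv => csInf_le hSbdd ⟨v, hv, rfl⟩
  have hm_le_a : m ≤ ‖a‖ ^ 2 := by
    have := hm_le 0 V.zero_mem
    simpa using this
  have hex : ∀ n : ℕ, ∃ v ∈ V, ‖a + v‖ ^ 2 < m + 1 / ((n : ℝ) + 1) := by
    intro n
    have hpos : (0 : ℝ) < 1 / ((n : ℝ) + 1) := by positivity
    obtain ⟨r, ⟨v, hv, rfl⟩, hr⟩ := Real.lt_sInf_add_pos hSne hpos
    exact ⟨v, hv, hr⟩
  choose v hvV hvlt using hex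
  have hone : ∀ n : ℕ, 1 / ((n : ℝ) + 1) ≤ 1 := by
    intro n
    have h1 : (1 : ℝ) ≤ (n : ℝ) + 1 := by
      have : (0 : ℝ) ≤ n := Nat.cast_nonneg n
      linarith
    exact (div_le_one (by positivity)).2 h1
  -- parallelogram estimate
  have hpar : ∀ n k : ℕ, ‖v n - v k‖ ^ 2 ≤ 2 / ((n : ℝ) + 1) + 2 / ((k : ℝ) + 1) := by
    intro n k
    have h1 := parallelogram_law_with_norm ℝ (a + v n) (a + v k)
    have hmid : m ≤ ‖a + (1 / 2 : ℝ) • (v n + v k)‖ ^ 2 :=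
      hm_le _ (V.smul_mem _ (V.add_mem (hvV n) (hvV k)))
    have hsum : (a + v n) + (a + v k) = (2 : ℝ) • (a + (1 / 2 : ℝ) • (v n + v k)) := by
      rw [smul_add, smul_smul]
      norm_num
      rw [two_smul]
      abel
    have hdiff : (a + v n) - (a + v k) = v n - v k := by abel
    rw [hsum, hdiff, norm_smul] at h1
    have h2 : ‖(2 : ℝ)‖ = 2 := by norm_num
    rw [h2] at h1
    have hn := hvlt n
    have hk := hvlt k
    have e1 : 2 / ((n : ℝ) + 1) = 2 * (1 / ((n : ℝ) + 1)) := by ring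
    have e2 : 2 / ((k : ℝ) + 1) = 2 * (1 / ((k : ℝ) + 1)) := by ring
    rw [e1, e2]
    nlinarith [h1, hmid, hn, hk]
  -- near orthogonality
  have horth : ∀ (n : ℕ) (w : H), w ∈ V →
      (inner ℝ (a + v n) w) ^ 2 ≤ ‖w‖ ^ 2 * (1 / ((n : ℝ) + 1)) := by
    intro n w hw
    set c : ℝ := inner ℝ (a + v n) w with hc
    by_cases hW : ‖w‖ ^ 2 = 0
    · have hw0 : w = 0 := by
        have : ‖w‖ = 0 := by simpa using hW
        exact norm_eq_zero.1 this
      have : c = 0 := by rw [hc, hw0, inner_zero_right]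
      rw [this, hW]
      simp
    · have hWpos : 0 < ‖w‖ ^ 2 := lt_of_le_of_ne (by positivity) (Ne.symm hW)
      set t : ℝ := -c / ‖w‖ ^ 2 with ht
      have hmem : v n + t • w ∈ V := V.add_mem (hvV n) (V.smul_mem _ hw)
      have h1 := hm_le _ hmem
      have hexp : ‖a + (v n + t • w)‖ ^ 2 = ‖a + v n‖ ^ 2 + 2 * t * c + t ^ 2 * ‖w‖ ^ 2 := by
        rw [← add_assoc, norm_add_sq_real, real_inner_smul_right, norm_smul, mul_pow]
        simp only [Real.norm_eq_abs, sq_abs]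
        rw [hc]
        ring
      rw [hexp] at h1
      have hn := hvlt n
      have hWne : ‖w‖ ^ 2 ≠ 0 := hW
      have key : 2 * t * c + t ^ 2 * ‖w‖ ^ 2 = -(c ^ 2) / ‖w‖ ^ 2 := by
        rw [ht]
        generalize ‖w‖ ^ 2 = W at hWne
        field_simp
        ring
      have h3 : 0 ≤ 1 / ((n : ℝ) + 1) + -(c ^ 2) / ‖w‖ ^ 2 := by
        rw [← key]; linarith
      have h4 : c ^ 2 / ‖w‖ ^ 2 ≤ 1 / ((n : ℝ) + 1) := by
        have : -(c ^ 2) / ‖w‖ ^ 2 = -(c ^ 2 / ‖w‖ ^ 2) := by ring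
        rw [this] at h3
        linarith
      rw [div_le_iff₀ hWpos] at h4
      linarith
  refine ⟨v, hvV, ?_, ?_, ?_⟩
  · intro ε hε
    obtain ⟨M, hM⟩ := exists_nat_gt (4 / ε)
    refine ⟨M, fun k hk n hn => ?_⟩
    have hMpos : (0 : ℝ) < (M : ℝ) + 1 := by positivity
    have hb : ∀ j : ℕ, j ≥ M → 2 / ((j : ℝ) + 1) < ε / 2 := by
      intro j hj
      have hj' : (M : ℝ) ≤ j := by exact_mod_cast hj
      have hjpos : (0 : ℝ) < (j : ℝ) + 1 := by positivity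
      rw [div_lt_iff₀ hjpos]
      have h4 : 4 / ε < (j : ℝ) + 1 := by linarith
      rw [div_lt_iff₀ hε] at h4
      linarith
    calc ‖v n - v k‖ ^ 2 ≤ 2 / ((n : ℝ) + 1) + 2 / ((k : ℝ) + 1) := hpar n k
      _ < ε / 2 + ε / 2 := add_lt_add (hb n hn) (hb k hk)
      _ = ε := by ring
  · intro w hw
    have hlim : Filter.Tendsto (fun n : ℕ => ‖w‖ ^ 2 * (1 / ((n : ℝ) + 1)))
        Filter.atTop (nhds 0) := by
      have := (tendsto_one_div_add_atTop_nhds_zero_nat (𝕜 := ℝ)).const_mul (‖w‖ ^ 2)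
      simpa using this
    have hsq : Filter.Tendsto (fun n : ℕ => (inner ℝ (a + v n) w) ^ 2)
        Filter.atTop (nhds 0) :=
      squeeze_zero (fun n => sq_nonneg _) (fun n => horth n w hw) hlim
    have habs : Filter.Tendsto (fun n : ℕ => |inner ℝ (a + v n) w|)
        Filter.atTop (nhds 0) := by
      have h := hsq.sqrt
      simpa [Real.sqrt_sq_eq_abs] using h
    exact (tendsto_zero_iff_abs_tendsto_zero _).2 habs
  · intro n
    have := hvlt n
    have := hone n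
    linarith
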