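import Fermat.Statements.S21

/-!
# S21, piece MS-B: a section `φt : SL(2,ℤ) → ℝ` of a parabolic homomorphism

Pure group theory: for a parabolic homomorphism `φ : Γ₀(N) → ℝ` there is a function `φt` on
`SL(2,ℤ)` which is right-`Γ₀(N)`-equivariant (with cocycle `φ`), left-`T`-invariant and even.
-/

set_option autoImplicit false

open CongruenceSubgroup
open scoped MatrixGroups

namespace Fermat.Agent.S21

/-- The double coset relation of `⟨T⟩ \ SL(2,ℤ) / Γ₀(N)`. -/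
def sectionRel (N : ℕ) (g g' : SL(2, ℤ)) : Prop :=
  ∃ (n : ℤ) (γ : Gamma0 N), g' = ModularGroup.T ^ n * g * (γ : SL(2, ℤ))

theorem sectionRel_refl (N : ℕ) (g : SL(2, ℤ)) : sectionRel N g g :=
  ⟨0, 1, by simp⟩

theorem sectionRel_symm {N : ℕ} {g g' : SL(2, ℤ)} (h : sectionRel N g g') :
    sectionRel N g' g := by
  obtain ⟨n, γ, rfl⟩ := h
  refine ⟨-n, γ⁻¹, ?_⟩
  simp only [Subgroup.coe_inv, zpow_neg]
  group

theorem sectionRel_trans {N : ℕ} {g g' g'' : SL(2, ℤ)} (h : sectionRel N g g')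
    (h' : sectionRel N g' g'') : sectionRel N g g'' := by
  obtain ⟨n, γ, rfl⟩ := h
  obtain ⟨m, γ', rfl⟩ := h'
  refine ⟨m + n, γ * γ', ?_⟩
  simp only [Subgroup.coe_mul, zpow_add]
  group

/-- The setoid of double cosets `⟨T⟩ \ SL(2,ℤ) / Γ₀(N)`. -/
def sectionSetoid (N : ℕ) : Setoid SL(2, ℤ) where
  r := sectionRel N
  iseqv := ⟨sectionRel_refl N, sectionRel_symm, sectionRel_trans⟩

/-- The chosen representative of the double coset of `g`. -/
noncomputable def sectionRep (N : ℕ) (g : SL(2, ℤ)) : SL(2, ℤ) :=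
  @Quotient.out _ (sectionSetoid N) (@Quotient.mk _ (sectionSetoid N) g)

theorem sectionRep_rel (N : ℕ) (g : SL(2, ℤ)) : sectionRel N (sectionRep N g) g :=
  @Quotient.exact _ (sectionSetoid N) _ _ (@Quotient.out_eq _ (sectionSetoid N) _)

theorem sectionRep_eq_of_rel {N : ℕ} {g g' : SL(2, ℤ)} (h : sectionRel N g g') :
    sectionRep N g = sectionRep N g' := by
  unfold sectionRep
  rw [@Quotient.sound _ (sectionSetoid N) g g' h]

/-- The trace of a conjugate of a power of `T` is `2`. -/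
theorem section_trace_conj_T_zpow (r : SL(2, ℤ)) (k : ℤ) :
    ((r⁻¹ * ModularGroup.T ^ k * r : SL(2, ℤ)) : Matrix (Fin 2) (Fin 2) ℤ).trace = 2 := by
  have h1 : ((r⁻¹ * ModularGroup.T ^ k * r : SL(2, ℤ)) : Matrix (Fin 2) (Fin 2) ℤ)
      = (r⁻¹ : SL(2, ℤ)).1 * (ModularGroup.T ^ k : SL(2, ℤ)).1 * r.1 := by
    simp [Matrix.SpecialLinearGroup.coe_mul]
  rw [h1, Matrix.trace_mul_cycle]
  have h2 : r.1 * (r⁻¹ : SL(2, ℤ)).1 = 1 := by
    rw [← Matrix.SpecialLinearGroup.coe_mul, mul_inv_cancel, Matrix.SpecialLinearGroup.coe_one]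
  rw [h2, one_mul]
  show (↑(ModularGroup.T ^ k) : Matrix (Fin 2) (Fin 2) ℤ).trace = 2
  rw [ModularGroup.coe_T_zpow, Matrix.trace_fin_two_of]
  norm_num

/-- Well-definedness of the section: two decompositions with the same representative
give the same `φ`-value. -/
theorem section_wd (N : ℕ) (φ : Additive (Gamma0 N) →+ ℝ)
    (hφ : ModularCurve.Period.IsParabolicHom (Gamma0 N) φ) (r : SL(2, ℤ)) (n m : ℤ)
    (γ γ' : Gamma0 N)
    (h : ModularGroup.T ^ n * r * (γ : SL(2, ℤ)) = ModularGroup.T ^ m * r * (γ' : SL(2, ℤ))) :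
    φ (Additive.ofMul γ) = φ (Additive.ofMul γ') := by
  -- γ' * γ⁻¹ = r⁻¹ * T ^ (n - m) * r
  have key : ((γ' * γ⁻¹ : Gamma0 N) : SL(2, ℤ)) = r⁻¹ * ModularGroup.T ^ (n - m) * r := by
    have h' : (γ' : SL(2, ℤ)) = (ModularGroup.T ^ m * r)⁻¹
        * (ModularGroup.T ^ n * r * (γ : SL(2, ℤ))) := by
      rw [h]; group
    rw [Subgroup.coe_mul, Subgroup.coe_inv, h', zpow_sub]
    group
  have htr : (((γ' * γ⁻¹ : Gamma0 N) : SL(2, ℤ)) : Matrix (Fin 2) (Fin 2) ℤ).trace ^ 2 = 4 := by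
    rw [key, section_trace_conj_T_zpow]; norm_num
  have h0 := hφ (γ' * γ⁻¹) htr
  have h1 : φ (Additive.ofMul (γ' * γ⁻¹)) = φ (Additive.ofMul γ') - φ (Additive.ofMul γ) := by
    rw [ofMul_mul, ofMul_inv, map_add, map_neg, sub_eq_add_neg]
  rw [h1] at h0
  linarith

/-- The section value: `φ γ` for any decomposition `g = T ^ n * rep g * γ`. -/
noncomputable def sectionVal (N : ℕ) (φ : Additive (Gamma0 N) →+ ℝ) (g : SL(2, ℤ)) : ℝ :=
  φ (Additive.ofMul (sectionRep_rel N g).choose_spec.choose)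

theorem sectionVal_spec (N : ℕ) (g : SL(2, ℤ)) :
    g = ModularGroup.T ^ (sectionRep_rel N g).choose * sectionRep N g
      * (((sectionRep_rel N g).choose_spec.choose : Gamma0 N) : SL(2, ℤ)) :=
  (sectionRep_rel N g).choose_spec.choose_spec

theorem sectionVal_eq (N : ℕ) (φ : Additive (Gamma0 N) →+ ℝ)
    (hφ : ModularCurve.Period.IsParabolicHom (Gamma0 N) φ) (g : SL(2, ℤ)) (n : ℤ)
    (γ : Gamma0 N) (h : g = ModularGroup.T ^ n * sectionRep N g * (γ : SL(2, ℤ))) :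
    sectionVal N φ g = φ (Additive.ofMul γ) := by
  unfold sectionVal
  refine section_wd N φ hφ (sectionRep N g) (sectionRep_rel N g).choose n
    (sectionRep_rel N g).choose_spec.choose γ ?_
  rw [← sectionVal_spec N g, ← h]

/-- **MS-B**: a section of a parabolic homomorphism on `SL(2,ℤ)`. -/
theorem exists_section (N : ℕ) [NeZero N] (φ : Additive (Gamma0 N) →+ ℝ)
    (hφ : ModularCurve.Period.IsParabolicHom (Gamma0 N) φ) :
    ∃ φt : SL(2, ℤ) → ℝ,
      (∀ (g : SL(2, ℤ)) (γ : Gamma0 N),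
          φt (g * (γ : SL(2, ℤ))) = φt g + φ (Additive.ofMul γ)) ∧
      (∀ g : SL(2, ℤ), φt (ModularGroup.T * g) = φt g) ∧
      (∀ g : SL(2, ℤ), φt (-g) = φt g) := by
  have hmul : ∀ (g : SL(2, ℤ)) (γ : Gamma0 N),
      sectionVal N φ (g * (γ : SL(2, ℤ))) = sectionVal N φ g + φ (Additive.ofMul γ) := by
    intro g γ
    have hrel : sectionRel N g (g * (γ : SL(2, ℤ))) := ⟨0, γ, by simp⟩
    have hrep : sectionRep N g = sectionRep N (g * (γ : SL(2, ℤ))) := sectionRep_eq_of_rel hrel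
    set n := (sectionRep_rel N g).choose
    set γ₀ := (sectionRep_rel N g).choose_spec.choose
    have hg : g = ModularGroup.T ^ n * sectionRep N g * ((γ₀ : Gamma0 N) : SL(2, ℤ)) :=
      sectionVal_spec N g
    have h1 : g * (γ : SL(2, ℤ)) = ModularGroup.T ^ n * sectionRep N (g * (γ : SL(2, ℤ)))
        * (((γ₀ * γ : Gamma0 N)) : SL(2, ℤ)) := by
      rw [← hrep, Subgroup.coe_mul, ← mul_assoc, ← hg]
    rw [sectionVal_eq N φ hφ _ n (γ₀ * γ) h1, ofMul_mul, map_add]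
    rfl
  refine ⟨sectionVal N φ, hmul, ?_, ?_⟩
  · intro g
    have hrel : sectionRel N g (ModularGroup.T * g) := ⟨1, 1, by simp⟩
    have hrep : sectionRep N g = sectionRep N (ModularGroup.T * g) := sectionRep_eq_of_rel hrel
    set n := (sectionRep_rel N g).choose
    set γ₀ := (sectionRep_rel N g).choose_spec.choose
    have hg : g = ModularGroup.T ^ n * sectionRep N g * ((γ₀ : Gamma0 N) : SL(2, ℤ)) :=
      sectionVal_spec N g
    have h1 : ModularGroup.T * g = ModularGroup.T ^ (1 + n) * sectionRep N (ModularGroup.T * g)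
        * ((γ₀ : Gamma0 N) : SL(2, ℤ)) := by
      rw [← hrep, zpow_add, zpow_one, mul_assoc, mul_assoc, ← mul_assoc (ModularGroup.T ^ n),
        ← hg]
    rw [sectionVal_eq N φ hφ _ (1 + n) γ₀ h1]
    rfl
  · intro g
    have hneg : (-1 : SL(2, ℤ)) ∈ Gamma0 N := by
      rw [Gamma0_mem]
      simp
    have h := hmul g ⟨-1, hneg⟩
    have h2 : g * ((⟨-1, hneg⟩ : Gamma0 N) : SL(2, ℤ)) = -g := by
      simp
    rw [h2] at h
    rw [h]
    have htr : ((((⟨-1, hneg⟩ : Gamma0 N)) : SL(2, ℤ)) : Matrix (Fin 2) (Fin 2) ℤ).trace ^ 2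
        = 4 := by
      simp
    rw [hφ ⟨-1, hneg⟩ htr, add_zero]

end Fermat.Agent.S21
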