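import Fermat.Agent.S21.DefsMS
import Fermat.Agent.S21.Small

/-!
# S21 — INT-B: `Γ₀(N)`-symmetrization of a test function

`sym N η z = ∑ᶠ γ : Γ₀(N), η (γ z)` is smooth on the upper half plane, `Γ₀(N)`-invariant,
additive and homogeneous in `η`, and has finite energy on a fundamental domain.
-/

set_option autoImplicit false
set_option linter.unusedSectionVars false
set_option linter.unusedVariables false

open UpperHalfPlane CongruenceSubgroup MeasureTheory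
open scoped MatrixGroups ContDiff Topology Pointwise

namespace Fermat.Agent.S21

namespace IntB

theorem mob_mem_Uhp (g : SL(2, ℤ)) (z : ℂ) : mob g z ∈ Uhp := (g • ofComplex z).im_pos

theorem mob_mul (g h : SL(2, ℤ)) (z : ℂ) : mob (g * h) z = mob g (mob h z) := by
  simp [mob, mul_smul, ofComplex_apply]

theorem mob_one {z : ℂ} (hz : z ∈ Uhp) : mob 1 z = z := by
  have hz' : 0 < z.im := hz
  simp [mob, ofComplex_apply_of_im_pos hz']

theorem mob_inv_mob (g : SL(2, ℤ)) {z : ℂ} (hz : z ∈ Uhp) : mob g⁻¹ (mob g z) = z := by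
  rw [← mob_mul, inv_mul_cancel, mob_one hz]

theorem mob_mob_inv (g : SL(2, ℤ)) {z : ℂ} (hz : z ∈ Uhp) : mob g (mob g⁻¹ z) = z := by
  rw [← mob_mul, mul_inv_cancel, mob_one hz]

theorem analyticAt_mob (g : SL(2, ℤ)) {z : ℂ} (hz : z ∈ Uhp) : AnalyticAt ℂ (mob g) z := by
  have hdet : (0 : ℝ) < ((g : GL (Fin 2) ℝ) : Matrix (Fin 2) (Fin 2) ℝ).det := by
    have : ((g : GL (Fin 2) ℝ) : Matrix (Fin 2) (Fin 2) ℝ).det = 1 :=
      (Matrix.SpecialLinearGroup.map (Int.castRingHom ℝ) g).det_coe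
    rw [this]; exact one_pos
  exact UpperHalfPlane.analyticAt_smul hdet ⟨z, hz⟩

theorem contDiffAt_mob (g : SL(2, ℤ)) {z : ℂ} (hz : z ∈ Uhp) : ContDiffAt ℝ ∞ (mob g) z :=
  ((analyticAt_mob g hz).contDiffAt (n := ∞)).restrict_scalars ℝ

theorem continuousAt_mob (g : SL(2, ℤ)) {z : ℂ} (hz : z ∈ Uhp) : ContinuousAt (mob g) z :=
  (analyticAt_mob g hz).continuousAt

theorem continuousOn_mob (g : SL(2, ℤ)) : ContinuousOn (mob g) Uhp :=
  fun _ hz => (continuousAt_mob g hz).continuousWithinAt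

/-- Proper discontinuity of the action of `SL(2,ℤ)`, phrased on `ℂ`. -/
theorem finite_mob {K L : Set ℂ} (hK : IsCompact K) (hKU : K ⊆ Uhp) (hL : IsCompact L)
    (hLU : L ⊆ Uhp) : {g : SL(2, ℤ) | ∃ z ∈ K, mob g z ∈ L}.Finite := by
  have hrange : Set.range (UpperHalfPlane.coe) = Uhp := by
    ext z
    constructor
    · rintro ⟨w, rfl⟩; exact w.im_pos
    · intro hz; exact ⟨⟨z, hz⟩, rfl⟩
  have hK' : IsCompact ((UpperHalfPlane.coe) ⁻¹' K) :=
    (isEmbedding_coe.isInducing.isCompact_preimage_iff (by rw [hrange]; exact hKU)).mpr hK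
  have hL' : IsCompact ((UpperHalfPlane.coe) ⁻¹' L) :=
    (isEmbedding_coe.isInducing.isCompact_preimage_iff (by rw [hrange]; exact hLU)).mpr hL
  have h := (Subgroup.properlyDiscontinuousSMul_iff 𝒮ℒ).mp properlyDiscontinuousSL2ZRange hK' hL'
  have hinj : Function.Injective (Matrix.SpecialLinearGroup.mapGL ℝ : SL(2, ℤ) →* GL (Fin 2) ℝ) :=
    Matrix.SpecialLinearGroup.mapGL_injective
  refine (h.preimage hinj.injOn).subset ?_
  rintro g ⟨z, hz, hgz⟩
  refine ⟨⟨g, rfl⟩, (Matrix.SpecialLinearGroup.mapGL ℝ g) • ofComplex z,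
    ⟨ofComplex z, ?_, rfl⟩, ?_⟩
  · show ((ofComplex z : ℍ) : ℂ) ∈ K
    rw [ofComplex_apply_of_im_pos (hKU hz)]
    exact hz
  · exact hgz

/-- Local finiteness of the symmetrization sum. -/
theorem finite_sym_support (N : ℕ) {η : ℂ → ℝ} (hη : IsTest η) {K : Set ℂ} (hK : IsCompact K)
    (hKU : K ⊆ Uhp) : {γ : Gamma0 N | ∃ z ∈ K, η (mob (γ : SL(2, ℤ)) z) ≠ 0}.Finite := by
  have h := finite_mob hK hKU hη.2.1 hη.2.2
  refine (h.preimage Subtype.val_injective.injOn).subset ?_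
  rintro γ ⟨z, hz, hne⟩
  exact ⟨z, hz, subset_tsupport _ hne⟩

theorem sym_eq_sum (N : ℕ) {η : ℂ → ℝ} (hη : IsTest η) {K : Set ℂ} (hK : IsCompact K)
    (hKU : K ⊆ Uhp) : ∀ z ∈ K, sym N η z
      = ∑ γ ∈ (finite_sym_support N hη hK hKU).toFinset, η (mob (γ : SL(2, ℤ)) z) := by
  intro z hz
  unfold sym
  apply finsum_eq_sum_of_support_subset
  intro γ hγ
  simp only [Set.Finite.coe_toFinset, Set.mem_ofPred_eq]
  exact ⟨z, hz, hγ⟩

theorem finite_support_point (N : ℕ) {η : ℂ → ℝ} (hη : IsTest η) {z : ℂ} (hz : z ∈ Uhp) :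
    (Function.support fun γ : Gamma0 N => η (mob (γ : SL(2, ℤ)) z)).Finite :=
  (finite_sym_support N hη isCompact_singleton (Set.singleton_subset_iff.mpr hz)).subset
    (fun _ hγ => ⟨z, rfl, hγ⟩)

theorem continuousOn_dz {u : ℂ → ℝ} (hu : ContDiffOn ℝ ∞ u Uhp) :
    ContinuousOn (fun z => dz u z) Uhp := by
  have h1 : ContinuousOn (fderiv ℝ u) Uhp :=
    hu.continuousOn_fderiv_of_isOpen isOpen_Uhp (by simp)
  have h2 : ∀ v : ℂ, ContinuousOn (fun z => ((fderiv ℝ u z v : ℝ) : ℂ)) Uhp := fun v =>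
    Complex.continuous_ofReal.comp_continuousOn (h1.clm_apply continuousOn_const)
  unfold dz
  exact (h2 1).sub (continuousOn_const.mul (h2 Complex.I))

/-- Away from the `Γ₀(N)`-orbit of the support of `η` the symmetrization is locally zero. -/
theorem dz_sym_eq_zero (N : ℕ) {η : ℂ → ℝ} (hη : IsTest η) {z : ℂ} (hz : z ∈ Uhp)
    (h : ∀ γ : Gamma0 N, mob (γ : SL(2, ℤ)) z ∉ tsupport η) : dz (sym N η) z = 0 := by
  obtain ⟨K, hK, hzK, hKU⟩ := exists_compact_subset isOpen_Uhp hz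
  have hev : sym N η =ᶠ[𝓝 z] fun _ => (0 : ℝ) := by
    have h1 : ∀ γ ∈ (finite_sym_support N hη hK hKU).toFinset,
        ∀ᶠ w in 𝓝 z, η (mob (γ : SL(2, ℤ)) w) = 0 := by
      intro γ _
      have h0 : η =ᶠ[𝓝 (mob (γ : SL(2, ℤ)) z)] 0 := notMem_tsupport_iff_eventuallyEq.mp (h γ)
      exact (continuousAt_mob (γ : SL(2, ℤ)) hz).eventually h0
    have h2 := (Filter.eventually_all_finset _).mpr h1
    filter_upwards [mem_interior_iff_mem_nhds.mp hzK, h2] with w hw hw2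
    rw [sym_eq_sum N hη hK hKU w hw]
    exact Finset.sum_eq_zero hw2
  have hfd : fderiv ℝ (sym N η) z = 0 := by
    rw [hev.fderiv_eq]
    simp
  simp [dz, hfd]

theorem finite_chi_support (N : ℕ) {χ₁ : ℂ → ℝ} (hχ : IsSL2ZPartition χ₁) {K : Set ℂ}
    (hK : IsCompact K) (hKU : K ⊆ Uhp) :
    {q : SL(2, ℤ) ⧸ Gamma0 N | ∃ z ∈ K, χ₁ (mob (Quotient.out q) z) ≠ 0}.Finite := by
  have h := hχ.locfin K hK hKU
  refine (h.preimage (Quotient.out_injective.injOn)).subset ?_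
  rintro q ⟨z, hz, hne⟩
  exact ⟨z, hz, hne⟩

theorem continuousOn_chi_aux (N : ℕ) {χ₁ : ℂ → ℝ} (hχ : IsSL2ZPartition χ₁) :
    ContinuousOn (chi N χ₁) Uhp := by
  intro z₀ hz₀
  obtain ⟨K, hK, hzK, hKU⟩ := exists_compact_subset isOpen_Uhp hz₀
  have hev : chi N χ₁ =ᶠ[𝓝 z₀] fun z =>
      ∑ q ∈ (finite_chi_support N hχ hK hKU).toFinset, χ₁ (mob (Quotient.out q) z) := by
    filter_upwards [mem_interior_iff_mem_nhds.mp hzK] with z hz
    have hzK' : z ∈ K := hz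
    unfold chi
    rw [Set.indicator_of_mem (hKU hzK')]
    apply finsum_eq_sum_of_support_subset
    intro q hq
    simp only [Set.Finite.coe_toFinset, Set.mem_ofPred_eq]
    exact ⟨z, hzK', hq⟩
  have hc : ContinuousAt (fun z =>
      ∑ q ∈ (finite_chi_support N hχ hK hKU).toFinset, χ₁ (mob (Quotient.out q) z)) z₀ := by
    apply tendsto_finsetSum
    intro q _
    have h1 : ContinuousAt χ₁ (mob (Quotient.out q) z₀) :=
      hχ.smooth.continuousOn.continuousAt (isOpen_Uhp.mem_nhds (mob_mem_Uhp _ _))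
    exact h1.comp (continuousAt_mob _ hz₀)
  exact (hc.congr hev.symm).continuousWithinAt

theorem exists_of_chi_ne_zero (N : ℕ) {χ₁ : ℂ → ℝ} {z : ℂ} (h : chi N χ₁ z ≠ 0) :
    z ∈ Uhp ∧ ∃ q : SL(2, ℤ) ⧸ Gamma0 N, χ₁ (mob (Quotient.out q) z) ≠ 0 := by
  unfold chi at h
  have hz : z ∈ Uhp := by
    by_contra hz
    exact h (Set.indicator_of_notMem hz _)
  refine ⟨hz, ?_⟩
  rw [Set.indicator_of_mem hz] at h
  by_contra hne
  push Not at hne
  exact h (finsum_eq_zero_of_forall_eq_zero hne)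

end IntB

section INT

variable (N : ℕ) [NeZero N] {χ₁ : ℂ → ℝ}

theorem contDiffOn_sym {η : ℂ → ℝ} (hη : IsTest η) : ContDiffOn ℝ ∞ (sym N η) Uhp := by
  intro z₀ hz₀
  obtain ⟨K, hK, hzK, hKU⟩ := exists_compact_subset isOpen_Uhp hz₀
  have hev : sym N η =ᶠ[𝓝 z₀] fun z =>
      ∑ γ ∈ (IntB.finite_sym_support N hη hK hKU).toFinset, η (mob (γ : SL(2, ℤ)) z) := by
    filter_upwards [mem_interior_iff_mem_nhds.mp hzK] with z hz
      using IntB.sym_eq_sum N hη hK hKU z hz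
  have hsm : ContDiffAt ℝ ∞ (fun z =>
      ∑ γ ∈ (IntB.finite_sym_support N hη hK hKU).toFinset, η (mob (γ : SL(2, ℤ)) z)) z₀ := by
    apply ContDiffAt.sum
    intro γ _
    exact hη.1.contDiffAt.comp z₀ (IntB.contDiffAt_mob (γ : SL(2, ℤ)) hz₀)
  exact (hsm.congr_of_eventuallyEq hev).contDiffWithinAt

theorem sym_mob {η : ℂ → ℝ} (hη : IsTest η) (γ : Gamma0 N) (z : ℂ) (hz : z ∈ Uhp) :
    sym N η (mob (γ : SL(2, ℤ)) z) = sym N η z := by
  unfold sym
  have h : ∀ γ' : Gamma0 N, η (mob (γ' : SL(2, ℤ)) (mob (γ : SL(2, ℤ)) z))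
      = η (mob ((γ' * γ : Gamma0 N) : SL(2, ℤ)) z) := by
    intro γ'
    rw [Subgroup.coe_mul, IntB.mob_mul]
  simp_rw [h]
  exact finsum_comp_equiv (Equiv.mulRight γ)
    (f := fun γ'' : Gamma0 N => η (mob (γ'' : SL(2, ℤ)) z))

theorem sym_add {η₁ η₂ : ℂ → ℝ} (h₁ : IsTest η₁) (h₂ : IsTest η₂) (z : ℂ) (hz : z ∈ Uhp) :
    sym N (fun w => η₁ w + η₂ w) z = sym N η₁ z + sym N η₂ z := by
  unfold sym
  exact finsum_add_distrib (IntB.finite_support_point N h₁ hz) (IntB.finite_support_point N h₂ hz)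

theorem sym_smul {η : ℂ → ℝ} (hη : IsTest η) (c : ℝ) (z : ℂ) (hz : z ∈ Uhp) :
    sym N (fun w => c * η w) z = c * sym N η z := by
  unfold sym
  exact (mul_finsum _ c).symm

/-- finite energy of a symmetrized test function -/
theorem integrable_energy_sym (hχ : IsSL2ZPartition χ₁) {η : ℂ → ℝ} (hη : IsTest η) :
    Integrable (fun z => ‖dz (sym N η) z‖ ^ 2 * chi N χ₁ z) := by
  classical
  set K : Set ℂ := tsupport η with hKdef
  have hK : IsCompact K := hη.2.1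
  have hKU : K ⊆ Uhp := hη.2.2
  have hG := hχ.locfin K hK hKU
  -- the compact set carrying the integrand
  set C : Set ℂ := ⋃ g ∈ hG.toFinset,
    mob ((Quotient.out (QuotientGroup.mk g : SL(2, ℤ) ⧸ Gamma0 N))⁻¹ * g) '' K with hCdef
  have hC : IsCompact C :=
    hG.toFinset.isCompact_biUnion fun g _ =>
      hK.image_of_continuousOn ((IntB.continuousOn_mob _).mono hKU)
  have hCU : C ⊆ Uhp := by
    intro z hz
    simp only [hCdef, Set.mem_iUnion] at hz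
    obtain ⟨g, _, w, _, rfl⟩ := hz
    exact IntB.mob_mem_Uhp _ _
  have hcont : ContinuousOn (fun z => ‖dz (sym N η) z‖ ^ 2 * chi N χ₁ z) Uhp :=
    (((IntB.continuousOn_dz (contDiffOn_sym N hη)).norm).pow 2).mul
      (IntB.continuousOn_chi_aux N hχ)
  have hint : IntegrableOn (fun z => ‖dz (sym N η) z‖ ^ 2 * chi N χ₁ z) C :=
    (hcont.mono hCU).integrableOn_compact hC
  refine hint.integrable_of_forall_notMem_eq_zero ?_
  intro z hzC
  by_contra hne
  have h1 : dz (sym N η) z ≠ 0 := by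
    intro h0
    apply hne
    simp [h0]
  have h2 : chi N χ₁ z ≠ 0 := by
    intro h0
    apply hne
    simp [h0]
  obtain ⟨hzU, q, hq⟩ := IntB.exists_of_chi_ne_zero N h2
  have h3 : ∃ γ : Gamma0 N, mob (γ : SL(2, ℤ)) z ∈ tsupport η := by
    by_contra hcon
    push Not at hcon
    exact h1 (IntB.dz_sym_eq_zero N hη hzU hcon)
  obtain ⟨γ, hγ⟩ := h3
  apply hzC
  set g : SL(2, ℤ) := Quotient.out q * (γ : SL(2, ℤ))⁻¹ with hgdef
  have hgz : mob g (mob (γ : SL(2, ℤ)) z) = mob (Quotient.out q) z := by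
    rw [hgdef, IntB.mob_mul, IntB.mob_inv_mob _ hzU]
  have hgG : g ∈ hG.toFinset := by
    simp only [Set.Finite.mem_toFinset, Set.mem_ofPred_eq]
    exact ⟨mob (γ : SL(2, ℤ)) z, hγ, by rw [hgz]; exact hq⟩
  have hmk : (QuotientGroup.mk g : SL(2, ℤ) ⧸ Gamma0 N) = q := by
    rw [hgdef, QuotientGroup.mk_mul_of_mem _ (Subgroup.inv_mem _ γ.2)]
    exact QuotientGroup.out_eq' q
  have hh : (Quotient.out (QuotientGroup.mk g : SL(2, ℤ) ⧸ Gamma0 N))⁻¹ * g
      = (γ : SL(2, ℤ))⁻¹ := by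
    rw [hmk, hgdef, ← mul_assoc, inv_mul_cancel, one_mul]
  simp only [hCdef, Set.mem_iUnion]
  refine ⟨g, hgG, mob (γ : SL(2, ℤ)) z, hγ, ?_⟩
  rw [hh, IntB.mob_inv_mob _ hzU]

end INT

end Fermat.Agent.S21
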