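import Fermat.Agent.S21.IntA
import Fermat.Agent.S21.H544.IntCMain

/-!
# S21 — INT-C: the unfolding identity (helper544)

Exact statement of `MSInterface.lean`, proved from INT-A (`IntA.lean`, helper480) and the
change of variables / chain rule of `Small.lean` (helper906).
-/

set_option autoImplicit false

open ModularCurve ModularCurve.Period UpperHalfPlane CongruenceSubgroup Filter Topology
open MeasureTheory
open scoped MatrixGroups ComplexConjugate ContDiff

namespace Fermat.Agent.S21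

variable (N : ℕ) [NeZero N] {χ₁ : ℂ → ℝ}

/-- **INT-C**: unfolding. -/
theorem unfolding (hχ : IsSL2ZPartition χ₁) (u : ℂ → ℝ) (hu : ContDiffOn ℝ 1 u Uhp)
    (hinv : ∀ γ : Gamma0 N, ∀ z ∈ Uhp,
      dz u (mob (γ : SL(2, ℤ)) z) = (cd (γ : SL(2, ℤ)) z) ^ 2 * dz u z)
    {η : ℂ → ℝ} (hη : IsTest η) :
    ∫ z, (fderiv ℝ u z 1 * fderiv ℝ (sym N η) z 1
        + fderiv ℝ u z Complex.I * fderiv ℝ (sym N η) z Complex.I) * chi N χ₁ z
      = ∫ z, (fderiv ℝ u z 1 * fderiv ℝ η z 1
        + fderiv ℝ u z Complex.I * fderiv ℝ η z Complex.I) :=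
  H544.unfolding_of N hχ (measurable_chi N hχ) (chi_nonneg N hχ) (chi_le_one N hχ)
    (chi_locfin N hχ) (chi_sum_eq_one N hχ) u hu hinv hη

end Fermat.Agent.S21
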