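import Fermat.Agent.S21.Basic2
import Fermat.Agent.S21.MSInterface

/-!
# S21 — assembly of MS (the minimizing sequence) from MS-A/B/C/E and INT-A..D
-/

set_option autoImplicit false

open ModularCurve ModularCurve.Period UpperHalfPlane CongruenceSubgroup Filter Topology
open MeasureTheory
open scoped MatrixGroups ComplexConjugate ContDiff

namespace Fermat.Agent.S21

section Measure

variable (N : ℕ) [NeZero N] {χ₁ : ℂ → ℝ}

/-- the density of the energy measure as an `ℝ≥0`-valued function -/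
noncomputable def chiNN (N : ℕ) (χ₁ : ℂ → ℝ) : ℂ → NNReal := fun z => (chi N χ₁ z).toNNReal

/-- the energy measure `χ dA` -/
noncomputable def nu (N : ℕ) (χ₁ : ℂ → ℝ) : Measure ℂ :=
  (volume : Measure ℂ).withDensity (fun z => (chiNN N χ₁ z : ENNReal))

theorem measurable_chiNN (hχ : IsSL2ZPartition χ₁) : Measurable (chiNN N χ₁) :=
  (measurable_chi N hχ).real_toNNReal

omit [NeZero N] in
theorem chi_eq_zero_of_notMem {z : ℂ} (hz : z ∉ Uhp) : chi N χ₁ z = 0 :=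
  Set.indicator_of_notMem hz _

theorem integral_nu (hχ : IsSL2ZPartition χ₁) (g : ℂ → ℝ) :
    ∫ z, g z ∂(nu N χ₁) = ∫ z, g z * chi N χ₁ z := by
  rw [nu, integral_withDensity_eq_integral_smul (measurable_chiNN N hχ)]
  refine integral_congr_ae (ae_of_all _ fun z => ?_)
  simp only [NNReal.smul_def, chiNN, Real.coe_toNNReal _ (chi_nonneg N hχ z), smul_eq_mul]
  ring

theorem integrable_nu_iff (hχ : IsSL2ZPartition χ₁) {g : ℂ → ℝ} :
    Integrable g (nu N χ₁) ↔ Integrable (fun z => g z * chi N χ₁ z) := by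
  rw [nu, integrable_withDensity_iff_integrable_smul (measurable_chiNN N hχ)]
  refine integrable_congr (ae_of_all _ fun z => ?_)
  simp only [NNReal.smul_def, chiNN, Real.coe_toNNReal _ (chi_nonneg N hχ z), smul_eq_mul]
  ring

theorem aesm_indicator {G : ℂ → ℂ} (hG : ContinuousOn G Uhp) (μ : Measure ℂ) :
    AEStronglyMeasurable (Set.indicator Uhp G) μ := by
  rw [aestronglyMeasurable_indicator_iff isOpen_Uhp.measurableSet]
  exact hG.aestronglyMeasurable isOpen_Uhp.measurableSet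

theorem memLp_indicator (hχ : IsSL2ZPartition χ₁) {G : ℂ → ℂ} (hG : ContinuousOn G Uhp)
    (hfin : Integrable (fun z => ‖G z‖ ^ 2 * chi N χ₁ z)) :
    MemLp (Set.indicator Uhp G) 2 (nu N χ₁) := by
  rw [memLp_two_iff_integrable_sq_norm (aesm_indicator hG _), integrable_nu_iff N hχ]
  refine hfin.congr (ae_of_all _ fun z => ?_)
  by_cases hz : z ∈ Uhp
  · simp [Set.indicator_of_mem hz]
  · simp [Set.indicator_of_notMem hz, chi_eq_zero_of_notMem N hz]

theorem integrable_of_memLp_indicator (hχ : IsSL2ZPartition χ₁) {G : ℂ → ℂ}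
    (hG : ContinuousOn G Uhp) (h : MemLp (Set.indicator Uhp G) 2 (nu N χ₁)) :
    Integrable (fun z => ‖G z‖ ^ 2 * chi N χ₁ z) := by
  rw [memLp_two_iff_integrable_sq_norm (aesm_indicator hG _), integrable_nu_iff N hχ] at h
  refine h.congr (ae_of_all _ fun z => ?_)
  by_cases hz : z ∈ Uhp
  · simp [Set.indicator_of_mem hz]
  · simp [Set.indicator_of_notMem hz, chi_eq_zero_of_notMem N hz]

theorem inner_toLp_indicator (hχ : IsSL2ZPartition χ₁) {G₁ G₂ : ℂ → ℂ}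
    (h₁ : MemLp (Set.indicator Uhp G₁) 2 (nu N χ₁))
    (h₂ : MemLp (Set.indicator Uhp G₂) 2 (nu N χ₁)) :
    inner ℝ (h₁.toLp _) (h₂.toLp _) = ∫ z, (inner ℝ (G₁ z) (G₂ z) : ℝ) * chi N χ₁ z := by
  rw [L2.inner_def]
  have e : ∫ z, (inner ℝ ((h₁.toLp _ : Lp ℂ 2 (nu N χ₁)) z) ((h₂.toLp _ : Lp ℂ 2 (nu N χ₁)) z) : ℝ)
        ∂(nu N χ₁)
      = ∫ z, (inner ℝ (Set.indicator Uhp G₁ z) (Set.indicator Uhp G₂ z) : ℝ) ∂(nu N χ₁) := by
    refine integral_congr_ae ?_
    filter_upwards [h₁.coeFn_toLp, h₂.coeFn_toLp] with z e1 e2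
    rw [e1, e2]
  rw [e, integral_nu N hχ]
  refine integral_congr_ae (ae_of_all _ fun z => ?_)
  by_cases hz : z ∈ Uhp
  · simp [Set.indicator_of_mem hz]
  · simp [Set.indicator_of_notMem hz, chi_eq_zero_of_notMem N hz]

theorem norm_sq_toLp_indicator (hχ : IsSL2ZPartition χ₁) {G : ℂ → ℂ}
    (h : MemLp (Set.indicator Uhp G) 2 (nu N χ₁)) :
    ‖h.toLp _‖ ^ 2 = ∫ z, ‖G z‖ ^ 2 * chi N χ₁ z := by
  rw [← real_inner_self_eq_norm_sq, inner_toLp_indicator N hχ h h]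
  refine integral_congr_ae (ae_of_all _ fun z => ?_)
  simp only [real_inner_self_eq_norm_sq]

end Measure

theorem inner_dz (u w : ℂ → ℝ) (z : ℂ) :
    (inner ℝ (dz u z) (dz w z) : ℝ)
      = fderiv ℝ u z 1 * fderiv ℝ w z 1 + fderiv ℝ u z Complex.I * fderiv ℝ w z Complex.I := by
  rw [Complex.inner]
  simp [dz]
  ring

theorem dz_const_mul {u : ℂ → ℝ} {z : ℂ} (hu : DifferentiableAt ℝ u z) (c : ℝ) :
    dz (fun w => c * u w) z = c * dz u z := by
  unfold dz
  have : fderiv ℝ (fun w => c * u w) z = c • fderiv ℝ u z := fderiv_const_mul hu c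
  rw [this]
  simp only [smul_apply, smul_eq_mul]
  push_cast
  ring

theorem dz_zero (z : ℂ) : dz (fun _ => (0 : ℝ)) z = 0 := by
  unfold dz
  simp

theorem isTest_add {η₁ η₂ : ℂ → ℝ} (h₁ : IsTest η₁) (h₂ : IsTest η₂) :
    IsTest (fun w => η₁ w + η₂ w) := by
  refine ⟨h₁.1.add h₂.1, h₁.2.1.add h₂.2.1, ?_⟩
  have : tsupport (fun w => η₁ w + η₂ w) ⊆ tsupport η₁ ∪ tsupport η₂ := by
    refine closure_minimal ?_ ((isClosed_tsupport _).union (isClosed_tsupport _))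
    intro z hz
    by_contra hcon
    simp only [Set.mem_union, not_or] at hcon
    apply hz
    show η₁ z + η₂ z = 0
    rw [image_eq_zero_of_notMem_tsupport hcon.1, image_eq_zero_of_notMem_tsupport hcon.2, add_zero]
  exact this.trans (Set.union_subset h₁.2.2 h₂.2.2)

theorem isTest_smul {η : ℂ → ℝ} (h : IsTest η) (c : ℝ) : IsTest (fun w => c * η w) := by
  refine ⟨contDiff_const.mul h.1, h.2.1.mul_left, ?_⟩
  have : tsupport (fun w => c * η w) ⊆ tsupport η := by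
    refine closure_minimal ?_ (isClosed_tsupport _)
    intro z hz
    by_contra hcon
    apply hz
    show c * η z = 0
    rw [image_eq_zero_of_notMem_tsupport hcon, mul_zero]
  exact this.trans h.2.2

theorem isTest_zero : IsTest (fun _ => (0 : ℝ)) := by
  refine ⟨contDiff_const, HasCompactSupport.zero, ?_⟩
  have : tsupport (fun _ : ℂ => (0 : ℝ)) = ∅ := by
    rw [tsupport_eq_empty_iff]; rfl
  rw [this]
  exact Set.empty_subset _

end Fermat.Agent.S21

namespace Fermat.Agent.S21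

section Sub

variable (N : ℕ) [NeZero N] {χ₁ : ℂ → ℝ}

theorem differentiableAt_sym {η : ℂ → ℝ} (hη : IsTest η) {z : ℂ} (hz : z ∈ Uhp) :
    DifferentiableAt ℝ (sym N η) z :=
  ((contDiffOn_sym N hη).differentiableOn (by norm_cast)).differentiableAt
    (isOpen_Uhp.mem_nhds hz)

theorem continuousOn_dz_sym {η : ℂ → ℝ} (hη : IsTest η) : ContinuousOn (dz (sym N η)) Uhp :=
  continuousOn_dz ((contDiffOn_sym N hη).of_le (by norm_cast))

theorem memLp_sym (hχ : IsSL2ZPartition χ₁) {η : ℂ → ℝ} (hη : IsTest η) :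
    MemLp (Set.indicator Uhp (dz (sym N η))) 2 (nu N χ₁) :=
  memLp_indicator N hχ (continuousOn_dz_sym N hη) (integrable_energy_sym N hχ hη)

theorem dz_sym_add {η₁ η₂ : ℂ → ℝ} (h₁ : IsTest η₁) (h₂ : IsTest η₂) {z : ℂ} (hz : z ∈ Uhp) :
    dz (sym N (fun w => η₁ w + η₂ w)) z = dz (sym N η₁) z + dz (sym N η₂) z := by
  have h : sym N (fun w => η₁ w + η₂ w) =ᶠ[𝓝 z] fun w => sym N η₁ w + sym N η₂ w := by
    filter_upwards [isOpen_Uhp.mem_nhds hz] with w hw
    exact sym_add N h₁ h₂ w hw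
  rw [dz_congr h, dz_add (differentiableAt_sym N h₁ hz) (differentiableAt_sym N h₂ hz)]

theorem dz_sym_smul {η : ℂ → ℝ} (hη : IsTest η) (c : ℝ) {z : ℂ} (hz : z ∈ Uhp) :
    dz (sym N (fun w => c * η w)) z = c * dz (sym N η) z := by
  have h : sym N (fun w => c * η w) =ᶠ[𝓝 z] fun w => c * sym N η w := by
    filter_upwards [isOpen_Uhp.mem_nhds hz] with w hw
    exact sym_smul N hη c w hw
  rw [dz_congr h, dz_const_mul (differentiableAt_sym N hη hz)]

/-- The space of (classes of) `dz` of symmetrized test functions. -/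
noncomputable def Vsub (hχ : IsSL2ZPartition χ₁) : Submodule ℝ (Lp ℂ 2 (nu N χ₁)) where
  carrier := {x | ∃ η : ℂ → ℝ, ∃ hη : IsTest η, x = (memLp_sym N hχ hη).toLp _}
  zero_mem' := by
    refine ⟨fun _ => 0, isTest_zero, ?_⟩
    have h0 : MemLp (0 : ℂ → ℂ) 2 (nu N χ₁) := MemLp.zero
    rw [← MemLp.toLp_zero h0]
    refine MemLp.toLp_congr _ _ (ae_of_all _ fun z => ?_)
    by_cases hz : z ∈ Uhp
    · rw [Set.indicator_of_mem hz]
      have h : sym N (fun _ => (0 : ℝ)) =ᶠ[𝓝 z] fun _ => (0 : ℝ) := by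
        refine Filter.Eventually.of_forall fun w => ?_
        simp [sym]
      rw [dz_congr h, dz_zero]
      rfl
    · rw [Set.indicator_of_notMem hz]
      rfl
  add_mem' := by
    rintro x y ⟨η₁, h₁, rfl⟩ ⟨η₂, h₂, rfl⟩
    refine ⟨fun w => η₁ w + η₂ w, isTest_add h₁ h₂, ?_⟩
    rw [← MemLp.toLp_add]
    refine MemLp.toLp_congr _ _ (ae_of_all _ fun z => ?_)
    by_cases hz : z ∈ Uhp
    · simp only [Pi.add_apply, Set.indicator_of_mem hz]
      rw [dz_sym_add N h₁ h₂ hz]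
    · simp only [Pi.add_apply, Set.indicator_of_notMem hz, add_zero]
  smul_mem' := by
    rintro c x ⟨η, hη, rfl⟩
    refine ⟨fun w => c * η w, isTest_smul hη c, ?_⟩
    rw [← MemLp.toLp_const_smul]
    refine MemLp.toLp_congr _ _ (ae_of_all _ fun z => ?_)
    by_cases hz : z ∈ Uhp
    · simp only [Pi.smul_apply, Set.indicator_of_mem hz]
      rw [dz_sym_smul N hη c hz]
      simp
    · simp only [Pi.smul_apply, Set.indicator_of_notMem hz, smul_zero]

end Sub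

end Fermat.Agent.S21

namespace Fermat.Agent.S21

section Main

variable (N : ℕ) [NeZero N] {χ₁ : ℂ → ℝ}

/-- invariance of `dz (sym η)` -/
theorem dz_sym_inv {η : ℂ → ℝ} (hη : IsTest η) (γ : Gamma0 N) {z : ℂ} (hz : z ∈ Uhp) :
    dz (sym N η) (mob (γ : SL(2, ℤ)) z) = (cd (γ : SL(2, ℤ)) z) ^ 2 * dz (sym N η) z := by
  refine asm_dz_inv ((contDiffOn_sym N hη).of_le (by norm_cast)) 0 (γ : SL(2, ℤ)) (fun w => ?_) hz
  rw [← mob_coe, sym_mob N hη γ _ (coe_mem_Uhp w), add_zero]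

/-- The local `L²` estimate for differences of symmetrized test functions. -/
theorem ms_local (hχ : IsSL2ZPartition χ₁) {η₁ η₂ : ℂ → ℝ} (h₁ : IsTest η₁) (h₂ : IsTest η₂)
    (K : Set ℂ) (hK : IsCompact K) (hKU : K ⊆ Uhp) (M : ℕ)
    (hM : ∀ w ∈ Uhp, {g : SL(2, ℤ) | mob g w ∈ K}.encard ≤ M) :
    ∫ z in K, ‖dz (sym N η₁) z - dz (sym N η₂) z‖ ^ 2
      ≤ M * ‖(memLp_sym N hχ h₁).toLp _ - (memLp_sym N hχ h₂).toLp _‖ ^ 2 := by
  set G : ℂ → ℂ := fun z => dz (sym N η₁) z - dz (sym N η₂) z with hG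
  have hGc : ContinuousOn G Uhp := (continuousOn_dz_sym N h₁).sub (continuousOn_dz_sym N h₂)
  have hmem : MemLp (Set.indicator Uhp G) 2 (nu N χ₁) := by
    have := (memLp_sym N hχ h₁).sub (memLp_sym N hχ h₂)
    refine this.ae_eq (ae_of_all _ fun z => ?_)
    by_cases hz : z ∈ Uhp
    · simp [Set.indicator_of_mem hz, hG]
    · simp [Set.indicator_of_notMem hz]
  have hfin := integrable_of_memLp_indicator N hχ hGc hmem
  have hinv : ∀ γ : Gamma0 N, ∀ z ∈ Uhp,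
      G (mob (γ : SL(2, ℤ)) z) = (cd (γ : SL(2, ℤ)) z) ^ 2 * G z := by
    intro γ z hz
    simp only [hG]
    rw [dz_sym_inv N h₁ γ hz, dz_sym_inv N h₂ γ hz]
    ring
  have hfold := folding N hχ G hGc hinv hfin K hK.measurableSet hKU M hM
  have heq : (memLp_sym N hχ h₁).toLp _ - (memLp_sym N hχ h₂).toLp _ = hmem.toLp _ := by
    rw [← MemLp.toLp_sub]
    refine MemLp.toLp_congr _ _ (ae_of_all _ fun z => ?_)
    by_cases hz : z ∈ Uhp
    · simp [Set.indicator_of_mem hz, hG]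
    · simp [Set.indicator_of_notMem hz]
  rw [heq, norm_sq_toLp_indicator N hχ hmem]
  exact hfold

end Main

end Fermat.Agent.S21

namespace Fermat.Agent.S21

/-- **MS** (Dirichlet principle): an energy-minimizing sequence with periods `φ`. -/
theorem exists_minimizing_sequence (N : ℕ) [NeZero N] (φ : Additive (Gamma0 N) →+ ℝ)
    (hφ : IsParabolicHom (Gamma0 N) φ) :
    ∃ u : ℕ → ℂ → ℝ,
      (∀ n, ContDiffOn ℝ ∞ (u n) Uhp) ∧
      (∀ n (γ : Gamma0 N) (z : ℍ),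
          u n ↑((γ : SL(2, ℤ)) • z) = u n ↑z + φ (Additive.ofMul γ)) ∧
      (∀ K : Set ℂ, IsCompact K → K ⊆ Uhp → ∀ ε > 0, ∃ M, ∀ m ≥ M, ∀ n ≥ M,
          ∫ z in K, ‖dz (u n) z - dz (u m) z‖ ^ 2 < ε) ∧
      (∀ η : ℂ → ℝ, ContDiff ℝ ∞ η → HasCompactSupport η → tsupport η ⊆ Uhp →
          Tendsto (fun n => ∫ z, (fderiv ℝ (u n) z 1 * fderiv ℝ η z 1
              + fderiv ℝ (u n) z Complex.I * fderiv ℝ η z Complex.I)) atTop (𝓝 0)) ∧
      (∀ δ : SL(2, ℤ), ∃ C : ℝ, ∀ n, ∀ Y : ℝ,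
          ∫ z in strip Y, ‖dz (u n) (mob δ z)‖ ^ 2 / ‖cd δ z‖ ^ 4 ≤ C) := by
  obtain ⟨χ₁, hχ⟩ := exists_isSL2ZPartition
  obtain ⟨u₀, hu₀, hper₀, hcusp₀⟩ := exists_u0 N φ hφ
  have hu₀1 : ContDiffOn ℝ 1 u₀ Uhp := hu₀.of_le (by norm_cast)
  have hE₀ := integrable_energy_u0 N hχ u₀ hu₀ hcusp₀
  have ha := memLp_indicator N hχ (continuousOn_dz hu₀1) hE₀
  obtain ⟨v, hvV, hvC, hvO, hvB⟩ := abstract_dirichlet (ha.toLp _) (Vsub N hχ)
  choose η hη hv using hvV
  -- the functions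
  set u : ℕ → ℂ → ℝ := fun n z => u₀ z + sym N (η n) z with hu
  have hu_smooth : ∀ n, ContDiffOn ℝ ∞ (u n) Uhp := fun n =>
    hu₀.add (contDiffOn_sym N (hη n))
  have hu1 : ∀ n, ContDiffOn ℝ 1 (u n) Uhp := fun n => (hu_smooth n).of_le (by norm_cast)
  have hu_per : ∀ n (γ : Gamma0 N) (z : ℍ),
      u n ↑((γ : SL(2, ℤ)) • z) = u n ↑z + φ (Additive.ofMul γ) := by
    intro n γ z
    simp only [hu]
    rw [hper₀ γ z, ← mob_coe, sym_mob N (hη n) γ _ (coe_mem_Uhp z)]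
    ring
  have hdz : ∀ n, ∀ z ∈ Uhp, dz (u n) z = dz u₀ z + dz (sym N (η n)) z := by
    intro n z hz
    exact dz_add ((hu₀1.differentiableOn one_ne_zero).differentiableAt
      (isOpen_Uhp.mem_nhds hz)) (differentiableAt_sym N (hη n) hz)
  -- the class of `dz (u n)`
  have hmem : ∀ n, MemLp (Set.indicator Uhp (dz (u n))) 2 (nu N χ₁) := by
    intro n
    refine (ha.add (memLp_sym N hχ (hη n))).ae_eq (ae_of_all _ fun z => ?_)
    by_cases hz : z ∈ Uhp
    · simp [Set.indicator_of_mem hz, hdz n z hz]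
    · simp [Set.indicator_of_notMem hz]
  have hclass : ∀ n, ha.toLp _ + v n = (hmem n).toLp _ := by
    intro n
    rw [hv n, ← MemLp.toLp_add]
    refine MemLp.toLp_congr _ _ (ae_of_all _ fun z => ?_)
    by_cases hz : z ∈ Uhp
    · simp [Set.indicator_of_mem hz, hdz n z hz]
    · simp [Set.indicator_of_notMem hz]
  have hinv : ∀ n (γ : Gamma0 N), ∀ z ∈ Uhp,
      dz (u n) (mob (γ : SL(2, ℤ)) z) = (cd (γ : SL(2, ℤ)) z) ^ 2 * dz (u n) z :=
    fun n γ z hz => asm_dz_inv (hu1 n) _ (γ : SL(2, ℤ)) (hu_per n γ) hz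
  have hfin : ∀ n, Integrable (fun z => ‖dz (u n) z‖ ^ 2 * chi N χ₁ z) := fun n =>
    integrable_of_memLp_indicator N hχ (continuousOn_dz (hu1 n)) (hmem n)
  refine ⟨u, hu_smooth, hu_per, ?_, ?_, ?_⟩
  · -- local Cauchy
    intro K hK hKU ε hε
    obtain ⟨M, hM⟩ := mult_compact K hK hKU
    obtain ⟨M₀, hM₀⟩ := hvC (ε / (M + 1)) (by positivity)
    refine ⟨M₀, fun m hm n hn => ?_⟩
    have h1 := ms_local N hχ (hη n) (hη m) K hK hKU M hM
    rw [← hv n, ← hv m] at h1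
    have h2 := hM₀ m hm n hn
    have h3 : ∫ z in K, ‖dz (u n) z - dz (u m) z‖ ^ 2
        = ∫ z in K, ‖dz (sym N (η n)) z - dz (sym N (η m)) z‖ ^ 2 := by
      refine setIntegral_congr_fun hK.measurableSet fun z hz => ?_
      show ‖dz (u n) z - dz (u m) z‖ ^ 2 = ‖dz (sym N (η n)) z - dz (sym N (η m)) z‖ ^ 2
      rw [hdz n z (hKU hz), hdz m z (hKU hz)]
      congr 2
      ring
    rw [h3]
    have hMpos : (0 : ℝ) ≤ M := Nat.cast_nonneg M
    calc ∫ z in K, ‖dz (sym N (η n)) z - dz (sym N (η m)) z‖ ^ 2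
        ≤ M * ‖v n - v m‖ ^ 2 := h1
      _ ≤ M * (ε / (M + 1)) := by gcongr
      _ < ε := by
        rw [← mul_div_assoc, div_lt_iff₀ (by positivity)]
        nlinarith
  · -- weak harmonicity
    intro η' h1 h2 h3
    have hη' : IsTest η' := ⟨h1, h2, h3⟩
    have hw : (memLp_sym N hχ hη').toLp _ ∈ Vsub N hχ := ⟨η', hη', rfl⟩
    have := hvO _ hw
    refine this.congr fun n => ?_
    rw [hclass n, inner_toLp_indicator N hχ (hmem n) (memLp_sym N hχ hη')]
    simp_rw [inner_dz]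
    exact unfolding N hχ (u n) (hu1 n) (hinv n) hη'
  · -- cusp bound
    intro δ
    refine ⟨10 * (‖ha.toLp _‖ ^ 2 + 1), fun n Y => ?_⟩
    have hcv := setIntegral_mob δ (strip Y) (isCompact_strip Y).measurableSet
      (strip_subset_Uhp Y) (fun w => ‖dz (u n) w‖ ^ 2)
    rw [hcv]
    have hAc : IsCompact (mob δ '' strip Y) :=
      (isCompact_strip Y).image_of_continuousOn
        ((continuousOn_mob δ).mono (strip_subset_Uhp Y))
    have hAU : mob δ '' strip Y ⊆ Uhp := by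
      rintro _ ⟨z, -, rfl⟩
      exact mob_mem_Uhp δ z
    have hfold := folding N hχ (dz (u n)) (continuousOn_dz (hu1 n)) (hinv n) (hfin n) _
      hAc.measurableSet hAU 10 (fun w hw => by exact_mod_cast mult_strip δ Y w hw)
    have hnorm := norm_sq_toLp_indicator N hχ (hmem n)
    rw [← hclass n] at hnorm
    have hB := hvB n
    calc ∫ w in mob δ '' strip Y, ‖dz (u n) w‖ ^ 2
        ≤ ((10 : ℕ) : ℝ) * ∫ z, ‖dz (u n) z‖ ^ 2 * chi N χ₁ z := hfold
      _ = 10 * ‖ha.toLp _ + v n‖ ^ 2 := by rw [hnorm]; norm_num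
      _ ≤ 10 * (‖ha.toLp _‖ ^ 2 + 1) := by gcongr

end Fermat.Agent.S21
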