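import Fermat.Agent.S21.Basic2
import Fermat.Agent.S21.Interface
import Fermat.Agent.S21.HodgeInterface
import Fermat.Agent.S21.MSAssembly

/-!
# S21 — assembly of D' (Hodge existence) from the interface pieces
-/

set_option autoImplicit false

open ModularCurve ModularCurve.Period UpperHalfPlane CongruenceSubgroup Filter Topology
open MeasureTheory
open scoped MatrixGroups ComplexConjugate ContDiff

namespace Fermat.Agent.S21

/-- The integrand `∇u · ∇η` is continuous with compact support. -/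
theorem asm_integrable_pair {u : ℂ → ℝ} (hu : ContDiffOn ℝ 1 u Uhp) {η : ℂ → ℝ}
    (hη : ContDiff ℝ ∞ η) (hc : HasCompactSupport η) (hs : tsupport η ⊆ Uhp) (a b : ℂ) :
    Integrable (fun z => fderiv ℝ u z a * fderiv ℝ η z b) := by
  have hcont : Continuous (fun z => fderiv ℝ u z a * fderiv ℝ η z b) := by
    rw [continuous_iff_continuousAt]
    intro z
    by_cases hz : z ∈ tsupport η
    · have hzU : z ∈ Uhp := hs hz
      have h1 : ContinuousOn (fderiv ℝ u) Uhp :=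
        hu.continuousOn_fderiv_of_isOpen isOpen_Uhp le_rfl
      have h2 : ContinuousAt (fderiv ℝ u) z := h1.continuousAt (isOpen_Uhp.mem_nhds hzU)
      have h3 : ContinuousAt (fun z => fderiv ℝ u z a) z :=
        (ContinuousLinearMap.apply ℝ ℝ a).continuous.continuousAt.comp h2
      have h4 : Continuous (fun z => fderiv ℝ η z b) :=
        (ContinuousLinearMap.apply ℝ ℝ b).continuous.comp
          (hη.continuous_fderiv (by norm_num))
      exact h3.mul h4.continuousAt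
    · have hopen : IsOpen (tsupport η)ᶜ := (isClosed_tsupport η).isOpen_compl
      have : (fun z => fderiv ℝ u z a * fderiv ℝ η z b) =ᶠ[𝓝 z] fun _ => 0 := by
        filter_upwards [hopen.mem_nhds hz] with w hw
        rw [fderiv_of_notMem_tsupport ℝ hw]
        simp
      exact (continuousAt_const).congr this.symm
  refine hcont.integrable_of_hasCompactSupport ?_
  refine hc.mono' ?_
  intro z hz
  by_contra hzn
  apply hz
  show fderiv ℝ u z a * fderiv ℝ η z b = 0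
  rw [fderiv_of_notMem_tsupport ℝ hzn]
  simp

/-- The hypothesis `hweak` of the Weyl lemma for `g n = dz (u n)`. -/
theorem asm_weak {u : ℕ → ℂ → ℝ} (hu : ∀ n, ContDiffOn ℝ ∞ (u n) Uhp)
    (hw : ∀ η : ℂ → ℝ, ContDiff ℝ ∞ η → HasCompactSupport η → tsupport η ⊆ Uhp →
          Tendsto (fun n => ∫ z, (fderiv ℝ (u n) z 1 * fderiv ℝ η z 1
              + fderiv ℝ (u n) z Complex.I * fderiv ℝ η z Complex.I)) atTop (𝓝 0))
    (η : ℂ → ℝ) (hη : ContDiff ℝ ∞ η) (hc : HasCompactSupport η) (hs : tsupport η ⊆ Uhp) :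
    Tendsto (fun n => ∫ z, dz (u n) z *
          (((fderiv ℝ η z 1 : ℝ) : ℂ) + Complex.I * ((fderiv ℝ η z Complex.I : ℝ) : ℂ)))
          atTop (𝓝 0) := by
  have key : ∀ n, ∫ z, dz (u n) z *
          (((fderiv ℝ η z 1 : ℝ) : ℂ) + Complex.I * ((fderiv ℝ η z Complex.I : ℝ) : ℂ))
      = ((∫ z, (fderiv ℝ (u n) z 1 * fderiv ℝ η z 1
              + fderiv ℝ (u n) z Complex.I * fderiv ℝ η z Complex.I) : ℝ) : ℂ) := by
    intro n
    have hu1 : ContDiffOn ℝ 1 (u n) Uhp := (hu n).of_le (by norm_num)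
    have hu2 : ContDiffOn ℝ 2 (u n) Uhp := (hu n).of_le (by norm_cast)
    have i11 := asm_integrable_pair hu1 hη hc hs 1 1
    have iII := asm_integrable_pair hu1 hη hc hs Complex.I Complex.I
    have i1I := asm_integrable_pair hu1 hη hc hs 1 Complex.I
    have iI1 := asm_integrable_pair hu1 hη hc hs Complex.I 1
    have hcurl := integral_curl_eq_zero (u n) hu2 η hη hc hs
    have hpt : ∀ z, dz (u n) z *
          (((fderiv ℝ η z 1 : ℝ) : ℂ) + Complex.I * ((fderiv ℝ η z Complex.I : ℝ) : ℂ))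
        = (((fderiv ℝ (u n) z 1 * fderiv ℝ η z 1
              + fderiv ℝ (u n) z Complex.I * fderiv ℝ η z Complex.I : ℝ)) : ℂ)
          + (((fderiv ℝ (u n) z 1 * fderiv ℝ η z Complex.I
              - fderiv ℝ (u n) z Complex.I * fderiv ℝ η z 1 : ℝ)) : ℂ) * Complex.I := by
      intro z
      unfold dz
      push_cast
      ring_nf
      rw [Complex.I_sq]
      ring
    simp_rw [hpt]
    rw [integral_add, integral_mul_const]
    · rw [integral_complex_ofReal, integral_complex_ofReal, hcurl]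
      simp
    · exact (i11.add iII).ofReal
    · exact ((i1I.sub iI1).ofReal).mul_const _
  simp_rw [key]
  have := (Complex.continuous_ofReal.tendsto (0 : ℝ)).comp (hw η hη hc hs)
  exact this

end Fermat.Agent.S21

namespace Fermat.Agent.S21

/-- `L²` convergence on compacts transfers under Möbius maps. -/
theorem asm_tendsto_mob {g : ℕ → ℂ → ℂ} {f : ℂ → ℂ}
    (hconv : ∀ K : Set ℂ, IsCompact K → K ⊆ Uhp →
      Tendsto (fun n => ∫ z in K, ‖g n z - f z‖ ^ 2) atTop (𝓝 0))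
    (δ : SL(2, ℤ)) (K : Set ℂ) (hK : IsCompact K) (hKU : K ⊆ Uhp) :
    Tendsto (fun n => ∫ z in K, ‖g n (mob δ z) - f (mob δ z)‖ ^ 2 / ‖cd δ z‖ ^ 4)
      atTop (𝓝 0) := by
  have h1 : IsCompact (mob δ '' K) := hK.image_of_continuousOn ((continuousOn_mob δ).mono hKU)
  have h2 : mob δ '' K ⊆ Uhp := by
    rintro _ ⟨z, -, rfl⟩
    exact mob_mem_Uhp δ z
  have h3 := hconv _ h1 h2
  have h4 : ∀ n, ∫ z in K, ‖g n (mob δ z) - f (mob δ z)‖ ^ 2 / ‖cd δ z‖ ^ 4
      = ∫ w in mob δ '' K, ‖g n w - f w‖ ^ 2 := fun n =>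
    setIntegral_mob δ K hK.measurableSet hKU (fun w => ‖g n w - f w‖ ^ 2)
  simp_rw [h4]
  exact h3

theorem asm_integrableOn {F : ℂ → ℝ} {K : Set ℂ} (hK : IsCompact K) (hF : ContinuousOn F K) :
    IntegrableOn F K := hF.integrableOn_compact hK

/-- If a continuous nonnegative function has arbitrarily small integral on every small closed
ball, it vanishes. -/
theorem asm_eq_zero_of_integral_le {D : ℂ → ℝ} (hD : ContinuousOn D Uhp) (hpos : ∀ z, 0 ≤ D z)
    (h : ∀ K : Set ℂ, IsCompact K → K ⊆ Uhp → ∫ z in K, D z ≤ 0) {z₀ : ℂ} (hz₀ : z₀ ∈ Uhp) :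
    D z₀ = 0 := by
  by_contra hne
  have hpos0 : 0 < D z₀ := lt_of_le_of_ne (hpos z₀) (Ne.symm hne)
  -- a small ball where `D ≥ D z₀ / 2`
  have hopen : {z | z ∈ Uhp ∧ D z₀ / 2 < D z} ∈ 𝓝 z₀ := by
    have h1 : Uhp ∈ 𝓝 z₀ := isOpen_Uhp.mem_nhds hz₀
    have h2 : ∀ᶠ z in 𝓝 z₀, D z₀ / 2 < D z := by
      have := (hD.continuousAt h1).eventually (lt_mem_nhds (show D z₀ / 2 < D z₀ by linarith))
      exact this
    filter_upwards [h1, h2] with z hz1 hz2 using ⟨hz1, hz2⟩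
  obtain ⟨r, hr, hball⟩ := Metric.nhds_basis_closedBall.mem_iff.mp hopen
  have hKU : Metric.closedBall z₀ r ⊆ Uhp := fun z hz => (hball hz).1
  have hK : IsCompact (Metric.closedBall z₀ r) := isCompact_closedBall z₀ r
  have hint := h _ hK hKU
  have hvol : 0 < (volume (Metric.closedBall z₀ r)).toReal := by
    refine ENNReal.toReal_pos ?_ ?_
    · exact (Metric.measure_closedBall_pos volume z₀ hr).ne'
    · exact hK.measure_lt_top.ne
  have hge : (D z₀ / 2) * (volume (Metric.closedBall z₀ r)).toReal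
      ≤ ∫ z in Metric.closedBall z₀ r, D z := by
    have hc : ∫ _z in Metric.closedBall z₀ r, (D z₀ / 2) = (D z₀ / 2) * (volume (Metric.closedBall z₀ r)).toReal := by
      rw [setIntegral_const]
      simp [Measure.real, mul_comm]
    rw [← hc]
    refine setIntegral_mono_on ?_ ?_ hK.measurableSet ?_
    · exact (continuousOn_const).integrableOn_compact hK
    · exact (hD.mono hKU).integrableOn_compact hK
    · intro z hz
      exact (hball hz).2.le
  have : 0 < (D z₀ / 2) * (volume (Metric.closedBall z₀ r)).toReal := by positivity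
  linarith

end Fermat.Agent.S21

namespace Fermat.Agent.S21

theorem asm_cont_comp_mob {E : Type*} [TopologicalSpace E] {h : ℂ → E} (hh : ContinuousOn h Uhp)
    (δ : SL(2, ℤ)) : ContinuousOn (fun z => h (mob δ z)) Uhp :=
  hh.comp (continuousOn_mob δ) fun z _ => mob_mem_Uhp δ z

theorem asm_norm_sq_add_le (a b : ℂ) : ‖a + b‖ ^ 2 ≤ 2 * ‖a‖ ^ 2 + 2 * ‖b‖ ^ 2 := by
  have h1 : ‖a + b‖ ≤ ‖a‖ + ‖b‖ := norm_add_le a b
  have h2 : ‖a + b‖ ^ 2 ≤ (‖a‖ + ‖b‖) ^ 2 := by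
    apply pow_le_pow_left₀ (norm_nonneg _) h1
  nlinarith [sq_nonneg (‖a‖ - ‖b‖)]

/-- weight-2 invariance of the limit `f`. -/
theorem asm_f_inv {g : ℕ → ℂ → ℂ} {f : ℂ → ℂ} (hg : ∀ n, ContinuousOn (g n) Uhp)
    (hf : ContinuousOn f Uhp)
    (hconv : ∀ K : Set ℂ, IsCompact K → K ⊆ Uhp →
      Tendsto (fun n => ∫ z in K, ‖g n z - f z‖ ^ 2) atTop (𝓝 0))
    (γ : SL(2, ℤ)) (hginv : ∀ n, ∀ z ∈ Uhp, g n (mob γ z) = (cd γ z) ^ 2 * g n z)
    {z₀ : ℂ} (hz₀ : z₀ ∈ Uhp) : f (mob γ z₀) = (cd γ z₀) ^ 2 * f z₀ := by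
  set D : ℂ → ℝ := fun z => ‖f (mob γ z) - (cd γ z) ^ 2 * f z‖ ^ 2 / ‖cd γ z‖ ^ 4 with hD
  have hcdcont : ContinuousOn (fun z => ‖cd γ z‖ ^ 4) Uhp :=
    ((continuous_cd γ).norm.pow 4).continuousOn
  have hcdpos : ∀ z ∈ Uhp, ‖cd γ z‖ ^ 4 ≠ 0 := fun z hz =>
    pow_ne_zero 4 (norm_ne_zero_iff.mpr (cd_ne_zero γ hz))
  have hDcont : ContinuousOn D Uhp := by
    refine ContinuousOn.div ?_ hcdcont hcdpos
    refine (ContinuousOn.norm ?_).pow 2
    exact (asm_cont_comp_mob hf γ).sub (((continuous_cd γ).pow 2).continuousOn.mul hf)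
  have hDpos : ∀ z, 0 ≤ D z := fun z => by positivity
  have key : ∀ K : Set ℂ, IsCompact K → K ⊆ Uhp → ∫ z in K, D z ≤ 0 := by
    intro K hK hKU
    have ha := asm_tendsto_mob hconv γ K hK hKU
    have hb := hconv K hK hKU
    have hlim : Tendsto (fun n => 2 * (∫ z in K, ‖g n (mob γ z) - f (mob γ z)‖ ^ 2 / ‖cd γ z‖ ^ 4)
        + 2 * ∫ z in K, ‖g n z - f z‖ ^ 2) atTop (𝓝 0) := by
      have := (ha.const_mul 2).add (hb.const_mul 2)
      simpa using this
    refine ge_of_tendsto' hlim fun n => ?_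
    have hi1 : IntegrableOn (fun z => ‖g n (mob γ z) - f (mob γ z)‖ ^ 2 / ‖cd γ z‖ ^ 4) K := by
      refine ContinuousOn.integrableOn_compact hK (ContinuousOn.mono ?_ hKU)
      refine ContinuousOn.div ?_ hcdcont hcdpos
      exact (((asm_cont_comp_mob (hg n) γ).sub (asm_cont_comp_mob hf γ)).norm).pow 2
    have hi2 : IntegrableOn (fun z => ‖g n z - f z‖ ^ 2) K :=
      ContinuousOn.integrableOn_compact hK ((((hg n).sub hf).norm.pow 2).mono hKU)
    rw [← integral_const_mul, ← integral_const_mul, ← integral_add (hi1.const_mul 2) (hi2.const_mul 2)]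
    refine setIntegral_mono_on ((hDcont.mono hKU).integrableOn_compact hK)
      ((hi1.const_mul 2).add (hi2.const_mul 2)) hK.measurableSet fun z hz => ?_
    have hzU := hKU hz
    have hne := cd_ne_zero γ hzU
    have hpos : 0 < ‖cd γ z‖ ^ 4 := by positivity
    have e : f (mob γ z) - (cd γ z) ^ 2 * f z
        = (f (mob γ z) - g n (mob γ z)) + (cd γ z) ^ 2 * (g n z - f z) := by
      rw [hginv n z hzU]; ring
    have h1 := asm_norm_sq_add_le (f (mob γ z) - g n (mob γ z)) ((cd γ z) ^ 2 * (g n z - f z))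
    have h2 : ‖(cd γ z) ^ 2 * (g n z - f z)‖ ^ 2 = ‖cd γ z‖ ^ 4 * ‖g n z - f z‖ ^ 2 := by
      rw [norm_mul, norm_pow]; ring
    have h3 : ‖f (mob γ z) - g n (mob γ z)‖ = ‖g n (mob γ z) - f (mob γ z)‖ := norm_sub_rev _ _
    show D z ≤ _
    simp only [hD]
    rw [e, div_le_iff₀ hpos]
    rw [h2, h3] at h1
    have : (2 * (‖g n (mob γ z) - f (mob γ z)‖ ^ 2 / ‖cd γ z‖ ^ 4) + 2 * ‖g n z - f z‖ ^ 2)
        * ‖cd γ z‖ ^ 4 = 2 * ‖g n (mob γ z) - f (mob γ z)‖ ^ 2
          + 2 * (‖cd γ z‖ ^ 4 * ‖g n z - f z‖ ^ 2) := by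
      field_simp
    rw [this]
    exact h1
  have hzero := asm_eq_zero_of_integral_le hDcont hDpos key hz₀
  have hne := cd_ne_zero γ hz₀
  have hpos : 0 < ‖cd γ z₀‖ ^ 4 := by positivity
  simp only [hD] at hzero
  rw [div_eq_zero_iff] at hzero
  rcases hzero with h | h
  · have := pow_eq_zero_iff (two_ne_zero) |>.mp h
    exact sub_eq_zero.mp (norm_eq_zero.mp this)
  · exact absurd h hpos.ne'

/-- The cusp-strip energy bound passes to the limit. -/
theorem asm_f_cusp {g : ℕ → ℂ → ℂ} {f : ℂ → ℂ} (hg : ∀ n, ContinuousOn (g n) Uhp)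
    (hf : ContinuousOn f Uhp)
    (hconv : ∀ K : Set ℂ, IsCompact K → K ⊆ Uhp →
      Tendsto (fun n => ∫ z in K, ‖g n z - f z‖ ^ 2) atTop (𝓝 0))
    (δ : SL(2, ℤ)) (C : ℝ) (Y : ℝ)
    (hC : ∀ n, ∫ z in strip Y, ‖g n (mob δ z)‖ ^ 2 / ‖cd δ z‖ ^ 4 ≤ C) :
    ∫ z in strip Y, ‖f (mob δ z)‖ ^ 2 / ‖cd δ z‖ ^ 4 ≤ C := by
  have hK := isCompact_strip Y
  have hKU := strip_subset_Uhp Y
  have hcdcont : ContinuousOn (fun z => ‖cd δ z‖ ^ 4) Uhp :=
    ((continuous_cd δ).norm.pow 4).continuousOn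
  have hcdpos : ∀ z ∈ Uhp, ‖cd δ z‖ ^ 4 ≠ 0 := fun z hz =>
    pow_ne_zero 4 (norm_ne_zero_iff.mpr (cd_ne_zero δ hz))
  have hlim := asm_tendsto_mob hconv δ (strip Y) hK hKU
  -- for every `ε > 0`: `b ≤ (1+ε) C + (1+1/ε) e_n`
  have hC0 : 0 ≤ C := by
    refine le_trans ?_ (hC 0)
    exact integral_nonneg fun z => by positivity
  refine le_of_forall_pos_le_add fun ε hε => ?_
  -- choose t with t * C ≤ ε
  obtain ⟨t, ht, htC⟩ : ∃ t : ℝ, 0 < t ∧ t * C ≤ ε := by
    refine ⟨ε / (C + 1), by positivity, ?_⟩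
    rw [div_mul_eq_mul_div, div_le_iff₀ (by positivity)]
    nlinarith
  have hlim2 : Tendsto (fun n => (1 + t) * C + (1 + 1 / t) *
      ∫ z in strip Y, ‖g n (mob δ z) - f (mob δ z)‖ ^ 2 / ‖cd δ z‖ ^ 4) atTop
      (𝓝 ((1 + t) * C + (1 + 1 / t) * 0)) :=
    tendsto_const_nhds.add (hlim.const_mul _)
  have hle : ∫ z in strip Y, ‖f (mob δ z)‖ ^ 2 / ‖cd δ z‖ ^ 4 ≤ (1 + t) * C + (1 + 1 / t) * 0 := by
    refine ge_of_tendsto' hlim2 fun n => ?_
    have hi0 : IntegrableOn (fun z => ‖f (mob δ z)‖ ^ 2 / ‖cd δ z‖ ^ 4) (strip Y) := by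
      refine ContinuousOn.integrableOn_compact hK (ContinuousOn.mono ?_ hKU)
      exact ContinuousOn.div ((asm_cont_comp_mob hf δ).norm.pow 2) hcdcont hcdpos
    have hi1 : IntegrableOn (fun z => ‖g n (mob δ z)‖ ^ 2 / ‖cd δ z‖ ^ 4) (strip Y) := by
      refine ContinuousOn.integrableOn_compact hK (ContinuousOn.mono ?_ hKU)
      exact ContinuousOn.div ((asm_cont_comp_mob (hg n) δ).norm.pow 2) hcdcont hcdpos
    have hi2 : IntegrableOn (fun z => ‖g n (mob δ z) - f (mob δ z)‖ ^ 2 / ‖cd δ z‖ ^ 4)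
        (strip Y) := by
      refine ContinuousOn.integrableOn_compact hK (ContinuousOn.mono ?_ hKU)
      refine ContinuousOn.div ?_ hcdcont hcdpos
      exact (((asm_cont_comp_mob (hg n) δ).sub (asm_cont_comp_mob hf δ)).norm).pow 2
    have hmono : ∫ z in strip Y, ‖f (mob δ z)‖ ^ 2 / ‖cd δ z‖ ^ 4
        ≤ ∫ z in strip Y, ((1 + t) * (‖g n (mob δ z)‖ ^ 2 / ‖cd δ z‖ ^ 4)
          + (1 + 1 / t) * (‖g n (mob δ z) - f (mob δ z)‖ ^ 2 / ‖cd δ z‖ ^ 4)) := by
      refine setIntegral_mono_on hi0 ((hi1.const_mul _).add (hi2.const_mul _))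
        hK.measurableSet fun z hz => ?_
      have hzU := hKU hz
      have hne := cd_ne_zero δ hzU
      have hpos : 0 < ‖cd δ z‖ ^ 4 := by positivity
      have hpt : ‖f (mob δ z)‖ ^ 2 ≤ (1 + t) * ‖g n (mob δ z)‖ ^ 2
          + (1 + 1 / t) * ‖g n (mob δ z) - f (mob δ z)‖ ^ 2 := by
        set a := ‖g n (mob δ z)‖
        set b := ‖g n (mob δ z) - f (mob δ z)‖
        have h1 : ‖f (mob δ z)‖ ≤ a + b := by
          have : f (mob δ z) = g n (mob δ z) - (g n (mob δ z) - f (mob δ z)) := by ring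
          calc ‖f (mob δ z)‖ = ‖g n (mob δ z) - (g n (mob δ z) - f (mob δ z))‖ := by rw [← this]
            _ ≤ a + b := norm_sub_le _ _
        have ha : 0 ≤ a := norm_nonneg _
        have hb : 0 ≤ b := norm_nonneg _
        have h2 : ‖f (mob δ z)‖ ^ 2 ≤ (a + b) ^ 2 := pow_le_pow_left₀ (norm_nonneg _) h1 2
        have h3 : 2 * a * b ≤ t * a ^ 2 + (1 / t) * b ^ 2 := by
          have := sq_nonneg (t * a - b)
          have e : t * a ^ 2 + (1 / t) * b ^ 2 - 2 * a * b = (t * a - b) ^ 2 / t := by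
            field_simp
            ring
          have : 0 ≤ (t * a - b) ^ 2 / t := by positivity
          linarith
        nlinarith
      have : (1 + t) * (‖g n (mob δ z)‖ ^ 2 / ‖cd δ z‖ ^ 4)
          + (1 + 1 / t) * (‖g n (mob δ z) - f (mob δ z)‖ ^ 2 / ‖cd δ z‖ ^ 4)
          = ((1 + t) * ‖g n (mob δ z)‖ ^ 2
              + (1 + 1 / t) * ‖g n (mob δ z) - f (mob δ z)‖ ^ 2) / ‖cd δ z‖ ^ 4 := by
        ring
      rw [this]
      exact div_le_div_of_nonneg_right hpt hpos.le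
    rw [integral_add (hi1.const_mul _) (hi2.const_mul _), integral_const_mul,
      integral_const_mul] at hmono
    have := hC n
    have h1t : 0 ≤ 1 + t := by linarith
    nlinarith [mul_le_mul_of_nonneg_left this h1t]
  calc ∫ z in strip Y, ‖f (mob δ z)‖ ^ 2 / ‖cd δ z‖ ^ 4 ≤ (1 + t) * C + (1 + 1 / t) * 0 := hle
    _ = C + t * C := by ring
    _ ≤ C + ε := by linarith

end Fermat.Agent.S21

namespace Fermat.Agent.S21

/-- **D'** (Hodge existence): every real parabolic homomorphism is the real part of the period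
homomorphism of a cusp form. -/
theorem exists_cuspForm_re_period_eq (N : ℕ) [NeZero N] (φ : Additive (Gamma0 N) →+ ℝ)
    (hφ : IsParabolicHom (Gamma0 N) φ) :
    ∃ (f : CuspForm (Gamma0 N) 2) (F : ℍ → ℂ), HasEquivariantPrimitive N f F ∧
      ∀ γ : Gamma0 N,
        (F ((γ : SL(2, ℤ)) • UpperHalfPlane.I) - F UpperHalfPlane.I).re
          = φ (Additive.ofMul γ) := by
  obtain ⟨u, hu_smooth, hu_per, hu_cauchy, hu_weak, hu_cusp⟩ :=
    exists_minimizing_sequence N φ hφ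
  have hu1 : ∀ n, ContDiffOn ℝ 1 (u n) Uhp := fun n => (hu_smooth n).of_le (by norm_cast)
  have hg_cont : ∀ n, ContinuousOn (dz (u n)) Uhp := fun n => continuousOn_dz (hu1 n)
  obtain ⟨f, hf_diff, hf_conv⟩ :=
    weyl_lemma (fun n => dz (u n)) hg_cont hu_cauchy (asm_weak hu_smooth hu_weak)
  have hf_cont : ContinuousOn f Uhp := hf_diff.continuousOn
  have hf_inv : ∀ (γ : Gamma0 N) (z : ℍ),
      f ↑((γ : SL(2, ℤ)) • z) = (cd (γ : SL(2, ℤ)) z) ^ 2 * f ↑z := by
    intro γ z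
    have := asm_f_inv hg_cont hf_cont hf_conv (γ : SL(2, ℤ))
      (fun n w hw => asm_dz_inv (hu1 n) _ _ (hu_per n γ) hw) (coe_mem_Uhp z)
    rwa [mob_coe] at this
  have hf_cusp : ∀ δ : SL(2, ℤ), ∃ C : ℝ, ∀ Y : ℝ,
      ∫ z in strip Y, ‖f (mob δ z)‖ ^ 2 / ‖cd δ z‖ ^ 4 ≤ C := by
    intro δ
    obtain ⟨C, hC⟩ := hu_cusp δ
    exact ⟨C, fun Y => asm_f_cusp hg_cont hf_cont hf_conv δ C Y (fun n => hC n Y)⟩
  obtain ⟨fc, hfc⟩ := exists_cuspForm_of_energy N f hf_diff hf_inv hf_cusp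
  obtain ⟨F, hF⟩ := exists_primitive N fc
  refine ⟨fc, F, hF, fun γ => ?_⟩
  -- periods
  set v : ℕ → ℂ → ℝ := fun n z => u n z - (F (ofComplex z)).re with hv
  have hQ : ∀ z ∈ Uhp, HasDerivAt (F ∘ ofComplex) (f z) z := by
    intro z hz
    have := hF.1 ⟨z, hz⟩
    rw [hfc] at this
    exact this
  have hQdiff : DifferentiableOn ℂ (F ∘ ofComplex) Uhp := fun z hz =>
    (hQ z hz).differentiableAt.differentiableWithinAt
  have hQsmooth : ContDiffOn ℝ 1 (fun z => (F (ofComplex z)).re) Uhp := by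
    have h1 : ContDiffOn ℂ 1 (F ∘ ofComplex) Uhp := hQdiff.contDiffOn isOpen_Uhp
    have h2 : ContDiffOn ℝ 1 (F ∘ ofComplex) Uhp := h1.restrict_scalars ℝ
    exact Complex.reCLM.contDiff.comp_contDiffOn h2
  have hv1 : ∀ n, ContDiffOn ℝ 1 (v n) Uhp := fun n => (hu1 n).sub hQsmooth
  have hdzv : ∀ n, ∀ z ∈ Uhp, dz (v n) z = dz (u n) z - f z := by
    intro n z hz
    have hU := isOpen_Uhp.mem_nhds hz
    have d1 : DifferentiableAt ℝ (u n) z :=
      ((hu1 n).differentiableOn one_ne_zero).differentiableAt hU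
    have d2 : DifferentiableAt ℝ (fun z => (F (ofComplex z)).re) z :=
      (hQsmooth.differentiableOn one_ne_zero).differentiableAt hU
    have e := dz_sub d1 d2
    have e2 : dz (fun z => (F (ofComplex z)).re) z = f z := dz_re_of_hasDerivAt (hQ z hz)
    rw [e2] at e
    exact e
  have hconv : ∀ K : Set ℂ, IsCompact K → K ⊆ Uhp →
      Tendsto (fun n => ∫ z in K, ‖dz (v n) z‖ ^ 2) atTop (𝓝 0) := by
    intro K hK hKU
    refine (hf_conv K hK hKU).congr fun n => ?_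
    refine setIntegral_congr_fun hK.measurableSet fun z hz => ?_
    show ‖dz (u n) z - f z‖ ^ 2 = ‖dz (v n) z‖ ^ 2
    rw [hdzv n z (hKU hz)]
  have hper : ∀ n (z : ℍ), v n ↑((γ : SL(2, ℤ)) • z) = v n ↑z + (φ (Additive.ofMul γ)
      - (F ((γ : SL(2, ℤ)) • UpperHalfPlane.I) - F UpperHalfPlane.I).re) := by
    intro n z
    have h1 := hu_per n γ z
    have h2 := hF.2.2.1.sub_eq_period γ z
    have h3 := hF.2.2.1.sub_eq_period γ UpperHalfPlane.I
    simp only [hv, ofComplex_apply]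
    have : F ((γ : SL(2, ℤ)) • z)
        = F z + (F ((γ : SL(2, ℤ)) • UpperHalfPlane.I) - F UpperHalfPlane.I) := by
      rw [h3, ← h2]; ring
    rw [h1, this, Complex.add_re]
    ring
  have := period_eq_zero_of_tendsto v hv1 hconv (γ : SL(2, ℤ)) _ hper
  linarith

end Fermat.Agent.S21
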