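import Fermat.Agent.S21.Interface
import Fermat.Agent.S21.HodgeAssembly

/-!
# S21 — glue: the frozen statement from the six interface theorems
-/

set_option autoImplicit false

open ModularCurve ModularCurve.Period UpperHalfPlane CongruenceSubgroup Filter Topology
open scoped MatrixGroups ComplexConjugate

namespace Fermat.Agent.S21

variable {N : ℕ}

theorem hasEquivariantPrimitive_add {f g : CuspForm (Gamma0 N) 2} {F G : ℍ → ℂ}
    (hF : HasEquivariantPrimitive N f F) (hG : HasEquivariantPrimitive N g G) :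
    HasEquivariantPrimitive N (f + g) (F + G) := by
  refine ⟨fun τ => ?_, ?_, fun γ => ?_, fun δ => ?_⟩
  · have := (hF.1 τ).add (hG.1 τ)
    exact this
  · have := hF.2.1.add hG.2.1
    rw [add_zero] at this
    exact this
  · obtain ⟨c, hc⟩ := hF.2.2.1 γ
    obtain ⟨d, hd⟩ := hG.2.2.1 γ
    refine ⟨c + d, fun z => ?_⟩
    have h1 := hc z
    have h2 := hd z
    simp only [Pi.add_apply]
    linear_combination h1 + h2
  · obtain ⟨L, hL⟩ := hF.2.2.2 δ
    obtain ⟨M, hM⟩ := hG.2.2.2 δ
    exact ⟨L + M, hL.add hM⟩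

theorem hasEquivariantPrimitive_smul (c : ℂ) {f : CuspForm (Gamma0 N) 2} {F : ℍ → ℂ}
    (hF : HasEquivariantPrimitive N f F) :
    HasEquivariantPrimitive N (c • f) (c • F) := by
  refine ⟨fun τ => ?_, ?_, fun γ => ?_, fun δ => ?_⟩
  · have := (hF.1 τ).const_smul c
    exact this
  · have := hF.2.1.const_smul c
    rw [smul_zero] at this
    exact this
  · obtain ⟨d, hd⟩ := hF.2.2.1 γ
    refine ⟨c * d, fun z => ?_⟩
    have h1 := hd z
    simp only [Pi.smul_apply, smul_eq_mul]
    linear_combination c * h1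
  · obtain ⟨L, hL⟩ := hF.2.2.2 δ
    exact ⟨c • L, hL.const_smul c⟩

theorem periodMap_eq_of_primitive {f : CuspForm (Gamma0 N) 2} {F : ℍ → ℂ}
    (hF : HasEquivariantPrimitive N f F) :
    periodMap N f = hF.2.2.1.periodHom := by
  obtain ⟨F₀, h₀, h⟩ := periodMap_def N f hF
  have hFF : F₀ = F := primitive_unique N f h₀ hF
  subst hFF
  exact h

theorem periodMap_apply {f : CuspForm (Gamma0 N) 2} {F : ℍ → ℂ}
    (hF : HasEquivariantPrimitive N f F) (γ : Gamma0 N) :
    periodMap N f (Additive.ofMul γ)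
      = F ((γ : SL(2, ℤ)) • UpperHalfPlane.I) - F UpperHalfPlane.I := by
  rw [periodMap_eq_of_primitive hF]
  rfl

variable (N) in
theorem existsPeriodMapLinear [NeZero N] : ExistsPeriodMapLinear N := by
  refine ⟨{ toFun := periodMap N, map_add' := fun f g => ?_, map_smul' := fun c f => ?_ },
    fun f => rfl⟩
  · obtain ⟨F, hF⟩ := exists_primitive N f
    obtain ⟨G, hG⟩ := exists_primitive N g
    refine AddMonoidHom.ext fun γ => ?_
    obtain ⟨γ, rfl⟩ := Additive.ofMul.surjective γ
    rw [AddMonoidHom.add_apply, periodMap_apply hF, periodMap_apply hG,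
      periodMap_apply (hasEquivariantPrimitive_add hF hG)]
    simp only [Pi.add_apply]
    ring
  · obtain ⟨F, hF⟩ := exists_primitive N f
    refine AddMonoidHom.ext fun γ => ?_
    obtain ⟨γ, rfl⟩ := Additive.ofMul.surjective γ
    rw [RingHom.id_apply, AddMonoidHom.smul_apply, periodMap_apply hF,
      periodMap_apply (hasEquivariantPrimitive_smul c hF)]
    simp only [Pi.smul_apply, smul_eq_mul]
    ring

/-- The period map as a linear map. -/
noncomputable def periodLin (N : ℕ) [NeZero N] :
    CuspForm (Gamma0 N) 2 →ₗ[ℂ] (Additive (Gamma0 N) →+ ℂ) :=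
  (existsPeriodMapLinear N).choose

theorem periodLin_apply [NeZero N] (f : CuspForm (Gamma0 N) 2) :
    periodLin N f = periodMap N f :=
  (existsPeriodMapLinear N).choose_spec f

theorem periodHomPair_eq [NeZero N] :
    periodHomPair N = LinearMap.coprod
      ((LinearMap.id + charInvolution N ℂ ℂ) ∘ₗ periodLin N)
      ((LinearMap.id - charInvolution N ℂ ℂ) ∘ₗ periodLin N) := by
  unfold periodHomPair
  rw [dif_pos (existsPeriodMapLinear N)]
  rfl

theorem periodHomPair_apply [NeZero N] (f g : CuspForm (Gamma0 N) 2) (γ : Gamma0 N) :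
    periodHomPair N (f, g) (Additive.ofMul γ)
      = (periodMap N f (Additive.ofMul γ)
          + periodMap N f (Additive.ofMul (jConjGamma0 N γ)))
        + (periodMap N g (Additive.ofMul γ)
          - periodMap N g (Additive.ofMul (jConjGamma0 N γ))) := by
  rw [periodHomPair_eq]
  simp [LinearMap.coprod_apply, periodLin_apply, charInvolution_apply]

theorem periodMap_add [NeZero N] (f g : CuspForm (Gamma0 N) 2) :
    periodMap N (f + g) = periodMap N f + periodMap N g := by
  rw [← periodLin_apply, map_add, periodLin_apply, periodLin_apply]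

theorem periodMap_sub [NeZero N] (f g : CuspForm (Gamma0 N) 2) :
    periodMap N (f - g) = periodMap N f - periodMap N g := by
  rw [← periodLin_apply, map_sub, periodLin_apply, periodLin_apply]

theorem periodMap_smul [NeZero N] (c : ℂ) (f : CuspForm (Gamma0 N) 2) :
    periodMap N (c • f) = c • periodMap N f := by
  rw [← periodLin_apply, map_smul, periodLin_apply]

theorem periodMap_mem_parabolicHoms [NeZero N] (f : CuspForm (Gamma0 N) 2) :
    periodMap N f ∈ parabolicHoms ℂ (Gamma0 N) ℂ :=
  periodMap_mem_parabolicHoms' N f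

/-- C' restated with `periodMap`. -/
theorem eq_zero_of_re_periodMap_eq_zero [NeZero N] (f : CuspForm (Gamma0 N) 2)
    (h : ∀ γ : Gamma0 N, (periodMap N f (Additive.ofMul γ)).re = 0) : f = 0 := by
  obtain ⟨F, hF⟩ := exists_primitive N f
  refine eq_zero_of_re_period_eq_zero N f hF fun γ => ?_
  rw [← periodMap_apply hF]
  exact h γ

/-- D' restated with `periodMap`. -/
theorem exists_re_periodMap_eq [NeZero N] (φ : Additive (Gamma0 N) →+ ℝ)
    (hφ : IsParabolicHom (Gamma0 N) φ) :
    ∃ f : CuspForm (Gamma0 N) 2, ∀ γ : Gamma0 N,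
      (periodMap N f (Additive.ofMul γ)).re = φ (Additive.ofMul γ) := by
  obtain ⟨f, F, hF, h⟩ := exists_cuspForm_re_period_eq N φ hφ
  refine ⟨f, fun γ => ?_⟩
  rw [periodMap_apply hF]
  exact h γ

/-- E1 restated with `periodMap`. -/
theorem exists_star [NeZero N] (f : CuspForm (Gamma0 N) 2) :
    ∃ g : CuspForm (Gamma0 N) 2, ∀ γ : Gamma0 N,
      periodMap N g (Additive.ofMul γ)
        = - conj (periodMap N f (Additive.ofMul (jConjGamma0 N γ))) := by
  obtain ⟨F, hF⟩ := exists_primitive N f
  obtain ⟨g, G, hG, h⟩ := exists_conj_partner N f hF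
  refine ⟨g, fun γ => ?_⟩
  rw [periodMap_apply hG, periodMap_apply hF]
  exact h γ

theorem exists_star' [NeZero N] (f : CuspForm (Gamma0 N) 2) :
    ∃ g : CuspForm (Gamma0 N) 2, (∀ γ : Gamma0 N,
      periodMap N g (Additive.ofMul γ)
        = - conj (periodMap N f (Additive.ofMul (jConjGamma0 N γ)))) ∧
      ∀ γ : Gamma0 N, periodMap N g (Additive.ofMul (jConjGamma0 N γ))
        = - conj (periodMap N f (Additive.ofMul γ)) := by
  obtain ⟨g, hg⟩ := exists_star f
  refine ⟨g, hg, fun γ => ?_⟩
  rw [hg, jConjGamma0_jConjGamma0]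

/-- The `+`-part: `(1 + ι) P f = 0 → f = 0`. -/
theorem eq_zero_of_plus [NeZero N] (f : CuspForm (Gamma0 N) 2)
    (h : ∀ γ : Gamma0 N, periodMap N f (Additive.ofMul γ)
          + periodMap N f (Additive.ofMul (jConjGamma0 N γ)) = 0) : f = 0 := by
  obtain ⟨s, hs, -⟩ := exists_star' f
  -- `P s = conj (P f)`
  have hs' : ∀ γ : Gamma0 N,
      periodMap N s (Additive.ofMul γ) = conj (periodMap N f (Additive.ofMul γ)) := by
    intro γ
    rw [hs, ← map_neg]
    congr 1
    linear_combination - h γ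
  have h1 : f - s = 0 := by
    refine eq_zero_of_re_periodMap_eq_zero _ fun γ => ?_
    rw [periodMap_sub, AddMonoidHom.sub_apply, hs', Complex.sub_re, Complex.conj_re, sub_self]
  have h2 : (Complex.I : ℂ) • (f + s) = 0 := by
    refine eq_zero_of_re_periodMap_eq_zero _ fun γ => ?_
    rw [periodMap_smul, periodMap_add, AddMonoidHom.smul_apply, AddMonoidHom.add_apply, hs']
    simp
  have h3 : f + s = 0 := by
    have := congrArg (fun x => (-Complex.I) • x) h2
    simpa [smul_smul] using this
  have h4 : f = s := sub_eq_zero.mp h1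
  rw [← h4] at h3
  have h5 : (2 : ℂ) • f = 0 := by rw [two_smul]; exact h3
  have := congrArg (fun x => (2⁻¹ : ℂ) • x) h5
  simpa [smul_smul] using this

/-- The `-`-part: `(1 - ι) P g = 0 → g = 0`. -/
theorem eq_zero_of_minus [NeZero N] (g : CuspForm (Gamma0 N) 2)
    (h : ∀ γ : Gamma0 N, periodMap N g (Additive.ofMul γ)
          - periodMap N g (Additive.ofMul (jConjGamma0 N γ)) = 0) : g = 0 := by
  obtain ⟨s, hs, -⟩ := exists_star' g
  -- `P s = - conj (P g)`
  have hs' : ∀ γ : Gamma0 N,
      periodMap N s (Additive.ofMul γ) = - conj (periodMap N g (Additive.ofMul γ)) := by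
    intro γ
    rw [hs]
    congr 2
    linear_combination - h γ
  have h1 : g + s = 0 := by
    refine eq_zero_of_re_periodMap_eq_zero _ fun γ => ?_
    rw [periodMap_add, AddMonoidHom.add_apply, hs', Complex.add_re, Complex.neg_re,
      Complex.conj_re, add_neg_cancel]
  have h2 : (Complex.I : ℂ) • (g - s) = 0 := by
    refine eq_zero_of_re_periodMap_eq_zero _ fun γ => ?_
    rw [periodMap_smul, periodMap_sub, AddMonoidHom.smul_apply, AddMonoidHom.sub_apply, hs']
    simp
  have h3 : g - s = 0 := by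
    have := congrArg (fun x => (-Complex.I) • x) h2
    simpa [smul_smul] using this
  have h4 : g = s := sub_eq_zero.mp h3
  rw [← h4] at h1
  have h5 : (2 : ℂ) • g = 0 := by rw [two_smul]; exact h1
  have := congrArg (fun x => (2⁻¹ : ℂ) • x) h5
  simpa [smul_smul] using this

theorem periodHomPair_injective (N : ℕ) [NeZero N] : Function.Injective (periodHomPair N) := by
  rw [injective_iff_map_eq_zero]
  rintro ⟨f, g⟩ hfg
  have key : ∀ γ : Gamma0 N,
      (periodMap N f (Additive.ofMul γ) + periodMap N f (Additive.ofMul (jConjGamma0 N γ)))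
        + (periodMap N g (Additive.ofMul γ)
          - periodMap N g (Additive.ofMul (jConjGamma0 N γ))) = 0 := by
    intro γ
    rw [← periodHomPair_apply, hfg]
    rfl
  have hf : f = 0 := by
    refine eq_zero_of_plus f fun γ => ?_
    have h1 := key γ
    have h2 := key (jConjGamma0 N γ)
    rw [jConjGamma0_jConjGamma0] at h2
    linear_combination (1 / 2 : ℂ) * h1 + (1 / 2 : ℂ) * h2
  have hg : g = 0 := by
    refine eq_zero_of_minus g fun γ => ?_
    have h1 := key γ
    have h2 := key (jConjGamma0 N γ)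
    rw [jConjGamma0_jConjGamma0] at h2
    linear_combination (1 / 2 : ℂ) * h1 - (1 / 2 : ℂ) * h2
  rw [hf, hg]
  rfl

theorem periodHomPair_mem_parabolicHoms [NeZero N] (x : CuspForm (Gamma0 N) 2 × CuspForm (Gamma0 N) 2) :
    periodHomPair N x ∈ parabolicHoms ℂ (Gamma0 N) ℂ := by
  rw [periodHomPair_eq]
  obtain ⟨f, g⟩ := x
  simp only [LinearMap.coprod_apply, LinearMap.comp_apply, LinearMap.add_apply,
    LinearMap.sub_apply, LinearMap.id_apply, periodLin_apply]
  have hf := periodMap_mem_parabolicHoms f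
  have hg := periodMap_mem_parabolicHoms g
  exact Submodule.add_mem _
    (Submodule.add_mem _ hf (charInvolution_mem_parabolicHoms N ℂ ℂ hf))
    (Submodule.sub_mem _ hg (charInvolution_mem_parabolicHoms N ℂ ℂ hg))

/-- real part of a complex parabolic hom -/
noncomputable def reHom (ψ : Additive (Gamma0 N) →+ ℂ) : Additive (Gamma0 N) →+ ℝ :=
  (Complex.reLm.toAddMonoidHom).comp ψ

/-- imaginary part of a complex parabolic hom -/
noncomputable def imHom (ψ : Additive (Gamma0 N) →+ ℂ) : Additive (Gamma0 N) →+ ℝ :=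
  (Complex.imLm.toAddMonoidHom).comp ψ

theorem periodHomPair_surjective [NeZero N] (ψ : Additive (Gamma0 N) →+ ℂ)
    (hψ : ψ ∈ parabolicHoms ℂ (Gamma0 N) ℂ) : ∃ x, periodHomPair N x = ψ := by
  rw [mem_parabolicHoms_iff] at hψ
  have h1 : IsParabolicHom (Gamma0 N) (reHom ψ) := fun γ hγ => by
    show (ψ (Additive.ofMul γ)).re = 0
    rw [hψ γ hγ]; rfl
  have h2 : IsParabolicHom (Gamma0 N) (imHom ψ) := fun γ hγ => by
    show (ψ (Additive.ofMul γ)).im = 0
    rw [hψ γ hγ]; rfl
  obtain ⟨f₁, hf₁⟩ := exists_re_periodMap_eq (reHom ψ) h1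
  obtain ⟨f₂, hf₂⟩ := exists_re_periodMap_eq (imHom ψ) h2
  obtain ⟨s₁, -, hs₁⟩ := exists_star' f₁
  obtain ⟨s₂, -, hs₂⟩ := exists_star' (Complex.I • f₂)
  -- `ψ = ½ P(a) + ½ ι P(b)`, `a = f₁ + i f₂`, `b = s₂ - s₁`
  set a : CuspForm (Gamma0 N) 2 := f₁ + Complex.I • f₂ with ha
  set b : CuspForm (Gamma0 N) 2 := s₂ - s₁ with hb
  refine ⟨((4⁻¹ : ℂ) • (a + b), (4⁻¹ : ℂ) • (a - b)), ?_⟩
  refine AddMonoidHom.ext fun γ => ?_
  obtain ⟨γ, rfl⟩ := Additive.ofMul.surjective γ
  rw [periodHomPair_apply]
  simp only [periodMap_smul, periodMap_add, periodMap_sub, AddMonoidHom.smul_apply,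
    AddMonoidHom.add_apply, AddMonoidHom.sub_apply, ha, hb, hs₁, hs₂, smul_eq_mul]
  have e1 : (periodMap N f₁ (Additive.ofMul γ)).re = (ψ (Additive.ofMul γ)).re := hf₁ γ
  have e2 : (periodMap N f₂ (Additive.ofMul γ)).re = (ψ (Additive.ofMul γ)).im := hf₂ γ
  apply Complex.ext
  · simp only [Complex.add_re, Complex.sub_re, Complex.mul_re, Complex.neg_re, Complex.conj_re,
      Complex.I_re, Complex.I_im, Complex.conj_im, Complex.add_im, Complex.sub_im, Complex.mul_im,
      Complex.neg_im, map_mul, Complex.conj_I, Complex.inv_re, Complex.inv_im]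
    norm_num
    linarith
  · simp only [Complex.add_re, Complex.sub_re, Complex.mul_re, Complex.neg_re, Complex.conj_re,
      Complex.I_re, Complex.I_im, Complex.conj_im, Complex.add_im, Complex.sub_im, Complex.mul_im,
      Complex.neg_im, map_mul, Complex.conj_I, Complex.inv_re, Complex.inv_im]
    norm_num
    linarith

theorem main (N : ℕ) [NeZero N] :
    Function.Injective (ModularCurve.periodHomPair N)
      ∧ LinearMap.range (ModularCurve.periodHomPair N)
          = ModularCurve.Period.parabolicHoms ℂ (CongruenceSubgroup.Gamma0 N) ℂ := by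
  refine ⟨periodHomPair_injective N, le_antisymm ?_ ?_⟩
  · rintro ψ ⟨x, rfl⟩
    exact periodHomPair_mem_parabolicHoms x
  · intro ψ hψ
    exact periodHomPair_surjective ψ hψ

end Fermat.Agent.S21
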