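import Mathlib

/-!
# Abstract linear algebra for the bound on parabolic cohomology

`G` a group acting on a finite set `X`.  For `g : G` and `n : ℕ` we consider the space
`orbSumZero g n` of functions `m : X → ℂ` with `∑ i < n, m (g ^ i • x) = 0` for all `x`, and
prove the dimension bounds needed for `dim Hom_par(Γ, ℂ) ≤ 2g`.
-/

set_option autoImplicit false
set_option linter.style.haveILetI false

namespace Fermat.Agent.S21.ParBound

open scoped BigOperators

section Abstract

variable {G : Type*} [Group G] {X : Type*} [MulAction G X]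

/-- Functions on `X` whose `n`-step sums along `g` vanish. -/
def orbSumZero (g : G) (n : ℕ) : Submodule ℂ (X → ℂ) where
  carrier := {m | ∀ x, ∑ i ∈ Finset.range n, m (g ^ i • x) = 0}
  zero_mem' := by intro x; simp
  add_mem' := by
    intro a b ha hb x
    simp only [Pi.add_apply, Finset.sum_add_distrib, ha x, hb x, add_zero]
  smul_mem' := by
    intro c a ha x
    simp only [Pi.smul_apply, smul_eq_mul, ← Finset.mul_sum, ha x, mul_zero]

theorem mem_orbSumZero {g : G} {n : ℕ} {m : X → ℂ} :
    m ∈ orbSumZero g n ↔ ∀ x, ∑ i ∈ Finset.range n, m (g ^ i • x) = 0 := Iff.rfl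

/-- Coboundaries `m ∘ g - m` have vanishing orbit sums along `g`. -/
theorem cobdry_mem_orbSumZero {g : G} {n : ℕ} (h : ∀ x : X, g ^ n • x = x) (m : X → ℂ) :
    (fun x => m (g • x) - m x) ∈ orbSumZero g n := by
  intro x
  have key : ∀ i, m (g • g ^ i • x) - m (g ^ i • x)
      = (fun j => m (g ^ j • x)) (i + 1) - (fun j => m (g ^ j • x)) i := by
    intro i
    simp only [pow_succ', mul_smul]
  simp only [key]
  rw [Finset.sum_range_sub (fun j => m (g ^ j • x)) n]
  simp [h x]

/-- Backward coboundaries `m ∘ g⁻¹ - m` have vanishing orbit sums along `g`. -/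
theorem cobdry_inv_mem_orbSumZero {g : G} {n : ℕ} (h : ∀ x : X, g ^ n • x = x) (m : X → ℂ) :
    (fun x => m (g⁻¹ • x) - m x) ∈ orbSumZero g n := by
  intro x
  have key : ∀ i, m (g⁻¹ • g ^ i • x) - m (g ^ i • x)
      = (fun j => m (g⁻¹ • g ^ j • x)) i - (fun j => m (g⁻¹ • g ^ j • x)) (i + 1) := by
    intro i
    simp only [pow_succ', mul_smul, inv_smul_smul]
  simp only [key]
  rw [Finset.sum_range_sub' (fun j => m (g⁻¹ • g ^ j • x)) n]
  simp [h x]

/-- `dim (orbSumZero g n) + #(orbits of g) ≤ #X` for `n ≥ 1`. -/
theorem finrank_orbSumZero_add_card_le [Finite X] (g : G) {n : ℕ} (hn : 0 < n) :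
    Module.finrank ℂ (orbSumZero (X := X) g n)
      + Nat.card (MulAction.orbitRel.Quotient (Subgroup.zpowers g) X) ≤ Nat.card X := by
  classical
  haveI := Fintype.ofFinite X
  let Q := MulAction.orbitRel.Quotient (Subgroup.zpowers g) X
  haveI : Finite Q := Quotient.finite _
  haveI := Fintype.ofFinite Q
  let π : X → Q := Quotient.mk''
  have hπ : ∀ (i : ℕ) (x : X), π (g ^ i • x) = π x := by
    intro i x
    have : g ^ i • x = (⟨g ^ i, Subgroup.pow_mem _ (Subgroup.mem_zpowers g) i⟩ :
        Subgroup.zpowers g) • x := rfl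
    rw [this]
    exact MulAction.orbitRel.Quotient.quotient_smul_eq
  let L : (orbSumZero (X := X) g n × (Q → ℂ)) →ₗ[ℂ] (X → ℂ) :=
    { toFun := fun p => (p.1 : X → ℂ) + fun x => p.2 (π x)
      map_add' := by
        intro p q
        ext x
        simp only [Prod.fst_add, Prod.snd_add, Submodule.coe_add, Pi.add_apply]
        ring
      map_smul' := by
        intro c p
        ext x
        simp only [Prod.smul_fst, Prod.smul_snd, Submodule.coe_smul, Pi.add_apply,
          Pi.smul_apply, smul_eq_mul, RingHom.id_apply]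
        ring }
  have hL : Function.Injective L := by
    rw [← LinearMap.ker_eq_bot, LinearMap.ker_eq_bot']
    rintro ⟨k, f⟩ hkf
    have hkf' : ∀ x, (k : X → ℂ) x + f (π x) = 0 := fun x => congrFun hkf x
    have hf : ∀ x, f (π x) = 0 := by
      intro x
      have hk := k.2 x
      have h1 : ∀ i ∈ Finset.range n, (k : X → ℂ) (g ^ i • x) = - f (π x) := by
        intro i _
        have := hkf' (g ^ i • x)
        rw [hπ i x] at this
        linear_combination this
      rw [Finset.sum_congr rfl h1, Finset.sum_const, Finset.card_range, nsmul_eq_mul] at hk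
      have hn' : (n : ℂ) ≠ 0 := Nat.cast_ne_zero.mpr hn.ne'
      have := mul_eq_zero.mp hk
      rcases this with h | h
      · exact absurd h hn'
      · simpa using h
    have hf0 : f = 0 := by
      ext q
      obtain ⟨x, rfl⟩ := Quotient.mk''_surjective q
      exact hf x
    have hk0 : k = 0 := by
      apply Subtype.ext
      ext x
      have := hkf' x
      rw [hf x, add_zero] at this
      simpa using this
    rw [hf0, hk0]
    rfl
  have := LinearMap.finrank_le_finrank_of_injective hL
  rw [Module.finrank_prod, Module.finrank_fintype_fun_eq_card,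
    Module.finrank_fintype_fun_eq_card] at this
  simpa [Nat.card_eq_fintype_card] using this

/-- If the differences `δ_{g x} - δ_x` lie in `R` for `g` in a generating set and the action is
transitive, then every function of total sum zero lies in `R`. -/
theorem mem_of_sum_eq_zero_of_generators [Fintype X] [DecidableEq X]
    [MulAction.IsPretransitive G X] (R : Submodule ℂ (X → ℂ)) (s : Set G)
    (hs : Subgroup.closure s = ⊤)
    (hR : ∀ g ∈ s, ∀ x : X, (Pi.single (g • x) (1 : ℂ) - Pi.single x 1 : X → ℂ) ∈ R)
    (m : X → ℂ) (hm : ∑ x, m x = 0) : m ∈ R := by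
  classical
  let H : Subgroup G :=
    { carrier := {g | ∀ x : X, (Pi.single (g • x) (1 : ℂ) - Pi.single x 1 : X → ℂ) ∈ R}
      one_mem' := by intro x; simp
      mul_mem' := by
        intro g h hg hh x
        have h1 := hg (h • x)
        have h2 := hh x
        have := R.add_mem h1 h2
        rw [mul_smul]
        convert this using 1
        abel
      inv_mem' := by
        intro g hg x
        have h1 := hg (g⁻¹ • x)
        rw [smul_inv_smul] at h1
        have := R.neg_mem h1
        convert this using 1
        abel }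
  have hH : H = ⊤ := by
    rw [eq_top_iff, ← hs, Subgroup.closure_le]
    intro g hg
    exact hR g hg
  have hall : ∀ (g : G) (x : X), (Pi.single (g • x) (1 : ℂ) - Pi.single x 1 : X → ℂ) ∈ R := by
    intro g
    have : g ∈ H := by rw [hH]; exact Subgroup.mem_top g
    exact this
  rcases isEmpty_or_nonempty X with hX | hX
  · have : m = 0 := by ext x; exact (hX.false x).elim
    rw [this]; exact R.zero_mem
  · obtain ⟨x₀⟩ := hX
    have hdiff : ∀ y : X, (Pi.single y (1 : ℂ) - Pi.single x₀ 1 : X → ℂ) ∈ R := by
      intro y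
      obtain ⟨g, rfl⟩ := MulAction.exists_smul_eq G x₀ y
      exact hall g x₀
    have hrep : m = ∑ y, m y • (Pi.single y (1 : ℂ) - Pi.single x₀ 1 : X → ℂ) := by
      ext z
      simp only [Finset.sum_apply, Pi.smul_apply, Pi.sub_apply, smul_eq_mul, mul_sub,
        Finset.sum_sub_distrib, Pi.single_apply, mul_ite, mul_one, mul_zero]
      rw [Finset.sum_ite_eq Finset.univ z m, if_pos (Finset.mem_univ z)]
      by_cases hz : z = x₀
      · simp [hz, hm]
      · simp [hz]
    rw [hrep]
    exact R.sum_mem fun y _ => R.smul_mem _ (hdiff y)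

/-- A submodule containing all sum-zero functions has codimension at most one. -/
theorem card_le_finrank_add_one_of_sumZero_le [Fintype X] (R : Submodule ℂ (X → ℂ))
    (hR : ∀ m : X → ℂ, ∑ x, m x = 0 → m ∈ R) : Fintype.card X ≤ Module.finrank ℂ R + 1 := by
  classical
  let σ : (X → ℂ) →ₗ[ℂ] ℂ :=
    { toFun := fun m => ∑ x, m x
      map_add' := by intro a b; simp [Finset.sum_add_distrib]
      map_smul' := by intro c a; simp [Finset.mul_sum] }
  have hker : LinearMap.ker σ ≤ R := fun m hm => hR m hm
  have h1 := LinearMap.finrank_range_add_finrank_ker σ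
  rw [Module.finrank_fintype_fun_eq_card] at h1
  have h2 : Module.finrank ℂ (LinearMap.range σ) ≤ 1 := by
    have := Submodule.finrank_le (LinearMap.range σ)
    simpa using this
  have h3 : Module.finrank ℂ (LinearMap.ker σ) ≤ Module.finrank ℂ R :=
    Submodule.finrank_mono hker
  omega

/-- The functions vanishing at a point form a subspace of codimension at most one. -/
theorem card_le_finrank_ker_eval_add_one [Fintype X] (x₀ : X) :
    Fintype.card X ≤ Module.finrank ℂ (LinearMap.ker (LinearMap.proj (R := ℂ) (φ := fun _ : X => ℂ) x₀)) + 1 := by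
  classical
  have h1 := LinearMap.finrank_range_add_finrank_ker
    (LinearMap.proj (R := ℂ) (φ := fun _ : X => ℂ) x₀)
  rw [Module.finrank_fintype_fun_eq_card] at h1
  have h2 : Module.finrank ℂ (LinearMap.range
      (LinearMap.proj (R := ℂ) (φ := fun _ : X => ℂ) x₀)) ≤ 1 := by
    have := Submodule.finrank_le (LinearMap.range
      (LinearMap.proj (R := ℂ) (φ := fun _ : X => ℂ) x₀))
    simpa using this
  omega

/-- Values of a cocycle on powers. -/
theorem cocycle_pow {V : Type*} (c : G → V → (X → ℂ))
    (hc : ∀ (g h : G) (v : V) (x : X), c (g * h) v x = c g v (h • x) + c h v x)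
    (g : G) (v : V) (n : ℕ) (x : X) :
    c (g ^ n) v x = ∑ i ∈ Finset.range n, c g v (g ^ i • x) := by
  induction n generalizing x with
  | zero =>
    have := hc 1 1 v x
    simp only [mul_one, one_smul] at this
    simpa using this
  | succ n ih =>
    rw [pow_succ, hc, ih, Finset.sum_range_succ']
    simp only [pow_succ, mul_smul, pow_zero, one_smul]

/-- **Abstract dimension bound.**  `V` a complex vector space, `c g : V → (X → ℂ)` a linear
family of cocycles for the transitive action of `G = ⟨s, t⟩` on the finite set `X`, with orbit-sum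
constraints at `s`, `u = s * t`, `t`, and faithful modulo coboundaries.  Then `V` is
finite-dimensional and `dim V + o(s) + o(u) + o(t) ≤ #X + 2`. -/
theorem abstract_bound [Finite X] [MulAction.IsPretransitive G X] (x₀ : X)
    {V : Type*} [AddCommGroup V] [Module ℂ V]
    (s t : G) (hgen : Subgroup.closure ({s, t} : Set G) = ⊤)
    {ns nu nt : ℕ} (hns : 0 < ns) (hnu : 0 < nu) (hnt : 0 < nt)
    (hs : ∀ x : X, s ^ ns • x = x) (hu : ∀ x : X, (s * t) ^ nu • x = x)
    (ht : ∀ x : X, t ^ nt • x = x)
    (c : G → V →ₗ[ℂ] (X → ℂ))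
    (hc : ∀ (g h : G) (v : V) (x : X), c (g * h) v x = c g v (h • x) + c h v x)
    (hcs : ∀ v, c s v ∈ orbSumZero s ns)
    (hcu : ∀ v, c (s * t) v ∈ orbSumZero (s * t) nu)
    (hct : ∀ v, c t v ∈ orbSumZero t nt)
    (hfaith : ∀ (v : V) (m : X → ℂ), (∀ g x, c g v x + (m (g • x) - m x) = 0) → v = 0) :
    Module.Finite ℂ V ∧
      Module.finrank ℂ V
        + Nat.card (MulAction.orbitRel.Quotient (Subgroup.zpowers s) X)
        + Nat.card (MulAction.orbitRel.Quotient (Subgroup.zpowers (s * t)) X)
        + Nat.card (MulAction.orbitRel.Quotient (Subgroup.zpowers t) X) ≤ Nat.card X + 2 := by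
  classical
  letI := Fintype.ofFinite X
  set u : G := s * t with hu_def
  -- the three constraint spaces
  let Ks := orbSumZero (X := X) s ns
  let Ku := orbSumZero (X := X) u nu
  let Kt := orbSumZero (X := X) t nt
  let M₀ := LinearMap.ker (LinearMap.proj (R := ℂ) (φ := fun _ : X => ℂ) x₀)
  -- coboundary operator
  let δ : G → (X → ℂ) →ₗ[ℂ] (X → ℂ) := fun g =>
    { toFun := fun m x => m (g • x) - m x
      map_add' := by intro a b; ext x; simp only [Pi.add_apply]; ring
      map_smul' := by
        intro a b; ext x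
        simp only [Pi.smul_apply, smul_eq_mul, RingHom.id_apply]; ring }
  have hδ : ∀ g m x, δ g m x = m (g • x) - m x := fun _ _ _ => rfl
  -- total cocycle attached to `(v, m)`
  let C : G → (V × (X → ℂ)) →ₗ[ℂ] (X → ℂ) := fun g =>
    (c g).coprod (δ g)
  have hC : ∀ g (p : V × (X → ℂ)) x, C g p x = c g p.1 x + (p.2 (g • x) - p.2 x) := by
    intro g p x
    simp only [C, LinearMap.coprod_apply, Pi.add_apply, hδ]
  have hCmul : ∀ g h p x, C (g * h) p x = C g p (h • x) + C h p x := by
    intro g h p x
    simp only [hC, hc, mul_smul]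
    ring
  have hCs : ∀ p, C s p ∈ Ks := by
    intro p
    have h1 := hcs p.1
    have h2 := cobdry_mem_orbSumZero hs p.2
    have : C s p = c s p.1 + fun x => p.2 (s • x) - p.2 x := by
      ext x; simp only [hC, Pi.add_apply]
    rw [this]
    exact Ks.add_mem h1 h2
  have hCu : ∀ p, C u p ∈ Ku := by
    intro p
    have h1 := hcu p.1
    have h2 := cobdry_mem_orbSumZero hu p.2
    have : C u p = c u p.1 + fun x => p.2 (u • x) - p.2 x := by
      ext x; simp only [hC, Pi.add_apply]
    rw [this]
    exact Ku.add_mem h1 h2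
  have hCt : ∀ p, C t p ∈ Kt := by
    intro p
    have h1 := hct p.1
    have h2 := cobdry_mem_orbSumZero ht p.2
    have : C t p = c t p.1 + fun x => p.2 (t • x) - p.2 x := by
      ext x; simp only [hC, Pi.add_apply]
    rw [this]
    exact Kt.add_mem h1 h2
  -- a cocycle vanishing on `s` and `t` vanishes identically
  have hvanish : ∀ p : V × (X → ℂ), C s p = 0 → C t p = 0 → ∀ g, C g p = 0 := by
    intro p h1 h2
    have hone : C 1 p = 0 := by
      ext x
      have := hCmul 1 1 p x
      simp only [mul_one, one_smul] at this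
      simpa using this
    let H : Subgroup G :=
      { carrier := {g | C g p = 0}
        one_mem' := hone
        mul_mem' := by
          intro g h hg hh
          ext x
          have := hCmul g h p x
          rw [Set.mem_ofPred_eq] at hg hh
          rw [this, hg, hh]
          simp
        inv_mem' := by
          intro g hg
          ext x
          have := hCmul g g⁻¹ p x
          rw [Set.mem_ofPred_eq] at hg
          rw [mul_inv_cancel, hone, hg] at this
          simpa using this.symm }
    have hH : H = ⊤ := by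
      rw [eq_top_iff, ← hgen, Subgroup.closure_le]
      intro g hg
      rcases hg with rfl | hg
      · exact h1
      · rw [Set.mem_singleton_iff] at hg
        subst hg
        exact h2
    intro g
    have : g ∈ H := by rw [hH]; exact Subgroup.mem_top g
    exact this
  -- the map `Ψ`
  let Ψ : (V × M₀) →ₗ[ℂ] (Ks × Ku × Kt) :=
    LinearMap.prod
      (((C s).codRestrict Ks hCs).comp (LinearMap.prodMap LinearMap.id M₀.subtype))
      (LinearMap.prod
        (((C u).codRestrict Ku hCu).comp (LinearMap.prodMap LinearMap.id M₀.subtype))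
        (((C t).codRestrict Kt hCt).comp (LinearMap.prodMap LinearMap.id M₀.subtype)))
  have hΨ1 : ∀ p : V × M₀, ((Ψ p).1 : X → ℂ) = C s (p.1, (p.2 : X → ℂ)) := fun _ => rfl
  have hΨ2 : ∀ p : V × M₀, ((Ψ p).2.1 : X → ℂ) = C u (p.1, (p.2 : X → ℂ)) := fun _ => rfl
  have hΨ3 : ∀ p : V × M₀, ((Ψ p).2.2 : X → ℂ) = C t (p.1, (p.2 : X → ℂ)) := fun _ => rfl
  have hΨinj : Function.Injective Ψ := by
    rw [← LinearMap.ker_eq_bot, LinearMap.ker_eq_bot']
    rintro ⟨v, m⟩ hvm
    have e1 : C s (v, (m : X → ℂ)) = 0 := by
      rw [← hΨ1 (v, m), hvm]; rfl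
    have e3 : C t (v, (m : X → ℂ)) = 0 := by
      rw [← hΨ3 (v, m), hvm]; rfl
    have hall := hvanish (v, (m : X → ℂ)) e1 e3
    have hv : v = 0 := by
      apply hfaith v (m : X → ℂ)
      intro g x
      have := congrFun (hall g) x
      rw [hC] at this
      simpa using this
    have hm : m = 0 := by
      apply Subtype.ext
      ext x
      obtain ⟨g, rfl⟩ := MulAction.exists_smul_eq G x₀ x
      have := congrFun (hall g) x₀
      rw [hC, hv] at this
      simp only [map_zero, Pi.zero_apply, zero_add] at this
      have hm0 : (m : X → ℂ) x₀ = 0 := m.2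
      rw [hm0, sub_zero] at this
      simpa using this
    rw [hv, hm]
    rfl
  -- finite-dimensionality
  have hfinV : Module.Finite ℂ V := by
    let ι : V →ₗ[ℂ] (Ks × Ku × Kt) := Ψ.comp (LinearMap.inl ℂ V M₀)
    have hι : Function.Injective ι := hΨinj.comp LinearMap.inl_injective
    exact Module.Finite.of_injective ι hι
  refine ⟨hfinV, ?_⟩
  -- the map `Θ`
  let τ : (X → ℂ) →ₗ[ℂ] (X → ℂ) :=
    { toFun := fun m x => m (t • x)
      map_add' := by intro a b; rfl
      map_smul' := by intro a b; rfl }
  let Θ : (Ks × Ku × Kt) →ₗ[ℂ] (X → ℂ) :=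
    (τ.comp Ks.subtype).comp (LinearMap.fst ℂ Ks (Ku × Kt))
      - (Ku.subtype.comp (LinearMap.fst ℂ Ku Kt)).comp (LinearMap.snd ℂ Ks (Ku × Kt))
      + (Kt.subtype.comp (LinearMap.snd ℂ Ku Kt)).comp (LinearMap.snd ℂ Ks (Ku × Kt))
  have hΘ : ∀ (q : Ks × Ku × Kt) (x : X),
      Θ q x = (q.1 : X → ℂ) (t • x) - (q.2.1 : X → ℂ) x + (q.2.2 : X → ℂ) x := fun _ _ => rfl
  have hΘΨ : ∀ p, Ψ p ∈ LinearMap.ker Θ := by
    intro p
    rw [LinearMap.mem_ker]
    ext x
    rw [hΘ, hΨ1, hΨ2, hΨ3]
    have := hCmul s t (p.1, (p.2 : X → ℂ)) x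
    simp only [Pi.zero_apply]
    rw [← hu_def] at this
    rw [this]
    ring
  -- dimension count
  have hle1 : Module.finrank ℂ (V × M₀) ≤ Module.finrank ℂ (LinearMap.ker Θ) := by
    have hinj : Function.Injective (Ψ.codRestrict (LinearMap.ker Θ) hΘΨ) := by
      intro a b hab
      apply hΨinj
      have := congrArg Subtype.val hab
      simpa using this
    exact LinearMap.finrank_le_finrank_of_injective hinj
  have hrk := LinearMap.finrank_range_add_finrank_ker Θ
  have hsum0 : ∀ m : X → ℂ, ∑ x, m x = 0 → m ∈ LinearMap.range Θ := by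
    apply mem_of_sum_eq_zero_of_generators (LinearMap.range Θ) ({u, t} : Set G)
    · rw [eq_top_iff, ← hgen, Subgroup.closure_le]
      intro g hg
      rcases hg with rfl | hg
      · have h1 : u ∈ Subgroup.closure ({u, t} : Set G) :=
          Subgroup.subset_closure (Set.mem_insert u {t})
        have h2 : t ∈ Subgroup.closure ({u, t} : Set G) :=
          Subgroup.subset_closure (Set.mem_insert_of_mem u rfl)
        have : g = u * t⁻¹ := by rw [hu_def]; group
        rw [this]
        exact Subgroup.mul_mem _ h1 (Subgroup.inv_mem _ h2)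
      · rw [Set.mem_singleton_iff] at hg
        subst hg
        exact Subgroup.subset_closure (Set.mem_insert_of_mem u rfl)
    · intro g hg x
      have key : ∀ (g : G), (Pi.single (g • x) (1 : ℂ) - Pi.single x 1 : X → ℂ)
          = fun y => (Pi.single x (1 : ℂ) : X → ℂ) (g⁻¹ • y) - (Pi.single x (1 : ℂ) : X → ℂ) y := by
        intro g
        ext y
        simp only [Pi.sub_apply, Pi.single_apply]
        by_cases h : y = g • x
        · subst h; simp
        · have : ¬ g⁻¹ • y = x := fun h' => h (by rw [← h', smul_inv_smul])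
          simp [h, this]
      rcases hg with hg | hg
      · -- `g = u`
        have hg' : g = u := hg
        rw [hg']
        have hmem : (Pi.single (u • x) (1 : ℂ) - Pi.single x 1 : X → ℂ) ∈ Ku := by
          rw [key u]
          exact cobdry_inv_mem_orbSumZero hu _
        refine ⟨(0, -⟨_, hmem⟩, 0), ?_⟩
        ext y
        rw [hΘ]
        simp
      · rw [Set.mem_singleton_iff] at hg
        subst hg
        have hmem : (Pi.single (g • x) (1 : ℂ) - Pi.single x 1 : X → ℂ) ∈ Kt := by
          rw [key g]
          exact cobdry_inv_mem_orbSumZero ht _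
        refine ⟨(0, 0, ⟨_, hmem⟩), ?_⟩
        ext y
        rw [hΘ]
        simp
  have hrange := card_le_finrank_add_one_of_sumZero_le (LinearMap.range Θ) hsum0
  have hM₀ := card_le_finrank_ker_eval_add_one (X := X) x₀
  have hKs := finrank_orbSumZero_add_card_le (X := X) s hns
  have hKu := finrank_orbSumZero_add_card_le (X := X) u hnu
  have hKt := finrank_orbSumZero_add_card_le (X := X) t hnt
  rw [Module.finrank_prod, Module.finrank_prod] at hrk
  rw [Module.finrank_prod] at hle1
  have hcard : Nat.card X = Fintype.card X := Nat.card_eq_fintype_card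
  have hpos : 0 < Fintype.card X := Fintype.card_pos_iff.mpr ⟨x₀⟩
  have hrk' : Module.finrank ℂ (LinearMap.range Θ) + Module.finrank ℂ (LinearMap.ker Θ)
      = Module.finrank ℂ Ks + (Module.finrank ℂ Ku + Module.finrank ℂ Kt) := hrk
  have hle1' : Module.finrank ℂ V + Module.finrank ℂ M₀
      ≤ Module.finrank ℂ (LinearMap.ker Θ) := hle1
  have hM₀' : Fintype.card X ≤ Module.finrank ℂ M₀ + 1 := hM₀
  have hKs' : Module.finrank ℂ Ks
      + Nat.card (MulAction.orbitRel.Quotient (Subgroup.zpowers s) X) ≤ Nat.card X := hKs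
  have hKu' : Module.finrank ℂ Ku
      + Nat.card (MulAction.orbitRel.Quotient (Subgroup.zpowers u) X) ≤ Nat.card X := hKu
  have hKt' : Module.finrank ℂ Kt
      + Nat.card (MulAction.orbitRel.Quotient (Subgroup.zpowers t) X) ≤ Nat.card X := hKt
  have hrange' : Fintype.card X ≤ Module.finrank ℂ (LinearMap.range Θ) + 1 := hrange
  clear_value Ks Ku Kt M₀ Θ
  clear hrk hle1 hM₀ hKs hKu hKt hrange
  omega

end Abstract

end Fermat.Agent.S21.ParBound
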