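import Mathlib
import Fermat.Prelude.Def_ModularCurve_PeriodMap
import Fermat.Agent.S21.ParBoundAbstract

/-!
# Upper bound for the dimension of the space of parabolic homomorphisms

For a finite-index subgroup `Γ ≤ SL(2, ℤ)` containing `-1`, with `X = SL(2, ℤ) ⧸ Γ`:
`dim_ℂ Hom_par(Γ, ℂ) + o(S) + o(S * T) + o(T) ≤ #X + 2`,
where `o(g)` is the number of orbits of `g` on `X`.
-/

set_option autoImplicit false
set_option linter.style.haveILetI false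

open scoped MatrixGroups
open ModularGroup ModularCurve.Period

namespace Fermat.Agent.S21.ParBound

variable (Γ : Subgroup SL(2, ℤ))

/-- The element `r(g x)⁻¹ g r(x)` of `Γ`, for the section `r = Quotient.out`. -/
noncomputable def gam (g : SL(2, ℤ)) (x : SL(2, ℤ) ⧸ Γ) : Γ :=
  ⟨(g • x).out⁻¹ * (g * x.out), by
    rw [← QuotientGroup.eq, QuotientGroup.out_eq']
    conv_lhs => rw [← QuotientGroup.out_eq' x]
    rfl⟩

theorem gam_coe (g : SL(2, ℤ)) (x : SL(2, ℤ) ⧸ Γ) :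
    ((gam Γ g x : Γ) : SL(2, ℤ)) = (g • x).out⁻¹ * (g * x.out) := rfl

theorem gam_mul (g h : SL(2, ℤ)) (x : SL(2, ℤ) ⧸ Γ) :
    gam Γ (g * h) x = gam Γ g (h • x) * gam Γ h x := by
  apply Subtype.ext
  simp only [gam_coe, Subgroup.coe_mul, mul_smul]
  group

/-- The cocycle attached to a homomorphism `φ : Γ → ℂ`. -/
noncomputable def coc (g : SL(2, ℤ)) :
    (Additive Γ →+ ℂ) →ₗ[ℂ] ((SL(2, ℤ) ⧸ Γ) → ℂ) where
  toFun φ x := φ (Additive.ofMul (gam Γ g x))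
  map_add' _ _ := rfl
  map_smul' _ _ := rfl

theorem coc_apply (g : SL(2, ℤ)) (φ : Additive Γ →+ ℂ) (x : SL(2, ℤ) ⧸ Γ) :
    coc Γ g φ x = φ (Additive.ofMul (gam Γ g x)) := rfl

theorem coc_mul (g h : SL(2, ℤ)) (φ : Additive Γ →+ ℂ) (x : SL(2, ℤ) ⧸ Γ) :
    coc Γ (g * h) φ x = coc Γ g φ (h • x) + coc Γ h φ x := by
  simp only [coc_apply, gam_mul, ofMul_mul, map_add]

variable {Γ}

/-- `-1` acts trivially on `SL(2, ℤ) ⧸ Γ` when `-1 ∈ Γ`. -/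
theorem neg_one_smul_eq (hneg : (-1 : SL(2, ℤ)) ∈ Γ) (x : SL(2, ℤ) ⧸ Γ) :
    (-1 : SL(2, ℤ)) • x = x := by
  induction x using QuotientGroup.induction_on with
  | H g =>
    rw [MulAction.Quotient.smul_mk, QuotientGroup.eq]
    have : ((-1 : SL(2, ℤ)) • g)⁻¹ * g = -1 := by
      rw [smul_eq_mul, mul_inv_rev]
      have h1 : (-1 : SL(2, ℤ))⁻¹ = -1 := by decide
      rw [h1, mul_neg, mul_one, neg_mul, inv_mul_cancel]
    rw [this]
    exact hneg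

theorem trace_conj_sq (a h : SL(2, ℤ))
    (htr : (h : Matrix (Fin 2) (Fin 2) ℤ).trace ^ 2 = 4) :
    ((a⁻¹ * (h * a) : SL(2, ℤ)) : Matrix (Fin 2) (Fin 2) ℤ).trace ^ 2 = 4 := by
  have : ((a⁻¹ * (h * a) : SL(2, ℤ)) : Matrix (Fin 2) (Fin 2) ℤ).trace
      = (h : Matrix (Fin 2) (Fin 2) ℤ).trace := by
    have e : h * a * a⁻¹ = h := by group
    rw [Matrix.SpecialLinearGroup.coe_mul, Matrix.trace_mul_comm,
      ← Matrix.SpecialLinearGroup.coe_mul, e]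
  rw [this, htr]

/-- The cocycle of a parabolic homomorphism vanishes at elements acting trivially on the cosets
and of trace `±2`. -/
theorem coc_eq_zero_of_trivial (φ : Additive Γ →+ ℂ) (hφ : IsParabolicHom Γ φ) (h : SL(2, ℤ))
    (htriv : ∀ x : SL(2, ℤ) ⧸ Γ, h • x = x)
    (htr : (h : Matrix (Fin 2) (Fin 2) ℤ).trace ^ 2 = 4) : coc Γ h φ = 0 := by
  ext x
  rw [coc_apply]
  apply hφ
  rw [gam_coe, htriv x]
  exact trace_conj_sq _ _ htr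

theorem coc_mem_orbSumZero (φ : Additive Γ →+ ℂ) (hφ : IsParabolicHom Γ φ) (g : SL(2, ℤ))
    (n : ℕ) (htriv : ∀ x : SL(2, ℤ) ⧸ Γ, g ^ n • x = x)
    (htr : ((g ^ n : SL(2, ℤ)) : Matrix (Fin 2) (Fin 2) ℤ).trace ^ 2 = 4) :
    coc Γ g φ ∈ orbSumZero (X := SL(2, ℤ) ⧸ Γ) g n := by
  intro x
  have h1 := cocycle_pow (fun g φ => coc Γ g φ) (fun g h v x => coc_mul Γ g h v x) g φ n x
  have h2 := coc_eq_zero_of_trivial φ hφ (g ^ n) htriv htr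
  rw [← h1, h2]
  rfl

theorem S_sq : (S : SL(2, ℤ)) ^ 2 = -1 := by decide

theorem ST_cube : ((S * T : SL(2, ℤ))) ^ 3 = -1 := by decide

theorem trace_neg_one_sq : (((-1 : SL(2, ℤ)) : Matrix (Fin 2) (Fin 2) ℤ)).trace ^ 2 = 4 := by
  decide

theorem trace_T_pow_sq (n : ℕ) :
    (((T ^ n : SL(2, ℤ)) : Matrix (Fin 2) (Fin 2) ℤ)).trace ^ 2 = 4 := by
  have := coe_T_zpow (n : ℤ)
  rw [zpow_natCast] at this
  rw [this, Matrix.trace_fin_two_of]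
  norm_num

/-- Faithfulness of the cocycle modulo coboundaries. -/
theorem coc_faithful (φ : Additive Γ →+ ℂ) (m : (SL(2, ℤ) ⧸ Γ) → ℂ)
    (h : ∀ (g : SL(2, ℤ)) (x : SL(2, ℤ) ⧸ Γ), coc Γ g φ x + (m (g • x) - m x) = 0) : φ = 0 := by
  let x₀ : SL(2, ℤ) ⧸ Γ := ((1 : SL(2, ℤ)) : SL(2, ℤ) ⧸ Γ)
  have hr₀ : x₀.out ∈ Γ := by
    have : ((x₀.out : SL(2, ℤ)) : SL(2, ℤ) ⧸ Γ) = ((1 : SL(2, ℤ)) : SL(2, ℤ) ⧸ Γ) :=
      QuotientGroup.out_eq' x₀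
    rw [QuotientGroup.eq] at this
    simpa using Γ.inv_mem this
  have hfix : ∀ γ : Γ, (γ : SL(2, ℤ)) • x₀ = x₀ := by
    intro γ
    show (γ : SL(2, ℤ)) • ((1 : SL(2, ℤ)) : SL(2, ℤ) ⧸ Γ) = _
    rw [MulAction.Quotient.smul_mk, QuotientGroup.eq]
    simp
  apply AddMonoidHom.ext
  intro a
  obtain ⟨γ, rfl⟩ : ∃ γ : Γ, Additive.ofMul γ = a := ⟨Additive.toMul a, rfl⟩
  have h1 := h (γ : SL(2, ℤ)) x₀
  rw [hfix γ, sub_self, add_zero, coc_apply] at h1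
  have h2 : gam Γ (γ : SL(2, ℤ)) x₀ = (⟨x₀.out, hr₀⟩ : Γ)⁻¹ * (γ * ⟨x₀.out, hr₀⟩) := by
    apply Subtype.ext
    rw [gam_coe, hfix γ]
    rfl
  rw [h2, ofMul_mul, ofMul_mul, ofMul_inv, map_add, map_add, map_neg] at h1
  simpa using h1

variable (Γ)

/-- **Upper bound for the dimension of the space of parabolic homomorphisms** of a finite-index
subgroup `Γ ∋ -1` of `SL(2, ℤ)`, in terms of the numbers of orbits of `S`, `S * T`, `T` on the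
cosets `SL(2, ℤ) ⧸ Γ`. -/
theorem parabolicHoms_bound [Γ.FiniteIndex] (hneg : (-1 : SL(2, ℤ)) ∈ Γ) :
    Module.Finite ℂ (parabolicHoms ℂ Γ ℂ) ∧
      Module.finrank ℂ (parabolicHoms ℂ Γ ℂ)
        + Nat.card (MulAction.orbitRel.Quotient (Subgroup.zpowers (S : SL(2, ℤ)))
            (SL(2, ℤ) ⧸ Γ))
        + Nat.card (MulAction.orbitRel.Quotient (Subgroup.zpowers (S * T : SL(2, ℤ)))
            (SL(2, ℤ) ⧸ Γ))
        + Nat.card (MulAction.orbitRel.Quotient (Subgroup.zpowers (T : SL(2, ℤ)))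
            (SL(2, ℤ) ⧸ Γ)) ≤ Nat.card (SL(2, ℤ) ⧸ Γ) + 2 := by
  classical
  haveI : Finite (SL(2, ℤ) ⧸ Γ) := Subgroup.finite_quotient_of_finiteIndex
  -- an exponent killing the permutation induced by `T`
  obtain ⟨nt, hnt, hT⟩ : ∃ nt : ℕ, 0 < nt ∧ ∀ x : SL(2, ℤ) ⧸ Γ, (T : SL(2, ℤ)) ^ nt • x = x := by
    haveI : Finite (Equiv.Perm (SL(2, ℤ) ⧸ Γ)) := inferInstance
    refine ⟨Nat.card (Equiv.Perm (SL(2, ℤ) ⧸ Γ)), Nat.card_pos, fun x => ?_⟩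
    have h1 : (MulAction.toPermHom SL(2, ℤ) (SL(2, ℤ) ⧸ Γ) (T : SL(2, ℤ)))
        ^ Nat.card (Equiv.Perm (SL(2, ℤ) ⧸ Γ)) = 1 := pow_card_eq_one'
    rw [← map_pow] at h1
    have := congrArg (fun σ : Equiv.Perm (SL(2, ℤ) ⧸ Γ) => σ x) h1
    simpa using this
  have hS : ∀ x : SL(2, ℤ) ⧸ Γ, (S : SL(2, ℤ)) ^ 2 • x = x := by
    intro x; rw [S_sq]; exact neg_one_smul_eq hneg x
  have hU : ∀ x : SL(2, ℤ) ⧸ Γ, (S * T : SL(2, ℤ)) ^ 3 • x = x := by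
    intro x; rw [ST_cube]; exact neg_one_smul_eq hneg x
  exact abstract_bound (G := SL(2, ℤ)) (X := SL(2, ℤ) ⧸ Γ)
    ((1 : SL(2, ℤ)) : SL(2, ℤ) ⧸ Γ) (V := parabolicHoms ℂ Γ ℂ)
    S T SpecialLinearGroup.SL2Z_generators
    (ns := 2) (nu := 3) (nt := nt) (by norm_num) (by norm_num) hnt hS hU hT
    (fun g => (coc Γ g).comp (parabolicHoms ℂ Γ ℂ).subtype)
    (fun g h v x => coc_mul Γ g h v x)
    (fun v => coc_mem_orbSumZero (v : Additive Γ →+ ℂ) v.2 S 2 hS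
      (by rw [S_sq]; exact trace_neg_one_sq))
    (fun v => coc_mem_orbSumZero (v : Additive Γ →+ ℂ) v.2 (S * T) 3 hU
      (by rw [ST_cube]; exact trace_neg_one_sq))
    (fun v => coc_mem_orbSumZero (v : Additive Γ →+ ℂ) v.2 T nt hT (trace_T_pow_sq nt))
    (fun v m h => Subtype.ext (coc_faithful (v : Additive Γ →+ ℂ) m h))

end Fermat.Agent.S21.ParBound
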