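import Mathlib
import Fermat.Prelude.Def_ModularCurve_PeriodHomPair
import Fermat.Prelude.Def_ModularCurve_GenusNumerics
import Fermat.Agent.S21.ParBound

/-!
# Assembly of S21 (Eichler–Shimura) from its pieces

`result_of_pieces`: injectivity of `periodHomPair`, `range ≤ parabolicHoms`, and the dimension
inequality `dim Hom_par ≤ 2 dim S₂` give the full statement.

`finrank_parabolicHoms_le_of_counts`: the dimension inequality from the dimension formula (S20)
and the orbit counts on `SL(2, ℤ) ⧸ Γ₀(N)`.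
-/

set_option autoImplicit false
set_option linter.style.haveILetI false

open scoped MatrixGroups
open ModularGroup ModularCurve ModularCurve.Period CongruenceSubgroup

namespace Fermat.Agent.S21.ParBound

theorem neg_one_mem_Gamma0 (N : ℕ) : (-1 : SL(2, ℤ)) ∈ Gamma0 N := by
  rw [Gamma0_mem]
  simp

/-- `Hom_par(Γ₀(N), ℂ)` is finite-dimensional. -/
theorem finite_parabolicHoms_Gamma0 (N : ℕ) [NeZero N] :
    Module.Finite ℂ (parabolicHoms ℂ (Gamma0 N) ℂ) :=
  (parabolicHoms_bound (Gamma0 N) (neg_one_mem_Gamma0 N)).1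

/-- Orbit-count form of the bound for `Γ₀(N)`. -/
theorem finrank_parabolicHoms_Gamma0_add_le (N : ℕ) [NeZero N] :
    Module.finrank ℂ (parabolicHoms ℂ (Gamma0 N) ℂ)
        + Nat.card (MulAction.orbitRel.Quotient (Subgroup.zpowers (S : SL(2, ℤ)))
            (SL(2, ℤ) ⧸ Gamma0 N))
        + Nat.card (MulAction.orbitRel.Quotient (Subgroup.zpowers (S * T : SL(2, ℤ)))
            (SL(2, ℤ) ⧸ Gamma0 N))
        + Nat.card (MulAction.orbitRel.Quotient (Subgroup.zpowers (T : SL(2, ℤ)))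
            (SL(2, ℤ) ⧸ Gamma0 N)) ≤ Nat.card (SL(2, ℤ) ⧸ Gamma0 N) + 2 :=
  (parabolicHoms_bound (Gamma0 N) (neg_one_mem_Gamma0 N)).2

/-- The dimension inequality `dim Hom_par ≤ 2 · dim S₂` from the dimension formula and the orbit
counts. -/
theorem finrank_parabolicHoms_le_of_counts (N : ℕ) [NeZero N]
    (hS20 : (Module.finrank ℂ (CuspForm (Gamma0 N) 2) : ℚ) = genusFormula N)
    (hμ : Nat.card (SL(2, ℤ) ⧸ Gamma0 N) = dedekindPsi N)
    (hoS : 2 * Nat.card (MulAction.orbitRel.Quotient (Subgroup.zpowers (S : SL(2, ℤ)))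
        (SL(2, ℤ) ⧸ Gamma0 N)) = dedekindPsi N + nuTwo N)
    (hoU : 3 * Nat.card (MulAction.orbitRel.Quotient (Subgroup.zpowers (S * T : SL(2, ℤ)))
        (SL(2, ℤ) ⧸ Gamma0 N)) = dedekindPsi N + 2 * nuThree N)
    (hoT : Nat.card (MulAction.orbitRel.Quotient (Subgroup.zpowers (T : SL(2, ℤ)))
        (SL(2, ℤ) ⧸ Gamma0 N)) = cuspCount N) :
    Module.finrank ℂ (parabolicHoms ℂ (Gamma0 N) ℂ)
      ≤ 2 * Module.finrank ℂ (CuspForm (Gamma0 N) 2) := by
  have h := finrank_parabolicHoms_Gamma0_add_le N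
  rw [hμ, hoT] at h
  have hq : ((Module.finrank ℂ (parabolicHoms ℂ (Gamma0 N) ℂ) : ℕ) : ℚ)
      ≤ 2 * (Module.finrank ℂ (CuspForm (Gamma0 N) 2) : ℚ) := by
    rw [hS20, genusFormula]
    have h' : ((Module.finrank ℂ (parabolicHoms ℂ (Gamma0 N) ℂ) : ℕ) : ℚ)
        + (Nat.card (MulAction.orbitRel.Quotient (Subgroup.zpowers (S : SL(2, ℤ)))
            (SL(2, ℤ) ⧸ Gamma0 N)) : ℚ)
        + (Nat.card (MulAction.orbitRel.Quotient (Subgroup.zpowers (S * T : SL(2, ℤ)))
            (SL(2, ℤ) ⧸ Gamma0 N)) : ℚ)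
        + (cuspCount N : ℚ) ≤ (dedekindPsi N : ℚ) + 2 := by
      exact_mod_cast h
    have hoS' : (2 : ℚ) * (Nat.card (MulAction.orbitRel.Quotient
        (Subgroup.zpowers (S : SL(2, ℤ))) (SL(2, ℤ) ⧸ Gamma0 N)) : ℚ)
        = (dedekindPsi N : ℚ) + (nuTwo N : ℚ) := by exact_mod_cast hoS
    have hoU' : (3 : ℚ) * (Nat.card (MulAction.orbitRel.Quotient
        (Subgroup.zpowers (S * T : SL(2, ℤ))) (SL(2, ℤ) ⧸ Gamma0 N)) : ℚ)
        = (dedekindPsi N : ℚ) + 2 * (nuThree N : ℚ) := by exact_mod_cast hoU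
    linarith
  exact_mod_cast hq

/-- **Assembly of S21**: injectivity + `range ≤ parabolicHoms` + dimension inequality. -/
theorem result_of_pieces (N : ℕ) [NeZero N]
    (hinj : Function.Injective (periodHomPair N))
    (hrange : LinearMap.range (periodHomPair N) ≤ parabolicHoms ℂ (Gamma0 N) ℂ)
    (hdim : Module.finrank ℂ (parabolicHoms ℂ (Gamma0 N) ℂ)
      ≤ 2 * Module.finrank ℂ (CuspForm (Gamma0 N) 2)) :
    Function.Injective (periodHomPair N)
      ∧ LinearMap.range (periodHomPair N) = parabolicHoms ℂ (Gamma0 N) ℂ := by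
  refine ⟨hinj, ?_⟩
  haveI hfin : Module.Finite ℂ (parabolicHoms ℂ (Gamma0 N) ℂ) := finite_parabolicHoms_Gamma0 N
  -- the source is finite-dimensional, because it injects into `Hom_par`
  have hmem : ∀ p, periodHomPair N p ∈ parabolicHoms ℂ (Gamma0 N) ℂ :=
    fun p => hrange (LinearMap.mem_range_self _ p)
  let P := (periodHomPair N).codRestrict (parabolicHoms ℂ (Gamma0 N) ℂ) hmem
  have hPinj : Function.Injective P := by
    intro a b hab
    apply hinj
    have := congrArg Subtype.val hab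
    simpa [P] using this
  haveI hfin2 : Module.Finite ℂ (CuspForm (Gamma0 N) 2 × CuspForm (Gamma0 N) 2) :=
    Module.Finite.of_injective P hPinj
  haveI hfin1 : Module.Finite ℂ (CuspForm (Gamma0 N) 2) :=
    Module.Finite.of_injective (LinearMap.inl ℂ (CuspForm (Gamma0 N) 2) (CuspForm (Gamma0 N) 2))
      LinearMap.inl_injective
  have hrk : Module.finrank ℂ (LinearMap.range (periodHomPair N))
      = 2 * Module.finrank ℂ (CuspForm (Gamma0 N) 2) := by
    rw [LinearMap.finrank_range_of_inj hinj, Module.finrank_prod]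
    ring
  apply Submodule.eq_of_le_of_finrank_le hrange
  rw [hrk]
  exact hdim

end Fermat.Agent.S21.ParBound
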