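import Fermat.Agent.S21.Defs

/-!
# S21 — basic lemmas about `dz`, `mob`, `cd`
-/

set_option autoImplicit false

open UpperHalfPlane Filter Topology
open scoped MatrixGroups ContDiff

namespace Fermat.Agent.S21

theorem mob_coe (g : SL(2, ℤ)) (z : ℍ) : mob g (z : ℂ) = ((g • z : ℍ) : ℂ) := by
  simp [mob, ofComplex_apply]

theorem mob_mem_Uhp (g : SL(2, ℤ)) (z : ℂ) : mob g z ∈ Uhp :=
  (g • ofComplex z).im_pos

theorem ofComplex_coe_of_mem {z : ℂ} (hz : z ∈ Uhp) : ((ofComplex z : ℍ) : ℂ) = z := by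
  rw [ofComplex_apply_of_im_pos hz]

theorem mob_eq_div (g : SL(2, ℤ)) {z : ℂ} (hz : z ∈ Uhp) :
    mob g z = (((g 0 0 : ℤ) : ℂ) * z + ((g 0 1 : ℤ) : ℂ)) / cd g z := by
  have h := UpperHalfPlane.specialLinearGroup_apply g (ofComplex z)
  have h2 : ((g • ofComplex z : ℍ) : ℂ) = _ := congrArg UpperHalfPlane.coe h
  rw [mob, h2]
  simp [cd, ofComplex_coe_of_mem hz]

theorem cd_ne_zero (g : SL(2, ℤ)) {z : ℂ} (hz : z ∈ Uhp) : cd g z ≠ 0 := by
  have h := UpperHalfPlane.denom_ne_zero (Matrix.SpecialLinearGroup.toGL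
    ((Matrix.SpecialLinearGroup.map (Int.castRingHom ℝ)) g)) (⟨z, hz⟩ : ℍ)
  have h2 := ModularGroup.denom_apply g (⟨z, hz⟩ : ℍ)
  rw [h2] at h
  exact h

theorem continuousOn_cd (g : SL(2, ℤ)) (s : Set ℂ) : ContinuousOn (cd g) s := by
  unfold cd
  fun_prop

theorem continuous_cd (g : SL(2, ℤ)) : Continuous (cd g) := by
  unfold cd
  fun_prop

theorem continuousOn_mob (g : SL(2, ℤ)) : ContinuousOn (mob g) Uhp := by
  have : Set.EqOn (mob g)
      (fun z => (((g 0 0 : ℤ) : ℂ) * z + ((g 0 1 : ℤ) : ℂ)) / cd g z) Uhp :=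
    fun z hz => mob_eq_div g hz
  refine ContinuousOn.congr ?_ this
  refine ContinuousOn.div (by fun_prop) (continuousOn_cd g _) fun z hz => cd_ne_zero g hz

theorem mob_one (z : ℂ) (hz : z ∈ Uhp) : mob 1 z = z := by
  simp [mob, ofComplex_coe_of_mem hz]

theorem mob_mul (g h : SL(2, ℤ)) (z : ℂ) : mob (g * h) z = mob g (mob h z) := by
  simp only [mob, ofComplex_apply, mul_smul]

theorem continuousOn_dz {u : ℂ → ℝ} (hu : ContDiffOn ℝ 1 u Uhp) : ContinuousOn (dz u) Uhp := by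
  have h1 : ContinuousOn (fderiv ℝ u) Uhp := hu.continuousOn_fderiv_of_isOpen isOpen_Uhp le_rfl
  have h2 : ContinuousOn (fun z => fderiv ℝ u z 1) Uhp :=
    (ContinuousLinearMap.apply ℝ ℝ (1 : ℂ)).continuous.comp_continuousOn h1
  have h3 : ContinuousOn (fun z => fderiv ℝ u z Complex.I) Uhp :=
    (ContinuousLinearMap.apply ℝ ℝ Complex.I).continuous.comp_continuousOn h1
  unfold dz
  exact (Complex.continuous_ofReal.comp_continuousOn h2).sub
    (continuousOn_const.mul (Complex.continuous_ofReal.comp_continuousOn h3))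

theorem dz_add {u v : ℂ → ℝ} {z : ℂ} (hu : DifferentiableAt ℝ u z) (hv : DifferentiableAt ℝ v z) :
    dz (fun w => u w + v w) z = dz u z + dz v z := by
  unfold dz
  have : fderiv ℝ (fun w => u w + v w) z = fderiv ℝ u z + fderiv ℝ v z := fderiv_add hu hv
  rw [this]
  simp only [add_apply]
  push_cast
  ring

theorem dz_sub {u v : ℂ → ℝ} {z : ℂ} (hu : DifferentiableAt ℝ u z) (hv : DifferentiableAt ℝ v z) :
    dz (fun w => u w - v w) z = dz u z - dz v z := by
  unfold dz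
  have : fderiv ℝ (fun w => u w - v w) z = fderiv ℝ u z - fderiv ℝ v z := fderiv_sub hu hv
  rw [this]
  simp only [sub_apply]
  push_cast
  ring

theorem dz_congr {u v : ℂ → ℝ} {z : ℂ} (h : u =ᶠ[𝓝 z] v) : dz u z = dz v z := by
  unfold dz
  rw [h.fderiv_eq]

theorem dz_add_const (u : ℂ → ℝ) (c : ℝ) (z : ℂ) : dz (fun w => u w + c) z = dz u z := by
  unfold dz
  rw [fderiv_add_const]

/-- `dz` of the real part of a holomorphic function is its derivative. -/
theorem dz_re_of_hasDerivAt {Q : ℂ → ℂ} {q z : ℂ} (h : HasDerivAt Q q z) :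
    dz (fun w => (Q w).re) z = q := by
  have h1 : HasFDerivAt Q ((ContinuousLinearMap.smulRight (1 : ℂ →L[ℂ] ℂ) q).restrictScalars ℝ) z :=
    h.hasFDerivAt.restrictScalars ℝ
  have h2 : HasFDerivAt (fun w => (Q w).re)
      (Complex.reCLM.comp ((ContinuousLinearMap.smulRight (1 : ℂ →L[ℂ] ℂ) q).restrictScalars ℝ)) z :=
    Complex.reCLM.hasFDerivAt.comp z h1
  unfold dz
  rw [h2.fderiv]
  apply Complex.ext <;> simp

theorem norm_dz_sq (u : ℂ → ℝ) (z : ℂ) :
    ‖dz u z‖ ^ 2 = (fderiv ℝ u z 1) ^ 2 + (fderiv ℝ u z Complex.I) ^ 2 := by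
  rw [← Complex.normSq_eq_norm_sq, Complex.normSq_apply]
  simp [dz]
  ring

end Fermat.Agent.S21
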