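import Fermat.Agent.S21.Basic
import Fermat.Agent.S21.Small

/-!
# S21 — basic lemmas (continued): the cusp strip, weight-2 invariance of `dz u`
-/

set_option autoImplicit false

open UpperHalfPlane Filter Topology MeasureTheory
open scoped MatrixGroups ContDiff

namespace Fermat.Agent.S21

theorem strip_subset_Uhp (Y : ℝ) : strip Y ⊆ Uhp := fun z hz => by
  have := hz.2.1
  show 0 < z.im
  linarith

theorem isCompact_strip (Y : ℝ) : IsCompact (strip Y) := by
  have h : strip Y = Complex.equivRealProdCLM.symm '' (Set.Icc (-1 : ℝ) 1 ×ˢ Set.Icc (2 : ℝ) Y) := by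
    ext z
    simp only [strip, Set.mem_ofPred_eq, Set.mem_image, Set.mem_prod, Set.mem_Icc, Prod.exists]
    constructor
    · rintro ⟨h1, h2, h3⟩
      refine ⟨z.re, z.im, ⟨abs_le.mp h1, h2, h3⟩, ?_⟩
      apply Complex.ext <;> simp
    · rintro ⟨a, b, ⟨h1, h2, h3⟩, rfl⟩
      simp only [Complex.equivRealProdCLM_symm_apply_re, Complex.equivRealProdCLM_symm_apply_im]
      exact ⟨abs_le.mpr h1, h2, h3⟩
  rw [h]
  exact (isCompact_Icc.prod isCompact_Icc).image Complex.equivRealProdCLM.symm.continuous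

/-- weight-2 invariance of `dz u` for `u` with a period along `γ`. -/
theorem asm_dz_inv {u : ℂ → ℝ} (hu : ContDiffOn ℝ 1 u Uhp) (c : ℝ) (γ : SL(2, ℤ))
    (hper : ∀ z : ℍ, u ↑(γ • z) = u ↑z + c) {z : ℂ} (hz : z ∈ Uhp) :
    dz u (mob γ z) = (cd γ z) ^ 2 * dz u z := by
  have h1 : (fun w => u (mob γ w)) =ᶠ[𝓝 z] fun w => u w + c := by
    filter_upwards [isOpen_Uhp.mem_nhds hz] with w hw
    have := hper ⟨w, hw⟩
    rw [← mob_coe] at this
    exact this
  have h2 := dz_congr h1
  rw [dz_add_const] at h2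
  have hd : DifferentiableAt ℝ u (mob γ z) :=
    (hu.differentiableOn one_ne_zero).differentiableAt (isOpen_Uhp.mem_nhds (mob_mem_Uhp γ z))
  rw [dz_comp_mob u γ z hz hd] at h2
  have hne := cd_ne_zero γ hz
  rw [← h2]
  field_simp


end Fermat.Agent.S21
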