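import Mathlib
import Fermat.Prelude.Def_ModularCurve_PeriodHomPair
import Fermat.Prelude.Def_ModularCurve_GenusNumerics
import Fermat.Agent.S21.Assembly
import Fermat.Agent.S20.H872.Index
import Fermat.Agent.S20.CuspCount360

/-!
# Orbit counts on `SL(2, ℤ) ⧸ Γ₀(N)` for `⟨S⟩`, `⟨S T⟩`, `⟨T⟩`

Burnside's lemma for the finite cyclic groups `⟨S⟩` (order 4) and `⟨S T⟩` (order 6), combined with
the fixed-point counts `ν₂`, `ν₃` (helper872) and the cusp count (helper360), gives the three orbit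
counts that enter the dimension count of `Hom_par(Γ₀(N), ℂ)`.
-/

set_option autoImplicit false
set_option linter.style.haveILetI false

open scoped MatrixGroups
open ModularGroup ModularCurve ModularCurve.Period CongruenceSubgroup

namespace Fermat.Agent.S21.ParBound

/-- Burnside's lemma for the cyclic group generated by an element of finite order, with the sum
written over `Finset.range (orderOf g)` and all cardinalities as `Nat.card`. -/
theorem sum_card_fixed_zpowers {G X : Type*} [Group G] [MulAction G X] [Finite X] (g : G)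
    (hg : IsOfFinOrder g) :
    ∑ k ∈ Finset.range (orderOf g), Nat.card {x : X // g ^ k • x = x}
      = Nat.card (MulAction.orbitRel.Quotient (Subgroup.zpowers g) X) * orderOf g := by
  classical
  haveI : Fintype X := Fintype.ofFinite X
  haveI : Fintype (Subgroup.zpowers g) :=
    Fintype.ofEquiv _ (finEquivZPowers hg)
  haveI : Fintype (MulAction.orbitRel.Quotient (Subgroup.zpowers g) X) := Fintype.ofFinite _
  have hB := MulAction.sum_card_fixedBy_eq_card_orbits_mul_card_group (Subgroup.zpowers g) X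
  have hc : Fintype.card (Subgroup.zpowers g) = orderOf g := by
    rw [← Nat.card_eq_fintype_card, Nat.card_zpowers]
  rw [hc] at hB
  have hq : Nat.card (MulAction.orbitRel.Quotient (Subgroup.zpowers g) X)
      = Fintype.card (Quotient (MulAction.orbitRel (Subgroup.zpowers g) X)) :=
    Nat.card_eq_fintype_card
  rw [hq, ← hB, ← Fin.sum_univ_eq_sum_range
    (fun k => Nat.card {x : X // g ^ k • x = x}) (orderOf g)]
  refine Fintype.sum_equiv (finEquivZPowers hg) _ _ (fun k => ?_)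
  rw [← Nat.card_eq_fintype_card]
  rfl

theorem orderOf_S : orderOf (S : SL(2, ℤ)) = 4 := by
  refine orderOf_eq_of_pow_and_pow_div_prime (by norm_num) (by decide) ?_
  intro p hp hp4
  have : p = 2 := by
    have := (Nat.prime_dvd_prime_iff_eq hp Nat.prime_two).mp
      (hp.dvd_of_dvd_pow (show p ∣ 2 ^ 2 by simpa using hp4))
    exact this
  subst this
  decide

theorem orderOf_ST : orderOf (S * T : SL(2, ℤ)) = 6 := by
  refine orderOf_eq_of_pow_and_pow_div_prime (by norm_num) (by decide) ?_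
  intro p hp hp6
  have h23 : p = 2 ∨ p = 3 := by
    have h : p ∣ 2 * 3 := by simpa using hp6
    rcases (Nat.Prime.dvd_mul hp).mp h with h | h
    · exact Or.inl ((Nat.prime_dvd_prime_iff_eq hp Nat.prime_two).mp h)
    · exact Or.inr ((Nat.prime_dvd_prime_iff_eq hp Nat.prime_three).mp h)
  rcases h23 with rfl | rfl <;> decide

variable {Γ : Subgroup SL(2, ℤ)}

/-- If `h = ± g` then `h` and `g` act in the same way on `SL(2, ℤ) ⧸ Γ` (when `-1 ∈ Γ`). -/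
theorem neg_smul_eq (hneg : (-1 : SL(2, ℤ)) ∈ Γ) (g : SL(2, ℤ)) (x : SL(2, ℤ) ⧸ Γ) :
    (-g) • x = g • x := by
  have : (-g : SL(2, ℤ)) = g * (-1) := by rw [mul_neg, mul_one]
  rw [this, mul_smul, neg_one_smul_eq hneg]

/-- `2 · #(⟨S⟩-orbits) = #X + #Fix(S)`. -/
theorem two_mul_card_orbits_S_eq [Γ.FiniteIndex] (hneg : (-1 : SL(2, ℤ)) ∈ Γ) :
    2 * Nat.card (MulAction.orbitRel.Quotient (Subgroup.zpowers (S : SL(2, ℤ)))
        (SL(2, ℤ) ⧸ Γ))
      = Nat.card (SL(2, ℤ) ⧸ Γ) + Nat.card {x : SL(2, ℤ) ⧸ Γ // (S : SL(2, ℤ)) • x = x} := by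
  haveI : Finite (SL(2, ℤ) ⧸ Γ) := Subgroup.finite_quotient_of_finiteIndex
  have hfin : IsOfFinOrder (S : SL(2, ℤ)) := by
    rw [← orderOf_pos_iff, orderOf_S]; norm_num
  have h := sum_card_fixed_zpowers (X := SL(2, ℤ) ⧸ Γ) (S : SL(2, ℤ)) hfin
  rw [orderOf_S] at h
  simp only [Finset.sum_range_succ, Finset.sum_range_zero, zero_add] at h
  have e0 : Nat.card {x : SL(2, ℤ) ⧸ Γ // (S : SL(2, ℤ)) ^ 0 • x = x}
      = Nat.card (SL(2, ℤ) ⧸ Γ) :=
    Nat.card_congr (Equiv.subtypeUnivEquiv (fun x => by simp))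
  have e1 : Nat.card {x : SL(2, ℤ) ⧸ Γ // (S : SL(2, ℤ)) ^ 1 • x = x}
      = Nat.card {x : SL(2, ℤ) ⧸ Γ // (S : SL(2, ℤ)) • x = x} := by
    simp only [pow_one]
  have e2 : Nat.card {x : SL(2, ℤ) ⧸ Γ // (S : SL(2, ℤ)) ^ 2 • x = x}
      = Nat.card (SL(2, ℤ) ⧸ Γ) :=
    Nat.card_congr (Equiv.subtypeUnivEquiv (fun x => by
      rw [S_sq]; exact neg_one_smul_eq hneg x))
  have e3 : Nat.card {x : SL(2, ℤ) ⧸ Γ // (S : SL(2, ℤ)) ^ 3 • x = x}
      = Nat.card {x : SL(2, ℤ) ⧸ Γ // (S : SL(2, ℤ)) • x = x} := by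
    refine Nat.card_congr (Equiv.subtypeEquivRight (fun x => ?_))
    have : (S : SL(2, ℤ)) ^ 3 = -S := by decide
    rw [this, neg_smul_eq hneg]
  rw [e0, e1, e2, e3] at h
  have h2 : Nat.card (SL(2, ℤ) ⧸ Γ) + Nat.card {x : SL(2, ℤ) ⧸ Γ // (S : SL(2, ℤ)) • x = x}
      + Nat.card (SL(2, ℤ) ⧸ Γ) + Nat.card {x : SL(2, ℤ) ⧸ Γ // (S : SL(2, ℤ)) • x = x}
      = Nat.card (MulAction.orbitRel.Quotient (Subgroup.zpowers (S : SL(2, ℤ)))
        (SL(2, ℤ) ⧸ Γ)) * 4 := h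
  omega

/-- `3 · #(⟨S T⟩-orbits) = #X + 2 · #Fix(S T)`. -/
theorem three_mul_card_orbits_ST_eq [Γ.FiniteIndex] (hneg : (-1 : SL(2, ℤ)) ∈ Γ) :
    3 * Nat.card (MulAction.orbitRel.Quotient (Subgroup.zpowers (S * T : SL(2, ℤ)))
        (SL(2, ℤ) ⧸ Γ))
      = Nat.card (SL(2, ℤ) ⧸ Γ)
        + 2 * Nat.card {x : SL(2, ℤ) ⧸ Γ // (S * T : SL(2, ℤ)) • x = x} := by
  haveI : Finite (SL(2, ℤ) ⧸ Γ) := Subgroup.finite_quotient_of_finiteIndex
  have hfin : IsOfFinOrder (S * T : SL(2, ℤ)) := by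
    rw [← orderOf_pos_iff, orderOf_ST]; norm_num
  have h := sum_card_fixed_zpowers (X := SL(2, ℤ) ⧸ Γ) (S * T : SL(2, ℤ)) hfin
  rw [orderOf_ST] at h
  simp only [Finset.sum_range_succ, Finset.sum_range_zero, zero_add] at h
  -- `U⁻¹` fixes the same points as `U`
  have hinv : ∀ x : SL(2, ℤ) ⧸ Γ,
      ((S * T : SL(2, ℤ))⁻¹ • x = x ↔ (S * T : SL(2, ℤ)) • x = x) := by
    intro x
    rw [inv_smul_eq_iff]
    exact eq_comm
  have e0 : Nat.card {x : SL(2, ℤ) ⧸ Γ // (S * T : SL(2, ℤ)) ^ 0 • x = x}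
      = Nat.card (SL(2, ℤ) ⧸ Γ) :=
    Nat.card_congr (Equiv.subtypeUnivEquiv (fun x => by simp))
  have e1 : Nat.card {x : SL(2, ℤ) ⧸ Γ // (S * T : SL(2, ℤ)) ^ 1 • x = x}
      = Nat.card {x : SL(2, ℤ) ⧸ Γ // (S * T : SL(2, ℤ)) • x = x} := by
    simp only [pow_one]
  have e2 : Nat.card {x : SL(2, ℤ) ⧸ Γ // (S * T : SL(2, ℤ)) ^ 2 • x = x}
      = Nat.card {x : SL(2, ℤ) ⧸ Γ // (S * T : SL(2, ℤ)) • x = x} := by
    refine Nat.card_congr (Equiv.subtypeEquivRight (fun x => ?_))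
    have : (S * T : SL(2, ℤ)) ^ 2 = -(S * T : SL(2, ℤ))⁻¹ := by decide
    rw [this, neg_smul_eq hneg, hinv]
  have e3 : Nat.card {x : SL(2, ℤ) ⧸ Γ // (S * T : SL(2, ℤ)) ^ 3 • x = x}
      = Nat.card (SL(2, ℤ) ⧸ Γ) :=
    Nat.card_congr (Equiv.subtypeUnivEquiv (fun x => by
      rw [ST_cube]; exact neg_one_smul_eq hneg x))
  have e4 : Nat.card {x : SL(2, ℤ) ⧸ Γ // (S * T : SL(2, ℤ)) ^ 4 • x = x}
      = Nat.card {x : SL(2, ℤ) ⧸ Γ // (S * T : SL(2, ℤ)) • x = x} := by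
    refine Nat.card_congr (Equiv.subtypeEquivRight (fun x => ?_))
    have : (S * T : SL(2, ℤ)) ^ 4 = -(S * T : SL(2, ℤ)) := by decide
    rw [this, neg_smul_eq hneg]
  have e5 : Nat.card {x : SL(2, ℤ) ⧸ Γ // (S * T : SL(2, ℤ)) ^ 5 • x = x}
      = Nat.card {x : SL(2, ℤ) ⧸ Γ // (S * T : SL(2, ℤ)) • x = x} := by
    refine Nat.card_congr (Equiv.subtypeEquivRight (fun x => ?_))
    have : (S * T : SL(2, ℤ)) ^ 5 = (S * T : SL(2, ℤ))⁻¹ := by decide
    rw [this, hinv]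
  rw [e0, e1, e2, e3, e4, e5] at h
  have h2 : Nat.card (SL(2, ℤ) ⧸ Γ)
      + Nat.card {x : SL(2, ℤ) ⧸ Γ // (S * T : SL(2, ℤ)) • x = x}
      + Nat.card {x : SL(2, ℤ) ⧸ Γ // (S * T : SL(2, ℤ)) • x = x}
      + Nat.card (SL(2, ℤ) ⧸ Γ)
      + Nat.card {x : SL(2, ℤ) ⧸ Γ // (S * T : SL(2, ℤ)) • x = x}
      + Nat.card {x : SL(2, ℤ) ⧸ Γ // (S * T : SL(2, ℤ)) • x = x}
      = Nat.card (MulAction.orbitRel.Quotient (Subgroup.zpowers (S * T : SL(2, ℤ)))
        (SL(2, ℤ) ⧸ Γ)) * 6 := h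
  omega

/-! ### The counts for `Γ₀(N)` -/

theorem card_quot_Gamma0_eq (N : ℕ) [NeZero N] :
    Nat.card (SL(2, ℤ) ⧸ Gamma0 N) = dedekindPsi N :=
  Fermat.Agent.S20.H872.card_quot_Gamma0 N

theorem two_mul_card_orbits_S_Gamma0 (N : ℕ) [NeZero N] :
    2 * Nat.card (MulAction.orbitRel.Quotient (Subgroup.zpowers (S : SL(2, ℤ)))
        (SL(2, ℤ) ⧸ Gamma0 N)) = dedekindPsi N + nuTwo N := by
  rw [two_mul_card_orbits_S_eq (neg_one_mem_Gamma0 N), card_quot_Gamma0_eq,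
    Fermat.Agent.S20.H872.card_fixed_S]

theorem three_mul_card_orbits_ST_Gamma0 (N : ℕ) [NeZero N] :
    3 * Nat.card (MulAction.orbitRel.Quotient (Subgroup.zpowers (S * T : SL(2, ℤ)))
        (SL(2, ℤ) ⧸ Gamma0 N)) = dedekindPsi N + 2 * nuThree N := by
  rw [three_mul_card_orbits_ST_eq (neg_one_mem_Gamma0 N), card_quot_Gamma0_eq,
    Fermat.Agent.S20.H872.card_fixed_ST]

theorem card_orbits_T_Gamma0 (N : ℕ) [NeZero N] :
    Nat.card (MulAction.orbitRel.Quotient (Subgroup.zpowers (T : SL(2, ℤ)))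
        (SL(2, ℤ) ⧸ Gamma0 N)) = cuspCount N :=
  Fermat.Agent.S20.CuspCount360.card_orbits_T N

/-- **Upper bound** `dim Hom_par(Γ₀(N), ℂ) ≤ 2 · genusFormula N` (unconditional). -/
theorem finrank_parabolicHoms_le_genusFormula (N : ℕ) [NeZero N] :
    (Module.finrank ℂ (parabolicHoms ℂ (Gamma0 N) ℂ) : ℚ) ≤ 2 * genusFormula N := by
  have h := finrank_parabolicHoms_Gamma0_add_le N
  rw [card_quot_Gamma0_eq, card_orbits_T_Gamma0] at h
  have h' : ((Module.finrank ℂ (parabolicHoms ℂ (Gamma0 N) ℂ) : ℕ) : ℚ)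
      + (Nat.card (MulAction.orbitRel.Quotient (Subgroup.zpowers (S : SL(2, ℤ)))
          (SL(2, ℤ) ⧸ Gamma0 N)) : ℚ)
      + (Nat.card (MulAction.orbitRel.Quotient (Subgroup.zpowers (S * T : SL(2, ℤ)))
          (SL(2, ℤ) ⧸ Gamma0 N)) : ℚ)
      + (cuspCount N : ℚ) ≤ (dedekindPsi N : ℚ) + 2 := by
    exact_mod_cast h
  have hoS' : (2 : ℚ) * (Nat.card (MulAction.orbitRel.Quotient
      (Subgroup.zpowers (S : SL(2, ℤ))) (SL(2, ℤ) ⧸ Gamma0 N)) : ℚ)
      = (dedekindPsi N : ℚ) + (nuTwo N : ℚ) := by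
    exact_mod_cast two_mul_card_orbits_S_Gamma0 N
  have hoU' : (3 : ℚ) * (Nat.card (MulAction.orbitRel.Quotient
      (Subgroup.zpowers (S * T : SL(2, ℤ))) (SL(2, ℤ) ⧸ Gamma0 N)) : ℚ)
      = (dedekindPsi N : ℚ) + 2 * (nuThree N : ℚ) := by
    exact_mod_cast three_mul_card_orbits_ST_Gamma0 N
  rw [genusFormula]
  linarith

/-- The dimension inequality `dim Hom_par ≤ 2 · dim S₂`, from the dimension formula (S20). -/
theorem finrank_parabolicHoms_le_of_S20 (N : ℕ) [NeZero N]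
    (hS20 : (Module.finrank ℂ (CuspForm (Gamma0 N) 2) : ℚ) = genusFormula N) :
    Module.finrank ℂ (parabolicHoms ℂ (Gamma0 N) ℂ)
      ≤ 2 * Module.finrank ℂ (CuspForm (Gamma0 N) 2) :=
  finrank_parabolicHoms_le_of_counts N hS20 (card_quot_Gamma0_eq N)
    (two_mul_card_orbits_S_Gamma0 N) (three_mul_card_orbits_ST_Gamma0 N)
    (card_orbits_T_Gamma0 N)

end Fermat.Agent.S21.ParBound
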