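import Mathlib
import Fermat.Prelude.Def_ModularCurve_PeriodHomPair
import Fermat.Prelude.Def_ModularCurve_GenusNumerics
import Fermat.Agent.S21.OrbitCounts
import Fermat.Agent.S21.H381.Parabolic
import Fermat.Agent.S21.H81.Inj

/-!
# S21 from S20, and S20 from S21 + the lower bound for `Hom_par`

* `result_of_S20` : the dimension formula `dim S₂(Γ₀(N)) = genusFormula N` (statement S20)
  implies the Eichler–Shimura statement S21 (injectivity by helper81, range ≤ parabolic and
  primitives by helper381, upper bound `dim Hom_par ≤ 2 g` by helper261, counts by helper872 and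
  helper360).
* `S20_of_S21_of_lowerBound` : conversely S21 together with the lower bound
  `#X + 2 ≤ dim Hom_par + o(S) + o(ST) + o(T)` gives S20.
-/

set_option autoImplicit false
set_option linter.style.haveILetI false

open scoped MatrixGroups
open ModularGroup ModularCurve ModularCurve.Period CongruenceSubgroup

namespace Fermat.Agent.S21.ParBound

/-- **S20 ⟹ S21.** -/
theorem result_of_S20 (N : ℕ) [NeZero N]
    (hS20 : (Module.finrank ℂ (CuspForm (Gamma0 N) 2) : ℚ) = genusFormula N) :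
    Function.Injective (periodHomPair N)
      ∧ LinearMap.range (periodHomPair N) = parabolicHoms ℂ (Gamma0 N) ℂ :=
  result_of_pieces N
    (Fermat.Agent.S21.H81.injective_periodHomPair_of N
      (Fermat.Agent.S21.H381.existsPeriodMapLinear N)
      (fun f => Fermat.Agent.S21.H381.exists_hasEquivariantPrimitive f))
    Fermat.Agent.S21.H381.range_periodHomPair_le
    (finrank_parabolicHoms_le_of_S20 N hS20)

/-- S21 gives `dim Hom_par(Γ₀(N), ℂ) = 2 · dim S₂(Γ₀(N))`. -/
theorem finrank_parabolicHoms_eq_of_S21 (N : ℕ) [NeZero N]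
    (hS21 : Function.Injective (periodHomPair N)
      ∧ LinearMap.range (periodHomPair N) = parabolicHoms ℂ (Gamma0 N) ℂ) :
    Module.finrank ℂ (parabolicHoms ℂ (Gamma0 N) ℂ)
      = 2 * Module.finrank ℂ (CuspForm (Gamma0 N) 2) := by
  obtain ⟨hinj, hrange⟩ := hS21
  haveI hfin : Module.Finite ℂ (parabolicHoms ℂ (Gamma0 N) ℂ) := finite_parabolicHoms_Gamma0 N
  have hmem : ∀ p, periodHomPair N p ∈ parabolicHoms ℂ (Gamma0 N) ℂ :=
    fun p => hrange ▸ LinearMap.mem_range_self _ p
  let P := (periodHomPair N).codRestrict (parabolicHoms ℂ (Gamma0 N) ℂ) hmem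
  have hPinj : Function.Injective P := by
    intro a b hab
    apply hinj
    have := congrArg Subtype.val hab
    simpa [P] using this
  haveI hfin2 : Module.Finite ℂ (CuspForm (Gamma0 N) 2 × CuspForm (Gamma0 N) 2) :=
    Module.Finite.of_injective P hPinj
  haveI hfin1 : Module.Finite ℂ (CuspForm (Gamma0 N) 2) :=
    Module.Finite.of_injective (LinearMap.inl ℂ (CuspForm (Gamma0 N) 2) (CuspForm (Gamma0 N) 2))
      LinearMap.inl_injective
  rw [← hrange, LinearMap.finrank_range_of_inj hinj, Module.finrank_prod]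
  ring

/-- **S21 + lower bound ⟹ S20.** -/
theorem S20_of_S21_of_lowerBound (N : ℕ) [NeZero N]
    (hS21 : Function.Injective (periodHomPair N)
      ∧ LinearMap.range (periodHomPair N) = parabolicHoms ℂ (Gamma0 N) ℂ)
    (hLB : Nat.card (SL(2, ℤ) ⧸ Gamma0 N) + 2 ≤
      Module.finrank ℂ (parabolicHoms ℂ (Gamma0 N) ℂ)
        + Nat.card (MulAction.orbitRel.Quotient (Subgroup.zpowers (S : SL(2, ℤ)))
            (SL(2, ℤ) ⧸ Gamma0 N))
        + Nat.card (MulAction.orbitRel.Quotient (Subgroup.zpowers (S * T : SL(2, ℤ)))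
            (SL(2, ℤ) ⧸ Gamma0 N))
        + Nat.card (MulAction.orbitRel.Quotient (Subgroup.zpowers (T : SL(2, ℤ)))
            (SL(2, ℤ) ⧸ Gamma0 N))) :
    (Module.finrank ℂ (CuspForm (Gamma0 N) 2) : ℚ) = genusFormula N := by
  have hE := finrank_parabolicHoms_eq_of_S21 N hS21
  have hU := finrank_parabolicHoms_Gamma0_add_le N
  have hEq := le_antisymm hU hLB
  rw [card_quot_Gamma0_eq, card_orbits_T_Gamma0, hE] at hEq
  have h' : (2 : ℚ) * (Module.finrank ℂ (CuspForm (Gamma0 N) 2) : ℚ)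
      + (Nat.card (MulAction.orbitRel.Quotient (Subgroup.zpowers (S : SL(2, ℤ)))
          (SL(2, ℤ) ⧸ Gamma0 N)) : ℚ)
      + (Nat.card (MulAction.orbitRel.Quotient (Subgroup.zpowers (S * T : SL(2, ℤ)))
          (SL(2, ℤ) ⧸ Gamma0 N)) : ℚ)
      + (cuspCount N : ℚ) = (dedekindPsi N : ℚ) + 2 := by
    exact_mod_cast hEq
  have hoS' : (2 : ℚ) * (Nat.card (MulAction.orbitRel.Quotient
      (Subgroup.zpowers (S : SL(2, ℤ))) (SL(2, ℤ) ⧸ Gamma0 N)) : ℚ)
      = (dedekindPsi N : ℚ) + (nuTwo N : ℚ) := by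
    exact_mod_cast two_mul_card_orbits_S_Gamma0 N
  have hoU' : (3 : ℚ) * (Nat.card (MulAction.orbitRel.Quotient
      (Subgroup.zpowers (S * T : SL(2, ℤ))) (SL(2, ℤ) ⧸ Gamma0 N)) : ℚ)
      = (dedekindPsi N : ℚ) + 2 * (nuThree N : ℚ) := by
    exact_mod_cast three_mul_card_orbits_ST_Gamma0 N
  rw [genusFormula]
  linarith

end Fermat.Agent.S21.ParBound
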