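import Mathlib

/-!
# S21 / ParDim — finite linear algebra on functions on a finite set with permutations

Used for the dimension bound of the space of parabolic homomorphisms.
-/

set_option autoImplicit false

namespace Fermat.Agent.S21.ParDim

open Module LinearMap

section LA

variable (K : Type*) [Field K] {Q : Type*} [Fintype Q] [DecidableEq Q]

/-- Pullback of functions along a permutation. -/
noncomputable def pullPerm (σ : Equiv.Perm Q) : (Q → K) →ₗ[K] (Q → K) :=
  LinearMap.funLeft K K σ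

omit [Fintype Q] [DecidableEq Q] in
@[simp]
theorem pullPerm_apply (σ : Equiv.Perm Q) (ξ : Q → K) (q : Q) :
    pullPerm K σ ξ q = ξ (σ q) := rfl

theorem pullPerm_eq_toLin' (σ : Equiv.Perm Q) :
    pullPerm K σ = Matrix.toLin' (σ.permMatrix K) := by
  apply LinearMap.ext
  intro ξ
  funext q
  rw [Matrix.toLin'_apply, Matrix.permMatrix_mulVec]
  rfl

theorem trace_pullPerm (σ : Equiv.Perm Q) :
    LinearMap.trace K (Q → K) (pullPerm K σ) = (Fintype.card (Function.fixedPoints σ) : K) := by
  rw [pullPerm_eq_toLin', Matrix.trace_toLin'_eq, Matrix.trace_permutation]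
  rw [← Nat.card_coe_set_eq, Nat.card_eq_fintype_card]

/-- Functions `ξ` with `ξ + ξ ∘ σ = 0`. -/
def negSub (σ : Equiv.Perm Q) : Submodule K (Q → K) where
  carrier := {ξ | ∀ q, ξ q + ξ (σ q) = 0}
  zero_mem' := fun q => by simp
  add_mem' := by
    intro a b ha hb q
    have h1 := ha q
    have h2 := hb q
    simp only [Pi.add_apply]
    linear_combination h1 + h2
  smul_mem' := by
    intro c a ha q
    have h1 := ha q
    simp only [Pi.smul_apply, smul_eq_mul]
    linear_combination c * h1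

/-- Functions `ξ` with `ξ + ξ ∘ ρ + ξ ∘ ρ² = 0`. -/
def triSub (ρ : Equiv.Perm Q) : Submodule K (Q → K) where
  carrier := {ξ | ∀ q, ξ q + ξ (ρ q) + ξ (ρ (ρ q)) = 0}
  zero_mem' := fun q => by simp
  add_mem' := by
    intro a b ha hb q
    have h1 := ha q
    have h2 := hb q
    simp only [Pi.add_apply]
    linear_combination h1 + h2
  smul_mem' := by
    intro c a ha q
    have h1 := ha q
    simp only [Pi.smul_apply, smul_eq_mul]
    linear_combination c * h1

omit [Fintype Q] [DecidableEq Q] in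
theorem mem_negSub {σ : Equiv.Perm Q} {ξ : Q → K} :
    ξ ∈ negSub K σ ↔ ∀ q, ξ q + ξ (σ q) = 0 := Iff.rfl

omit [Fintype Q] [DecidableEq Q] in
theorem mem_triSub {ρ : Equiv.Perm Q} {ξ : Q → K} :
    ξ ∈ triSub K ρ ↔ ∀ q, ξ q + ξ (ρ q) + ξ (ρ (ρ q)) = 0 := Iff.rfl

variable [CharZero K]

/-- The projector onto `negSub`. -/
noncomputable def negProj (σ : Equiv.Perm Q) : (Q → K) →ₗ[K] (Q → K) :=
  (2 : K)⁻¹ • (LinearMap.id - pullPerm K σ)

omit [Fintype Q] [DecidableEq Q] [CharZero K] in
theorem negProj_apply (σ : Equiv.Perm Q) (ξ : Q → K) (q : Q) :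
    negProj K σ ξ q = (2 : K)⁻¹ * (ξ q - ξ (σ q)) := rfl

omit [Fintype Q] [DecidableEq Q] in
theorem isProj_negProj (σ : Equiv.Perm Q) (hσ : ∀ q, σ (σ q) = q) :
    LinearMap.IsProj (negSub K σ) (negProj K σ) := by
  refine ⟨fun ξ => ?_, fun ξ hξ => ?_⟩
  · intro q
    rw [negProj_apply, negProj_apply, hσ]
    ring
  · funext q
    rw [negProj_apply]
    have h := hξ q
    have h2 : (2 : K) ≠ 0 := two_ne_zero
    field_simp
    linear_combination -h

theorem two_mul_finrank_negSub (σ : Equiv.Perm Q) (hσ : ∀ q, σ (σ q) = q) :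
    2 * finrank K (negSub K σ) + Fintype.card (Function.fixedPoints σ) = Fintype.card Q := by
  have h := (isProj_negProj K σ hσ).trace
  have ht : LinearMap.trace K (Q → K) (negProj K σ)
      = (2 : K)⁻¹ * ((Fintype.card Q : K) - (Fintype.card (Function.fixedPoints σ) : K)) := by
    unfold negProj
    rw [map_smul, map_sub, trace_pullPerm, smul_eq_mul]
    congr 2
    rw [show (LinearMap.id : (Q → K) →ₗ[K] (Q → K)) = 1 from rfl, LinearMap.trace_one,
      Module.finrank_fintype_fun_eq_card]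
  rw [ht] at h
  have h2 : (2 : K) ≠ 0 := two_ne_zero
  have h3 : (2 : K) * (finrank K (negSub K σ) : K)
      + (Fintype.card (Function.fixedPoints σ) : K) = (Fintype.card Q : K) := by
    rw [← h]
    field_simp
    ring
  exact_mod_cast h3

/-- The projector onto `triSub`. -/
noncomputable def triProj (ρ : Equiv.Perm Q) : (Q → K) →ₗ[K] (Q → K) :=
  (3 : K)⁻¹ • ((2 : K) • LinearMap.id - pullPerm K ρ - pullPerm K (ρ * ρ))

omit [Fintype Q] [DecidableEq Q] [CharZero K] in
theorem triProj_apply (ρ : Equiv.Perm Q) (ξ : Q → K) (q : Q) :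
    triProj K ρ ξ q = (3 : K)⁻¹ * (2 * ξ q - ξ (ρ q) - ξ (ρ (ρ q))) := rfl

omit [Fintype Q] [DecidableEq Q] in
theorem isProj_triProj (ρ : Equiv.Perm Q) (hρ : ∀ q, ρ (ρ (ρ q)) = q) :
    LinearMap.IsProj (triSub K ρ) (triProj K ρ) := by
  refine ⟨fun ξ => ?_, fun ξ hξ => ?_⟩
  · intro q
    rw [triProj_apply, triProj_apply, triProj_apply, hρ]
    ring
  · funext q
    rw [triProj_apply]
    have h := hξ q
    have h3 : (3 : K) ≠ 0 := three_ne_zero
    field_simp
    linear_combination -h

omit [Fintype Q] [DecidableEq Q] [CharZero K] in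
theorem fixedPoints_mul_self (ρ : Equiv.Perm Q) (hρ : ∀ q, ρ (ρ (ρ q)) = q) :
    Function.fixedPoints (ρ * ρ) = Function.fixedPoints ρ := by
  ext q
  simp only [Function.mem_fixedPoints, Function.IsFixedPt, Equiv.Perm.coe_mul,
    Function.comp_apply]
  constructor
  · intro h
    have h1 := hρ q
    rw [h] at h1
    exact h1
  · intro h
    rw [h, h]

theorem three_mul_finrank_triSub (ρ : Equiv.Perm Q) (hρ : ∀ q, ρ (ρ (ρ q)) = q) :
    3 * finrank K (triSub K ρ) + 2 * Fintype.card (Function.fixedPoints ρ)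
      = 2 * Fintype.card Q := by
  have h := (isProj_triProj K ρ hρ).trace
  have hcard : Fintype.card (Function.fixedPoints (ρ * ρ))
      = Fintype.card (Function.fixedPoints ρ) := by
    simp only [fixedPoints_mul_self ρ hρ]
  have ht : LinearMap.trace K (Q → K) (triProj K ρ)
      = (3 : K)⁻¹ * (2 * (Fintype.card Q : K) - (Fintype.card (Function.fixedPoints ρ) : K)
          - (Fintype.card (Function.fixedPoints ρ) : K)) := by
    unfold triProj
    rw [map_smul, map_sub, map_sub, map_smul, trace_pullPerm, trace_pullPerm, smul_eq_mul,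
      smul_eq_mul, hcard]
    congr 4
    rw [show (LinearMap.id : (Q → K) →ₗ[K] (Q → K)) = 1 from rfl, LinearMap.trace_one,
      Module.finrank_fintype_fun_eq_card]
  rw [ht] at h
  have h3 : (3 : K) ≠ 0 := three_ne_zero
  have h4 : (3 : K) * (finrank K (triSub K ρ) : K)
      + 2 * (Fintype.card (Function.fixedPoints ρ) : K) = 2 * (Fintype.card Q : K) := by
    rw [← h]
    field_simp
    ring
  exact_mod_cast h4


omit [Fintype Q] [CharZero K] in
theorem single_sub_single_mem_negSub (σ : Equiv.Perm Q) (hσ : ∀ q, σ (σ q) = q) (q : Q) :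
    (Pi.single (σ q) (1 : K) - Pi.single q (1 : K) : Q → K) ∈ negSub K σ := by
  intro x
  simp only [Pi.sub_apply, Pi.single_apply]
  have e1 : (σ x = σ q) ↔ (x = q) := σ.injective.eq_iff
  have e2 : (σ x = q) ↔ (x = σ q) := by
    constructor
    · intro h; rw [← h, hσ]
    · intro h; rw [h, hσ]
  simp only [e1, e2]
  ring

omit [Fintype Q] [CharZero K] in
theorem single_sub_single_mem_triSub (ρ : Equiv.Perm Q) (hρ : ∀ q, ρ (ρ (ρ q)) = q) (q : Q) :
    (Pi.single (ρ q) (1 : K) - Pi.single q (1 : K) : Q → K) ∈ triSub K ρ := by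
  intro x
  simp only [Pi.sub_apply, Pi.single_apply]
  have e1 : (ρ x = ρ q) ↔ (x = q) := ρ.injective.eq_iff
  have e2 : (ρ (ρ x) = ρ q) ↔ (ρ x = q) := ρ.injective.eq_iff
  have e3 : (ρ (ρ x) = q) ↔ (x = ρ q) := by
    constructor
    · intro h; rw [← h, hρ]
    · intro h; rw [h, hρ]
  simp only [e1, e2, e3]
  ring

/-- The functional "sum of all values". -/
noncomputable def sumFun : (Q → K) →ₗ[K] K where
  toFun ξ := ∑ q, ξ q
  map_add' a b := by simp [Finset.sum_add_distrib]
  map_smul' c a := by simp [Finset.mul_sum]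

omit [DecidableEq Q] [CharZero K] in
theorem card_le_finrank_ker_sumFun_add_one :
    Fintype.card Q ≤ finrank K (LinearMap.ker (sumFun K (Q := Q))) + 1 := by
  have h := LinearMap.finrank_range_add_finrank_ker (sumFun K (Q := Q))
  rw [Module.finrank_fintype_fun_eq_card] at h
  have h1 : finrank K (LinearMap.range (sumFun K (Q := Q))) ≤ 1 := by
    have := Submodule.finrank_le (LinearMap.range (sumFun K (Q := Q)))
    rwa [Module.finrank_self] at this
  omega

omit [CharZero K] in
theorem ker_sumFun_le_sup (σ ρ : Equiv.Perm Q) (hσ : ∀ q, σ (σ q) = q)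
    (hρ : ∀ q, ρ (ρ (ρ q)) = q)
    (htrans : ∀ P : Set Q, (∀ q ∈ P, σ q ∈ P) → (∀ q ∈ P, ρ q ∈ P) → P.Nonempty → P = Set.univ) :
    LinearMap.ker (sumFun K (Q := Q)) ≤ negSub K σ ⊔ triSub K ρ := by
  intro ξ hξ
  rw [LinearMap.mem_ker] at hξ
  by_cases hQ : Nonempty Q
  swap
  · have : ξ = 0 := by
      funext q
      exact absurd ⟨q⟩ hQ
    rw [this]
    exact Submodule.zero_mem _
  obtain ⟨q₀⟩ := hQ
  set W := negSub K σ ⊔ triSub K ρ with hW
  have hP : {q : Q | (Pi.single q (1 : K) - Pi.single q₀ (1 : K) : Q → K) ∈ W} = Set.univ := by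
    apply htrans
    · intro q hq
      have h1 : (Pi.single (σ q) (1 : K) - Pi.single q (1 : K) : Q → K) ∈ W :=
        Submodule.mem_sup_left (single_sub_single_mem_negSub K σ hσ q)
      have := Submodule.add_mem W h1 hq
      simpa using this
    · intro q hq
      have h1 : (Pi.single (ρ q) (1 : K) - Pi.single q (1 : K) : Q → K) ∈ W :=
        Submodule.mem_sup_right (single_sub_single_mem_triSub K ρ hρ q)
      have := Submodule.add_mem W h1 hq
      simpa using this
    · exact ⟨q₀, by simp⟩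
  have hmem : ∀ q, (Pi.single q (1 : K) - Pi.single q₀ (1 : K) : Q → K) ∈ W := by
    intro q
    have : q ∈ {q : Q | (Pi.single q (1 : K) - Pi.single q₀ (1 : K) : Q → K) ∈ W} := by
      rw [hP]; trivial
    exact this
  have hdecomp : ξ = ∑ q, ξ q • (Pi.single q (1 : K) - Pi.single q₀ (1 : K) : Q → K) := by
    funext x
    simp only [Finset.sum_apply, Pi.smul_apply, Pi.sub_apply, smul_eq_mul, mul_sub,
      Finset.sum_sub_distrib, Pi.single_apply, mul_ite, mul_one, mul_zero]
    rw [Finset.sum_ite_eq Finset.univ x ξ]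
    simp only [Finset.mem_univ, if_true]
    by_cases hx : x = q₀
    · subst hx
      simp only [if_true]
      have : (∑ q, ξ q) = 0 := hξ
      rw [this, sub_zero]
    · simp [hx]
  rw [hdecomp]
  exact Submodule.sum_mem _ fun q _ => Submodule.smul_mem _ _ (hmem q)

/-- The key dimension bound. -/
theorem six_mul_finrank_inf_le (σ ρ : Equiv.Perm Q) (hσ : ∀ q, σ (σ q) = q)
    (hρ : ∀ q, ρ (ρ (ρ q)) = q)
    (htrans : ∀ P : Set Q, (∀ q ∈ P, σ q ∈ P) → (∀ q ∈ P, ρ q ∈ P) → P.Nonempty → P = Set.univ) :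
    6 * finrank K ((negSub K σ ⊓ triSub K ρ : Submodule K (Q → K)))
      + 3 * Fintype.card (Function.fixedPoints σ) + 4 * Fintype.card (Function.fixedPoints ρ)
      ≤ Fintype.card Q + 6 := by
  have h1 := two_mul_finrank_negSub K σ hσ
  have h2 := three_mul_finrank_triSub K ρ hρ
  have h3 := Submodule.finrank_sup_add_finrank_inf_eq (negSub K σ) (triSub K ρ)
  have h4 : finrank K (LinearMap.ker (sumFun K (Q := Q)))
      ≤ finrank K ((negSub K σ ⊔ triSub K ρ : Submodule K (Q → K))) :=
    Submodule.finrank_mono (ker_sumFun_le_sup K σ ρ hσ hρ htrans)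
  have h5 := card_le_finrank_ker_sumFun_add_one K (Q := Q)
  omega

end LA

end Fermat.Agent.S21.ParDim
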