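import Mathlib
import Fermat.Prelude.Def_ModularCurve_PeriodMap
import Fermat.Agent.S21.ParDimLA

/-!
# S21 / ParDim — potentials and the dimension bound for parabolic homomorphisms
-/

set_option autoImplicit false
set_option linter.style.haveILetI false

open scoped MatrixGroups
open ModularGroup Module
open ModularCurve.Period

namespace Fermat.Agent.S21.ParDim

section Pot

variable (Γ : Subgroup SL(2, ℤ)) (K : Type*) [Field K]

/-- Potentials: functions on `SL(2,ℤ)`, left-invariant under `T`, right-equivariant under `Γ`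
with respect to some additive character. -/
def Pot : Submodule K (SL(2, ℤ) → K) where
  carrier := {v | (∀ g, v (T * g) = v g) ∧
    ∀ (γ : Γ) (g h : SL(2, ℤ)), v (g * γ) - v g = v (h * γ) - v h}
  zero_mem' := ⟨fun _ => rfl, fun _ _ _ => rfl⟩
  add_mem' := by
    rintro a b ⟨ha1, ha2⟩ ⟨hb1, hb2⟩
    refine ⟨fun g => ?_, fun γ g h => ?_⟩
    · simp only [Pi.add_apply, ha1 g, hb1 g]
    · have h1 := ha2 γ g h
      have h2 := hb2 γ g h
      simp only [Pi.add_apply]
      linear_combination h1 + h2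
  smul_mem' := by
    rintro c a ⟨ha1, ha2⟩
    refine ⟨fun g => ?_, fun γ g h => ?_⟩
    · simp only [Pi.smul_apply, ha1 g]
    · have h1 := ha2 γ g h
      simp only [Pi.smul_apply, smul_eq_mul]
      linear_combination c * h1

variable {Γ K}

theorem pot_left_T (v : Pot Γ K) (g : SL(2, ℤ)) : v.1 (T * g) = v.1 g := v.2.1 g

theorem pot_right_diff (v : Pot Γ K) (γ : Γ) (g h : SL(2, ℤ)) :
    v.1 (g * γ) - v.1 g = v.1 (h * γ) - v.1 h := v.2.2 γ g h

theorem pot_left_T_zpow (v : Pot Γ K) (n : ℤ) (g : SL(2, ℤ)) : v.1 (T ^ n * g) = v.1 g := by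
  induction n generalizing g with
  | zero => simp
  | succ n ih => rw [zpow_add_one, mul_assoc, ih, pot_left_T v]
  | pred n ih =>
    rw [zpow_sub_one, mul_assoc, ih]
    have := pot_left_T v (T⁻¹ * g)
    rw [mul_inv_cancel_left] at this
    exact this.symm

theorem pot_neg_eq [CharZero K] (hneg : (-1 : SL(2, ℤ)) ∈ Γ) (v : Pot Γ K) (g : SL(2, ℤ)) :
    v.1 (-g) = v.1 g := by
  have h1 := pot_right_diff v ⟨-1, hneg⟩ g (g * (-1))
  simp only [mul_neg, mul_one, neg_neg] at h1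
  have h2 : (2 : K) * (v.1 (-g) - v.1 g) = 0 := by linear_combination h1
  have h3 : v.1 (-g) - v.1 g = 0 := by
    rcases mul_eq_zero.mp h2 with h | h
    · exact absurd h two_ne_zero
    · exact h
  exact sub_eq_zero.mp h3

/-- The additive character attached to a potential. -/
def potHom (v : Pot Γ K) : Additive Γ →+ K where
  toFun γ := v.1 ((Additive.toMul γ : Γ) : SL(2, ℤ)) - v.1 1
  map_zero' := by simp
  map_add' γ δ := by
    have h := pot_right_diff v (Additive.toMul δ) ((Additive.toMul γ : Γ) : SL(2, ℤ)) 1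
    simp only [toMul_add, Subgroup.coe_mul, one_mul] at h ⊢
    linear_combination h

theorem potHom_apply (v : Pot Γ K) (γ : Γ) :
    potHom v (Additive.ofMul γ) = v.1 (γ : SL(2, ℤ)) - v.1 1 := rfl

theorem pot_right_eq (v : Pot Γ K) (γ : Γ) (g : SL(2, ℤ)) :
    v.1 (g * γ) = v.1 g + potHom v (Additive.ofMul γ) := by
  have h := pot_right_diff v γ g 1
  rw [one_mul] at h
  rw [potHom_apply]
  linear_combination h

variable (Γ K)

/-- The linear map `potential ↦ character`. -/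
def toHom : Pot Γ K →ₗ[K] (Additive Γ →+ K) where
  toFun := potHom
  map_add' a b := by
    refine AddMonoidHom.ext fun γ => ?_
    obtain ⟨γ, rfl⟩ := Additive.ofMul.surjective γ
    simp only [AddMonoidHom.add_apply, potHom_apply, Submodule.coe_add, Pi.add_apply]
    ring
  map_smul' c a := by
    refine AddMonoidHom.ext fun γ => ?_
    obtain ⟨γ, rfl⟩ := Additive.ofMul.surjective γ
    simp only [AddMonoidHom.smul_apply, potHom_apply, Submodule.coe_smul, Pi.smul_apply,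
      RingHom.id_apply, smul_eq_mul]
    ring

end Pot

section Xi

variable (Γ : Subgroup SL(2, ℤ)) (K : Type*) [Field K]

theorem S_mul_S_mul (g : SL(2, ℤ)) : S * (S * g) = -g := by
  have h : S * S = -1 := by decide
  rw [← mul_assoc, h, neg_mul, one_mul]

theorem TS_cube_mul (g : SL(2, ℤ)) : (T * S) * ((T * S) * ((T * S) * g)) = -g := by
  have h : (T * S) * ((T * S) * (T * S)) = -1 := by decide
  rw [← mul_assoc, ← mul_assoc, mul_assoc (T * S) (T * S) (T * S), h, neg_mul, one_mul]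

variable {Γ} in
theorem mk_neg (hneg : (-1 : SL(2, ℤ)) ∈ Γ) (g : SL(2, ℤ)) :
    ((-g : SL(2, ℤ)) : SL(2, ℤ) ⧸ Γ) = (g : SL(2, ℤ) ⧸ Γ) := by
  rw [eq_comm, QuotientGroup.eq]
  have : g⁻¹ * -g = -1 := by
    rw [mul_neg, inv_mul_cancel]
  rw [this]
  exact hneg

variable {Γ K} in
/-- The function on cosets attached to a potential: `ξ(gΓ) = v(g) - v(Sg)`. -/
def xiFun (v : Pot Γ K) : SL(2, ℤ) ⧸ Γ → K :=
  fun q => Quotient.liftOn' q (fun g => v.1 g - v.1 (S * g)) (by
    intro a b hab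
    rw [QuotientGroup.leftRel_apply] at hab
    have h := pot_right_diff v ⟨a⁻¹ * b, hab⟩ a (S * a)
    simp only [mul_inv_cancel_left, mul_assoc] at h
    show v.1 a - v.1 (S * a) = v.1 b - v.1 (S * b)
    linear_combination -h)

variable {Γ K} in
@[simp]
theorem xiFun_mk (v : Pot Γ K) (g : SL(2, ℤ)) :
    xiFun v (g : SL(2, ℤ) ⧸ Γ) = v.1 g - v.1 (S * g) := rfl

/-- `v ↦ ξ_v` as a linear map. -/
def toXi : Pot Γ K →ₗ[K] (SL(2, ℤ) ⧸ Γ → K) where
  toFun := xiFun
  map_add' a b := by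
    funext q
    induction q using QuotientGroup.induction_on with
    | H g =>
      simp only [xiFun_mk, Pi.add_apply, Submodule.coe_add]
      ring
  map_smul' c a := by
    funext q
    induction q using QuotientGroup.induction_on with
    | H g =>
      simp only [xiFun_mk, Pi.smul_apply, Submodule.coe_smul, RingHom.id_apply, smul_eq_mul]
      ring

/-- The permutation of the coset space given by `S`. -/
def permS : Equiv.Perm (SL(2, ℤ) ⧸ Γ) := MulAction.toPerm (S : SL(2, ℤ))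

/-- The permutation of the coset space given by `T * S`. -/
def permR : Equiv.Perm (SL(2, ℤ) ⧸ Γ) := MulAction.toPerm (T * S : SL(2, ℤ))

@[simp]
theorem permS_mk (g : SL(2, ℤ)) : permS Γ (g : SL(2, ℤ) ⧸ Γ) = ((S * g : SL(2, ℤ)) : SL(2, ℤ) ⧸ Γ) :=
  rfl

@[simp]
theorem permR_mk (g : SL(2, ℤ)) :
    permR Γ (g : SL(2, ℤ) ⧸ Γ) = ((T * S * g : SL(2, ℤ)) : SL(2, ℤ) ⧸ Γ) :=
  rfl

variable {Γ} in
theorem permS_permS (hneg : (-1 : SL(2, ℤ)) ∈ Γ) (q : SL(2, ℤ) ⧸ Γ) :
    permS Γ (permS Γ q) = q := by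
  induction q using QuotientGroup.induction_on with
  | H g => rw [permS_mk, permS_mk, S_mul_S_mul, mk_neg hneg]

variable {Γ} in
theorem permR_permR_permR (hneg : (-1 : SL(2, ℤ)) ∈ Γ) (q : SL(2, ℤ) ⧸ Γ) :
    permR Γ (permR Γ (permR Γ q)) = q := by
  induction q using QuotientGroup.induction_on with
  | H g => rw [permR_mk, permR_mk, permR_mk, TS_cube_mul, mk_neg hneg]

variable {Γ K} in
theorem xiFun_mem_negSub [CharZero K] (hneg : (-1 : SL(2, ℤ)) ∈ Γ) (v : Pot Γ K) :
    xiFun v ∈ negSub K (permS Γ) := by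
  intro q
  induction q using QuotientGroup.induction_on with
  | H g =>
    rw [permS_mk, xiFun_mk, xiFun_mk, S_mul_S_mul, pot_neg_eq hneg]
    ring

variable {Γ K} in
theorem xiFun_mem_triSub [CharZero K] (hneg : (-1 : SL(2, ℤ)) ∈ Γ) (v : Pot Γ K) :
    xiFun v ∈ triSub K (permR Γ) := by
  intro q
  induction q using QuotientGroup.induction_on with
  | H g =>
    have hT : ∀ h : SL(2, ℤ), v.1 (S * h) = v.1 (T * S * h) := fun h => by
      rw [mul_assoc, pot_left_T]
    rw [permR_mk, permR_mk, xiFun_mk, xiFun_mk, xiFun_mk, hT g, hT (T * S * g),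
      hT (T * S * (T * S * g)), TS_cube_mul, pot_neg_eq hneg]
    ring

variable {Γ K} in
/-- A potential with `ξ = 0` is constant. -/
theorem pot_eq_const_of_xiFun_eq_zero (v : Pot Γ K) (h : xiFun v = 0) (g : SL(2, ℤ)) :
    v.1 g = v.1 1 := by
  have hS : ∀ g : SL(2, ℤ), v.1 (S * g) = v.1 g := fun g => by
    have := congrFun h (g : SL(2, ℤ) ⧸ Γ)
    rw [xiFun_mk, Pi.zero_apply, sub_eq_zero] at this
    exact this.symm
  have key : ∀ x : SL(2, ℤ), x ∈ Subgroup.closure ({S, T} : Set SL(2, ℤ)) →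
      ∀ g : SL(2, ℤ), v.1 (x * g) = v.1 g ∧ v.1 (x⁻¹ * g) = v.1 g := by
    intro x hx
    induction hx using Subgroup.closure_induction with
    | mem x hx =>
      intro g
      rcases hx with rfl | hx
      · refine ⟨hS g, ?_⟩
        have := hS (S⁻¹ * g)
        rw [mul_inv_cancel_left] at this
        exact this.symm
      · rw [Set.mem_singleton_iff] at hx
        subst hx
        refine ⟨pot_left_T v g, ?_⟩
        have := pot_left_T v (T⁻¹ * g)
        rw [mul_inv_cancel_left] at this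
        exact this.symm
    | one => intro g; simp
    | mul x y _ _ hx hy =>
      intro g
      refine ⟨?_, ?_⟩
      · rw [mul_assoc, (hx (y * g)).1, (hy g).1]
      · rw [mul_inv_rev, mul_assoc, (hy (x⁻¹ * g)).2, (hx g).2]
    | inv x _ hx =>
      intro g
      refine ⟨(hx g).2, ?_⟩
      rw [inv_inv]
      exact (hx g).1
  have hg : g ∈ Subgroup.closure ({S, T} : Set SL(2, ℤ)) := by
    rw [SpecialLinearGroup.SL2Z_generators]
    trivial
  have := (key g hg 1).1
  rwa [mul_one] at this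

/-- The combined map `v ↦ (ξ_v, v 1)` into `(negSub ⊓ triSub) × K`. -/
def toXiProd [CharZero K] (hneg : (-1 : SL(2, ℤ)) ∈ Γ) :
    Pot Γ K →ₗ[K] (↥(negSub K (permS Γ) ⊓ triSub K (permR Γ)) × K) :=
  LinearMap.prod
    (LinearMap.codRestrict _ (toXi Γ K)
      (fun v => ⟨xiFun_mem_negSub hneg v, xiFun_mem_triSub hneg v⟩))
    { toFun := fun v => v.1 1
      map_add' := fun _ _ => rfl
      map_smul' := fun _ _ => rfl }

theorem toXiProd_injective [CharZero K] (hneg : (-1 : SL(2, ℤ)) ∈ Γ) :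
    Function.Injective (toXiProd Γ K hneg) := by
  rw [← LinearMap.ker_eq_bot, LinearMap.ker_eq_bot']
  intro v hv
  have h1 : xiFun v = 0 := by
    have := congrArg (fun x => (x.1 : SL(2, ℤ) ⧸ Γ → K)) hv
    exact this
  have h2 : v.1 1 = 0 := by
    have := congrArg Prod.snd hv
    exact this
  apply Subtype.ext
  funext g
  rw [pot_eq_const_of_xiFun_eq_zero v h1 g, h2]
  rfl

variable {Γ} in
theorem perm_trans (hneg : (-1 : SL(2, ℤ)) ∈ Γ) (P : Set (SL(2, ℤ) ⧸ Γ))
    (hS : ∀ q ∈ P, permS Γ q ∈ P) (hR : ∀ q ∈ P, permR Γ q ∈ P) (hne : P.Nonempty) :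
    P = Set.univ := by
  have eS : ∀ q : SL(2, ℤ) ⧸ Γ, (S : SL(2, ℤ)) • q = permS Γ q := fun _ => rfl
  have eR : ∀ q : SL(2, ℤ) ⧸ Γ, (T * S : SL(2, ℤ)) • q = permR Γ q := fun _ => rfl
  have eSinv : ∀ q : SL(2, ℤ) ⧸ Γ, (S⁻¹ : SL(2, ℤ)) • q = permS Γ q := fun q => by
    rw [inv_smul_eq_iff, eS, permS_permS hneg]
  have eRinv : ∀ q : SL(2, ℤ) ⧸ Γ, ((T * S)⁻¹ : SL(2, ℤ)) • q = permR Γ (permR Γ q) := fun q => by
    rw [inv_smul_eq_iff, eR, permR_permR_permR hneg]
  have eT : ∀ q : SL(2, ℤ) ⧸ Γ, (T : SL(2, ℤ)) • q = permR Γ (permS Γ q) := fun q => by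
    rw [← eSinv, ← eR, smul_smul, mul_assoc, mul_inv_cancel, mul_one]
  have eTinv : ∀ q : SL(2, ℤ) ⧸ Γ,
      (T⁻¹ : SL(2, ℤ)) • q = permS Γ (permR Γ (permR Γ q)) := fun q => by
    rw [← eRinv, ← eS, smul_smul, mul_inv_rev, ← mul_assoc, mul_inv_cancel, one_mul]
  have key : ∀ x : SL(2, ℤ), x ∈ Subgroup.closure ({S, T} : Set SL(2, ℤ)) →
      ∀ q ∈ P, x • q ∈ P ∧ x⁻¹ • q ∈ P := by
    intro x hx
    induction hx using Subgroup.closure_induction with
    | mem x hx =>
      intro q hq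
      rcases hx with rfl | hx
      · rw [eS, eSinv]
        exact ⟨hS q hq, hS q hq⟩
      · rw [Set.mem_singleton_iff] at hx
        subst hx
        rw [eT, eTinv]
        exact ⟨hR _ (hS q hq), hS _ (hR _ (hR q hq))⟩
    | one => intro q hq; simpa using hq
    | mul x y _ _ hx hy =>
      intro q hq
      refine ⟨?_, ?_⟩
      · rw [mul_smul]
        exact (hx _ (hy q hq).1).1
      · rw [mul_inv_rev, mul_smul]
        exact (hy _ (hx q hq).2).2
    | inv x _ hx =>
      intro q hq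
      rw [inv_inv]
      exact ⟨(hx q hq).2, (hx q hq).1⟩
  obtain ⟨q₀, hq₀⟩ := hne
  rw [Set.eq_univ_iff_forall]
  intro q
  obtain ⟨g, rfl⟩ := MulAction.exists_smul_eq SL(2, ℤ) q₀ q
  have hg : g ∈ Subgroup.closure ({S, T} : Set SL(2, ℤ)) := by
    rw [SpecialLinearGroup.SL2Z_generators]
    trivial
  exact (key g hg q₀ hq₀).1

end Xi

section Finite

variable (Γ : Subgroup SL(2, ℤ)) [Γ.FiniteIndex] (K : Type*) [Field K] [CharZero K]

omit [CharZero K] in
theorem finite_negSub_inf_triSub :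
    Module.Finite K ↥(negSub K (permS Γ) ⊓ triSub K (permR Γ)) := by
  classical
  letI : Fintype (SL(2, ℤ) ⧸ Γ) := Fintype.ofFinite _
  infer_instance

theorem finite_pot (hneg : (-1 : SL(2, ℤ)) ∈ Γ) : Module.Finite K (Pot Γ K) := by
  haveI := finite_negSub_inf_triSub Γ K
  exact Module.Finite.of_injective (toXiProd Γ K hneg) (toXiProd_injective Γ K hneg)

/-- First half of the bound: potentials inject into `(negSub ⊓ triSub) × K`. -/
theorem six_mul_finrank_pot_le (hneg : (-1 : SL(2, ℤ)) ∈ Γ) :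
    6 * finrank K (Pot Γ K)
      + 3 * Nat.card (Function.fixedPoints (permS Γ))
      + 4 * Nat.card (Function.fixedPoints (permR Γ))
      ≤ Nat.card (SL(2, ℤ) ⧸ Γ) + 12 := by
  classical
  letI : Fintype (SL(2, ℤ) ⧸ Γ) := Fintype.ofFinite _
  haveI := finite_negSub_inf_triSub Γ K
  have h1 := LinearMap.finrank_le_finrank_of_injective (toXiProd_injective Γ K hneg)
  rw [Module.finrank_prod, Module.finrank_self] at h1
  have h2 := six_mul_finrank_inf_le K (permS Γ) (permR Γ) (permS_permS hneg)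
    (permR_permR_permR hneg) (perm_trans hneg)
  rw [Nat.card_eq_fintype_card, Nat.card_eq_fintype_card, Nat.card_eq_fintype_card]
  omega

end Finite

section Exist

variable (Γ : Subgroup SL(2, ℤ)) (K : Type*) [Field K]

/-- The orbit space of `T` on the coset space ("cusps"). -/
abbrev Cusps : Type :=
  MulAction.orbitRel.Quotient (Subgroup.zpowers (T : SL(2, ℤ))) (SL(2, ℤ) ⧸ Γ)

/-- The cusp of a group element. -/
def omega (g : SL(2, ℤ)) : Cusps Γ := Quotient.mk'' (g : SL(2, ℤ) ⧸ Γ)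

theorem omega_surjective : Function.Surjective (omega Γ) := by
  intro c
  induction c using Quotient.inductionOn' with
  | h q =>
    induction q using QuotientGroup.induction_on with
    | H g => exact ⟨g, rfl⟩

theorem omega_eq_iff {g g' : SL(2, ℤ)} :
    omega Γ g = omega Γ g' ↔ ∃ (γ : Γ) (n : ℤ), g = T ^ n * g' * γ := by
  unfold omega
  rw [Quotient.eq'', MulAction.orbitRel_apply, MulAction.mem_orbit_iff]
  constructor
  · rintro ⟨⟨x, hx⟩, h⟩
    obtain ⟨n, rfl⟩ := Subgroup.mem_zpowers_iff.mp hx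
    have h' : (((T : SL(2, ℤ)) ^ n * g' : SL(2, ℤ)) : SL(2, ℤ) ⧸ Γ) = (g : SL(2, ℤ) ⧸ Γ) := h
    rw [QuotientGroup.eq] at h'
    refine ⟨⟨_, h'⟩, n, ?_⟩
    simp only [mul_inv_cancel_left]
  · rintro ⟨γ, n, rfl⟩
    refine ⟨⟨T ^ n, Subgroup.mem_zpowers_iff.mpr ⟨n, rfl⟩⟩, ?_⟩
    show (((T : SL(2, ℤ)) ^ n * g' : SL(2, ℤ)) : SL(2, ℤ) ⧸ Γ) = _
    rw [QuotientGroup.eq]
    simp only [inv_mul_cancel_left]
    exact γ.2

/-- A chosen representative of the cusp of `g`. -/
noncomputable def rep (g : SL(2, ℤ)) : SL(2, ℤ) :=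
  Function.surjInv (omega_surjective Γ) (omega Γ g)

theorem omega_rep (g : SL(2, ℤ)) : omega Γ (rep Γ g) = omega Γ g :=
  Function.surjInv_eq _ _

theorem rep_congr {g g' : SL(2, ℤ)} (h : omega Γ g = omega Γ g') : rep Γ g = rep Γ g' := by
  unfold rep
  rw [h]

theorem exists_decomp (g : SL(2, ℤ)) : ∃ (γ : Γ) (n : ℤ), g = T ^ n * rep Γ g * γ :=
  (omega_eq_iff Γ).mp (omega_rep Γ g).symm

theorem trace_conj_T_zpow (r : SL(2, ℤ)) (k : ℤ) :
    ((r⁻¹ * T ^ k * r : SL(2, ℤ)) : Matrix (Fin 2) (Fin 2) ℤ).trace = 2 := by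
  rw [Matrix.SpecialLinearGroup.coe_mul, Matrix.trace_mul_comm,
    ← Matrix.SpecialLinearGroup.coe_mul, mul_inv_cancel_left, coe_T_zpow,
    Matrix.trace_fin_two_of]
  norm_num

variable {Γ K} in
theorem psi_eq_of_decomp {ψ : Additive Γ →+ K} (hψ : IsParabolicHom Γ ψ) {r : SL(2, ℤ)}
    {γ γ' : Γ} {n m : ℤ} (h : T ^ n * r * γ = T ^ m * r * γ') :
    ψ (Additive.ofMul γ) = ψ (Additive.ofMul γ') := by
  have hδ : ((γ' * γ⁻¹ : Γ) : SL(2, ℤ)) = r⁻¹ * T ^ (n - m) * r := by
    have h1 : (γ' : SL(2, ℤ)) = (T ^ m * r)⁻¹ * (T ^ n * r * γ) := by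
      rw [h]; group
    rw [Subgroup.coe_mul, Subgroup.coe_inv, h1]
    group
  have h0 : ψ (Additive.ofMul (γ' * γ⁻¹)) = 0 := by
    apply hψ
    rw [hδ, trace_conj_T_zpow]
    norm_num
  have h2 : ψ (Additive.ofMul γ') = ψ (Additive.ofMul (γ' * γ⁻¹)) + ψ (Additive.ofMul γ) := by
    rw [← map_add, ← ofMul_mul, inv_mul_cancel_right]
  rw [h2, h0, zero_add]

variable {Γ K} in
/-- The potential attached to a parabolic character. -/
noncomputable def potOf (ψ : Additive Γ →+ K) (g : SL(2, ℤ)) : K :=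
  ψ (Additive.ofMul (Classical.choose (exists_decomp Γ g)))

variable {Γ K} in
theorem potOf_eq {ψ : Additive Γ →+ K} (hψ : IsParabolicHom Γ ψ) {g r : SL(2, ℤ)}
    (hr : r = rep Γ g) {γ : Γ} {n : ℤ} (h : g = T ^ n * r * γ) :
    potOf ψ g = ψ (Additive.ofMul γ) := by
  subst hr
  obtain ⟨m, hm⟩ := Classical.choose_spec (exists_decomp Γ g)
  unfold potOf
  refine psi_eq_of_decomp hψ (r := rep Γ g) (n := m) (m := n) ?_
  rw [← hm, ← h]

variable {Γ K} in
theorem potOf_T_mul {ψ : Additive Γ →+ K} (hψ : IsParabolicHom Γ ψ) (g : SL(2, ℤ)) :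
    potOf ψ (T * g) = potOf ψ g := by
  obtain ⟨γ, n, h⟩ := exists_decomp Γ g
  have hom : omega Γ (T * g) = omega Γ g :=
    (omega_eq_iff Γ).mpr ⟨1, 1, by simp⟩
  have h1 : T * g = T ^ (n + 1) * rep Γ g * γ := by
    rw [add_comm, zpow_one_add, mul_assoc T, mul_assoc T, ← h]
  rw [potOf_eq hψ (rep_congr Γ hom).symm h1, potOf_eq hψ rfl h]

variable {Γ K} in
theorem potOf_mul {ψ : Additive Γ →+ K} (hψ : IsParabolicHom Γ ψ) (g : SL(2, ℤ)) (γ₀ : Γ) :
    potOf ψ (g * γ₀) = potOf ψ g + ψ (Additive.ofMul γ₀) := by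
  obtain ⟨γ, n, h⟩ := exists_decomp Γ g
  have hom : omega Γ (g * γ₀) = omega Γ g :=
    (omega_eq_iff Γ).mpr ⟨γ₀, 0, by simp⟩
  have h1 : g * γ₀ = T ^ n * rep Γ g * (γ * γ₀ : Γ) := by
    rw [Subgroup.coe_mul, ← mul_assoc, ← h]
  rw [potOf_eq hψ (rep_congr Γ hom).symm h1, potOf_eq hψ rfl h, ofMul_mul, map_add]

variable {Γ K} in
theorem potOf_mem {ψ : Additive Γ →+ K} (hψ : IsParabolicHom Γ ψ) : potOf ψ ∈ Pot Γ K := by
  refine ⟨fun g => potOf_T_mul hψ g, fun γ g h => ?_⟩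
  rw [potOf_mul hψ, potOf_mul hψ]
  ring

theorem parabolicHoms_le_range_toHom :
    parabolicHoms K Γ K ≤ LinearMap.range (toHom Γ K) := by
  intro ψ hψ
  rw [mem_parabolicHoms_iff] at hψ
  refine ⟨⟨potOf ψ, potOf_mem hψ⟩, ?_⟩
  refine AddMonoidHom.ext fun γ => ?_
  obtain ⟨γ, rfl⟩ := Additive.ofMul.surjective γ
  show potOf ψ (γ : SL(2, ℤ)) - potOf ψ 1 = ψ (Additive.ofMul γ)
  have := potOf_mul hψ 1 γ
  rw [one_mul] at this
  rw [this]
  ring

end Exist

section Final

variable (Γ : Subgroup SL(2, ℤ)) (K : Type*) [Field K]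

theorem omega_T_mul (g : SL(2, ℤ)) : omega Γ (T * g) = omega Γ g :=
  (omega_eq_iff Γ).mpr ⟨1, 1, by simp⟩

theorem omega_mul (g : SL(2, ℤ)) (γ : Γ) : omega Γ (g * γ) = omega Γ g :=
  (omega_eq_iff Γ).mpr ⟨γ, 0, by simp⟩

/-- Functions on cusps give potentials (with trivial character). -/
def cuspPot : (Cusps Γ → K) →ₗ[K] Pot Γ K where
  toFun w := ⟨fun g => w (omega Γ g),
    ⟨fun g => by show w (omega Γ (T * g)) = w (omega Γ g); rw [omega_T_mul],
      fun γ g h => by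
        show w (omega Γ (g * γ)) - w (omega Γ g) = w (omega Γ (h * γ)) - w (omega Γ h)
        rw [omega_mul, omega_mul, sub_self, sub_self]⟩⟩
  map_add' _ _ := rfl
  map_smul' _ _ := rfl

theorem cuspPot_injective : Function.Injective (cuspPot Γ K) := by
  intro w w' h
  funext c
  obtain ⟨g, rfl⟩ := omega_surjective Γ c
  have := congrArg (fun v : Pot Γ K => v.1 g) h
  exact this

theorem range_cuspPot_le_ker : LinearMap.range (cuspPot Γ K) ≤ LinearMap.ker (toHom Γ K) := by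
  rintro _ ⟨w, rfl⟩
  rw [LinearMap.mem_ker]
  refine AddMonoidHom.ext fun γ => ?_
  obtain ⟨γ, rfl⟩ := Additive.ofMul.surjective γ
  show w (omega Γ (γ : SL(2, ℤ))) - w (omega Γ 1) = 0
  have := omega_mul Γ 1 γ
  rw [one_mul] at this
  rw [this, sub_self]

variable [Γ.FiniteIndex] [CharZero K]

/-- **Dimension bound for parabolic homomorphisms** (abstract form):
`dim Hom_par(Γ, K) ≤ 2 + μ/6 - e₂/2 - 2e₃/3 - c`. -/
theorem finrank_parabolicHoms_bound (hneg : (-1 : SL(2, ℤ)) ∈ Γ) :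
    Module.Finite K ↥(parabolicHoms K Γ K) ∧
    6 * finrank K ↥(parabolicHoms K Γ K) + 6 * Nat.card (Cusps Γ)
      + 3 * Nat.card (Function.fixedPoints (permS Γ))
      + 4 * Nat.card (Function.fixedPoints (permR Γ))
      ≤ Nat.card (SL(2, ℤ) ⧸ Γ) + 12 := by
  classical
  haveI := finite_pot Γ K hneg
  have hle := parabolicHoms_le_range_toHom Γ K
  haveI hfin : Module.Finite K ↥(parabolicHoms K Γ K) := Submodule.finiteDimensional_of_le hle
  refine ⟨hfin, ?_⟩
  have h1 := LinearMap.finrank_range_add_finrank_ker (toHom Γ K)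
  have h2 : finrank K ↥(parabolicHoms K Γ K) ≤ finrank K ↥(LinearMap.range (toHom Γ K)) :=
    Submodule.finrank_mono hle
  have h3 : Nat.card (Cusps Γ) ≤ finrank K ↥(LinearMap.ker (toHom Γ K)) := by
    haveI : Finite (Cusps Γ) := Quotient.finite _
    letI : Fintype (Cusps Γ) := Fintype.ofFinite _
    have e1 : finrank K ↥(LinearMap.range (cuspPot Γ K)) = finrank K (Cusps Γ → K) :=
      LinearMap.finrank_range_of_inj (cuspPot_injective Γ K)
    rw [Module.finrank_fintype_fun_eq_card] at e1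
    rw [Nat.card_eq_fintype_card, ← e1]
    exact Submodule.finrank_mono (range_cuspPot_le_ker Γ K)
  have h4 := six_mul_finrank_pot_le Γ K hneg
  omega

end Final

end Fermat.Agent.S21.ParDim
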