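import Mathlib
import Fermat.Prelude.Def_ModularCurve_PeriodHomPair
import Fermat.Prelude.Def_ModularCurve_GenusNumerics
import Fermat.Agent.S21.ParDimPot

/-!
# S21 / ParDim — the dimension bound for `Γ₀(N)` in terms of the genus formula,
and the derivation of the existence statement `D'` from the dimension formula `S20`.
-/

set_option autoImplicit false
set_option linter.style.haveILetI false

open scoped MatrixGroups
open ModularGroup Module CongruenceSubgroup
open ModularCurve ModularCurve.Period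

namespace Fermat.Agent.S21.ParDim

theorem neg_one_mem_Gamma0 (N : ℕ) : (-1 : SL(2, ℤ)) ∈ Gamma0 N := by
  rw [Gamma0_mem]
  simp

theorem card_fixedPoints_permS (Γ : Subgroup SL(2, ℤ)) :
    Nat.card (Function.fixedPoints (permS Γ))
      = Nat.card (MulAction.fixedBy (SL(2, ℤ) ⧸ Γ) (S : SL(2, ℤ))) := rfl

theorem card_fixedPoints_permR (Γ : Subgroup SL(2, ℤ)) :
    Nat.card (Function.fixedPoints (permR Γ))
      = Nat.card (MulAction.fixedBy (SL(2, ℤ) ⧸ Γ) (S * T : SL(2, ℤ))) := by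
  apply Nat.card_congr
  refine
    { toFun := fun q => ⟨(T⁻¹ : SL(2, ℤ)) • q.1, ?_⟩
      invFun := fun q => ⟨(T : SL(2, ℤ)) • q.1, ?_⟩
      left_inv := fun q => by simp
      right_inv := fun q => by simp }
  · have hq : (T * S : SL(2, ℤ)) • q.1 = q.1 := q.2
    rw [MulAction.mem_fixedBy, smul_smul, mul_assoc, mul_inv_cancel, mul_one,
      eq_inv_smul_iff, smul_smul]
    exact hq
  · have hq : (S * T : SL(2, ℤ)) • q.1 = q.1 := q.2
    show (T * S : SL(2, ℤ)) • ((T : SL(2, ℤ)) • q.1) = (T : SL(2, ℤ)) • q.1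
    rw [smul_smul, mul_assoc, ← smul_smul, hq]

/-- **D1**: the dimension bound for parabolic homomorphisms of `Γ₀(N)`, given the four
combinatorial counts on `SL(2,ℤ) ⧸ Γ₀(N)`. -/
theorem finrank_parabolicHoms_Gamma0_le (N : ℕ) [NeZero N] (K : Type*) [Field K] [CharZero K]
    (h1 : Nat.card (SL(2, ℤ) ⧸ Gamma0 N) = dedekindPsi N)
    (h2 : Nat.card (MulAction.fixedBy (SL(2, ℤ) ⧸ Gamma0 N) (S : SL(2, ℤ))) = nuTwo N)
    (h3 : Nat.card (MulAction.fixedBy (SL(2, ℤ) ⧸ Gamma0 N) (S * T : SL(2, ℤ))) = nuThree N)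
    (h4 : Nat.card (MulAction.orbitRel.Quotient (Subgroup.zpowers (T : SL(2, ℤ)))
      (SL(2, ℤ) ⧸ Gamma0 N)) = cuspCount N) :
    Module.Finite K ↥(parabolicHoms K (Gamma0 N) K) ∧
      (finrank K ↥(parabolicHoms K (Gamma0 N) K) : ℚ) ≤ 2 * genusFormula N := by
  obtain ⟨hfin, hb⟩ := finrank_parabolicHoms_bound (Gamma0 N) K (neg_one_mem_Gamma0 N)
  refine ⟨hfin, ?_⟩
  rw [card_fixedPoints_permS, card_fixedPoints_permR, h1, h2, h3] at hb
  have h4' : Nat.card (Cusps (Gamma0 N)) = cuspCount N := h4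
  rw [h4'] at hb
  have hb' : (6 * (finrank K ↥(parabolicHoms K (Gamma0 N) K) : ℚ) + 6 * (cuspCount N : ℚ)
      + 3 * (nuTwo N : ℚ) + 4 * (nuThree N : ℚ)) ≤ (dedekindPsi N : ℚ) + 12 := by
    exact_mod_cast hb
  unfold genusFormula
  linarith

/-- The real part of a complex-valued additive character. -/
noncomputable def reChar {Γ : Subgroup SL(2, ℤ)} (ψ : Additive Γ →+ ℂ) : Additive Γ →+ ℝ :=
  (Complex.reLm.toAddMonoidHom).comp ψ

@[simp]
theorem reChar_apply {Γ : Subgroup SL(2, ℤ)} (ψ : Additive Γ →+ ℂ) (γ : Additive Γ) :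
    reChar ψ γ = (ψ γ).re := rfl

theorem reChar_mem {Γ : Subgroup SL(2, ℤ)} {ψ : Additive Γ →+ ℂ}
    (hψ : ψ ∈ parabolicHoms ℂ Γ ℂ) : reChar ψ ∈ parabolicHoms ℝ Γ ℝ := by
  rw [mem_parabolicHoms_iff] at hψ ⊢
  intro γ hγ
  rw [reChar_apply, hψ γ hγ]
  rfl

/-- The `ℝ`-linear map `f ↦ Re ∘ P(f)` into real parabolic homomorphisms. -/
noncomputable def rePeriod (N : ℕ)
    (pml : CuspForm (Gamma0 N) 2 →ₗ[ℂ] (Additive (Gamma0 N) →+ ℂ))
    (hpar : ∀ f, pml f ∈ parabolicHoms ℂ (Gamma0 N) ℂ) :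
    CuspForm (Gamma0 N) 2 →ₗ[ℝ] ↥(parabolicHoms ℝ (Gamma0 N) ℝ) where
  toFun f := ⟨reChar (pml f), reChar_mem (hpar f)⟩
  map_add' f g := by
    apply Subtype.ext
    refine AddMonoidHom.ext fun γ => ?_
    simp [map_add]
  map_smul' c f := by
    apply Subtype.ext
    refine AddMonoidHom.ext fun γ => ?_
    have hcf : c • f = (c : ℂ) • f := by
      apply CuspForm.ext
      intro z
      rfl
    show ((pml (c • f)) γ).re = c * ((pml f) γ).re
    rw [hcf, map_smul, AddMonoidHom.smul_apply, smul_eq_mul, Complex.re_ofReal_mul]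

/-- **D'-alt**: existence of a cusp form with prescribed real parts of periods, deduced from the
dimension formula (`S20`), the dimension bound (`D1`) and injectivity (`C'`). -/
theorem exists_re_periodMap_eq_of_finrank (N : ℕ) [NeZero N]
    (hlin : ExistsPeriodMapLinear N)
    (hpar : ∀ f : CuspForm (Gamma0 N) 2, periodMap N f ∈ parabolicHoms ℂ (Gamma0 N) ℂ)
    (hinj : ∀ f : CuspForm (Gamma0 N) 2,
      (∀ γ : Gamma0 N, (periodMap N f (Additive.ofMul γ)).re = 0) → f = 0)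
    (hS20 : (finrank ℂ (CuspForm (Gamma0 N) 2) : ℚ) = genusFormula N)
    (hD1 : Module.Finite ℝ ↥(parabolicHoms ℝ (Gamma0 N) ℝ) ∧
      (finrank ℝ ↥(parabolicHoms ℝ (Gamma0 N) ℝ) : ℚ) ≤ 2 * genusFormula N)
    (φ : Additive (Gamma0 N) →+ ℝ) (hφ : IsParabolicHom (Gamma0 N) φ) :
    ∃ f : CuspForm (Gamma0 N) 2, ∀ γ : Gamma0 N,
      (periodMap N f (Additive.ofMul γ)).re = φ (Additive.ofMul γ) := by
  obtain ⟨pml, hpml⟩ := hlin
  obtain ⟨hfin, hle⟩ := hD1
  have hpar' : ∀ f, pml f ∈ parabolicHoms ℂ (Gamma0 N) ℂ := fun f => by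
    rw [hpml]; exact hpar f
  set L := rePeriod N pml hpar' with hL
  have hLinj : Function.Injective L := by
    rw [← LinearMap.ker_eq_bot, LinearMap.ker_eq_bot']
    intro f hf
    apply hinj
    intro γ
    have := congrArg (fun x : ↥(parabolicHoms ℝ (Gamma0 N) ℝ) => x.1 (Additive.ofMul γ)) hf
    simp only [hL, rePeriod, LinearMap.coe_mk, AddHom.coe_mk, reChar_apply, hpml] at this
    exact this
  haveI : Module.Finite ℝ (CuspForm (Gamma0 N) 2) := Module.Finite.of_injective L hLinj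
  have h1 : finrank ℝ (CuspForm (Gamma0 N) 2) = 2 * finrank ℂ (CuspForm (Gamma0 N) 2) :=
    finrank_real_of_complex _
  have h2 : finrank ℝ (CuspForm (Gamma0 N) 2) ≤ finrank ℝ ↥(parabolicHoms ℝ (Gamma0 N) ℝ) :=
    LinearMap.finrank_le_finrank_of_injective hLinj
  have h3 : finrank ℝ (CuspForm (Gamma0 N) 2) = finrank ℝ ↥(parabolicHoms ℝ (Gamma0 N) ℝ) := by
    apply le_antisymm h2
    have : (finrank ℝ ↥(parabolicHoms ℝ (Gamma0 N) ℝ) : ℚ)
        ≤ (finrank ℝ (CuspForm (Gamma0 N) 2) : ℚ) := by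
      rw [h1]
      push_cast
      rw [hS20]
      exact hle
    exact_mod_cast this
  have hsurj : Function.Surjective L :=
    (LinearMap.injective_iff_surjective_of_finrank_eq_finrank h3).mp hLinj
  obtain ⟨f, hf⟩ := hsurj ⟨φ, hφ⟩
  refine ⟨f, fun γ => ?_⟩
  have := congrArg (fun x : ↥(parabolicHoms ℝ (Gamma0 N) ℝ) => x.1 (Additive.ofMul γ)) hf
  simp only [hL, rePeriod, LinearMap.coe_mk, AddHom.coe_mk, reChar_apply, hpml] at this
  exact this

end Fermat.Agent.S21.ParDim
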